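/-
Project FF (S19), cell [INST], sub-cell [I-PT], leaf [T-RED] (abstract core).  Owner: helper13.
Prefix `ffi_red_`.  Imports Mathlib + JT3/Riemann/Principal only.

ABSTRACT consequences of "`r_* (div y) = div ȳ`" for a map `r : Place K F → Place k Fk` between the
places of two function fields over algebraically closed fields, with separating generators `x`,
`xb` of the SAME degree:

* `ffi_red_poleDiv`  : `r_* (x)_∞ = (xb)_∞`   (from two pairs `(x - c_i, xb - d_i)`, `d₁ ≠ d₂`);
* `ffi_red_zeroDiv`  : `r_* (x - c)_0 = (xb - d)_0` for every reducible pair `(x - c, xb - d)`;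
* `ffi_red_pole`, `ffi_red_zero` : poles of `x` go to poles of `xb`, zeros of `x - c` to zeros of
  `xb - d`;
* `ffi_red_ord_le`, `ffi_red_ord_nonneg`, `ffi_red_exists_zero`, `ffi_red_simple_zero` : for a
  reducible pair `(a, ab)` with `a` regular off the poles of `x` and `Q` not a pole of `xb`:
  `ord_P a ≤ ord_Q ab` for `r P = Q`; a zero of `ab` at `Q` comes from a zero of `a` in the fibre;
  a SIMPLE zero comes from exactly one simple zero.
-/
import Mathlib
import Fermat.Agent.JT3.Riemann.Principal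

set_option autoImplicit false
set_option linter.unusedSectionVars false

noncomputable section

namespace Fermat.Agent.FF

open AlgebraicCurve IntermediateField Fermat.Agent.JT3 Fermat.Agent.S24
open scoped Classical

/-! ### push-forward of finitely supported functions -/

section Push

variable {α : Type*} {β : Type*}

theorem ffi_red_mapDomain_apply (f : α → β) (D : α →₀ ℤ) (b : β) :
    Finsupp.mapDomain f D b = ∑ a ∈ D.support.filter (fun a => f a = b), D a := by
  rw [Finsupp.mapDomain, Finsupp.sum_apply, Finsupp.sum, Finset.sum_filter]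
  refine Finset.sum_congr rfl fun a _ => ?_
  rw [Finsupp.single_apply]

theorem ffi_red_mapDomain_nonneg (f : α → β) {D : α →₀ ℤ} (hD : 0 ≤ D) :
    0 ≤ Finsupp.mapDomain f D := by
  intro b
  rw [ffi_red_mapDomain_apply]
  exact Finset.sum_nonneg fun a _ => hD a

/-- a single term of a push-forward of a nonnegative function -/
theorem ffi_red_le_mapDomain (f : α → β) {D : α →₀ ℤ} (hD : 0 ≤ D) (a : α) :
    D a ≤ Finsupp.mapDomain f D (f a) := by
  rw [ffi_red_mapDomain_apply]
  by_cases ha : a ∈ D.support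
  · exact Finset.single_le_sum (f := fun a => D a) (fun i _ => hD i)
      (Finset.mem_filter.mpr ⟨ha, rfl⟩)
  · rw [Finsupp.notMem_support_iff.mp ha]
    exact Finset.sum_nonneg fun i _ => hD i

end Push

universe u1 u2 u3 u4

variable {K : Type u1} {F : Type u2} [Field K] [Field F] [Algebra K F] [IsAlgClosed K]
  {k : Type u3} {Fk : Type u4} [Field k] [Field Fk] [Algebra k Fk] [IsAlgClosed k]
  {x : F} (hx : rt_IsSepGen K x) {xb : Fk} (hxb : rt_IsSepGen k xb)
  (r : Place K F → Place k Fk)

/-! ### preliminaries on divisors -/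

include hx hxb in
theorem ffi_red_degree_mapDomain (D : Divisor K F) :
    Divisor.degree (Finsupp.mapDomain r D) = Divisor.degree D := by
  induction D using Finsupp.induction with
  | zero => simp
  | single_add P n D _ _ ih =>
    rw [Finsupp.mapDomain_add, map_add, map_add, ih, Finsupp.mapDomain_single,
      rt_degree_single hx, rt_degree_single hxb]

include hx in
theorem ffi_red_eq_zero_of_nonneg {D : Divisor K F} (hD : 0 ≤ D) (h0 : Divisor.degree D = 0) :
    D = 0 := by
  rw [rt_degree_eq_sum hx D D.support (Finset.Subset.refl _)] at h0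
  ext v
  rw [Finsupp.zero_apply]
  by_cases hv : v ∈ D.support
  · exact (Finset.sum_eq_zero_iff_of_nonneg fun i _ => hD i).mp h0 v hv
  · exact Finsupp.notMem_support_iff.mp hv

include hx in
theorem ffi_red_sub_const_ne_zero (c : K) : x - algebraMap K F c ≠ 0 :=
  fun h => (hx.sub_const c).1 (h ▸ isAlgebraic_zero)

include hx in
theorem ffi_red_x_ne_zero : x ≠ 0 := fun h => hx.1 (h ▸ isAlgebraic_zero)

include hx in
/-- `ord_v (x - c)` at a pole of `x` -/
theorem ffi_red_ord_sub_const_of_neg (v : Place K F) (c : K) (hv : v.ord x < 0) :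
    v.ord (x - algebraMap K F c) = v.ord x := by
  by_cases hc : c = 0
  · rw [hc, map_zero, sub_zero]
  · have hc' : -algebraMap K F c ≠ 0 := neg_ne_zero.mpr ((map_ne_zero _).mpr hc)
    rw [sub_eq_add_neg]
    refine hw_ord_add_eq_of_lt v (ffi_red_x_ne_zero hx) hc' ?_
    rw [hw_ord_neg, hw_ord_algebraMap]
    exact hv

include hx in
theorem ffi_red_ord_sub_const_nonneg (v : Place K F) (c : K) (hv : 0 ≤ v.ord x) :
    0 ≤ v.ord (x - algebraMap K F c) := by
  have h1 : x ∈ v.toValuationSubring := (hw_mem_iff_ord_nonneg v (ffi_red_x_ne_zero hx)).mpr hv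
  have h2 : x - algebraMap K F c ∈ v.toValuationSubring := sub_mem h1 (v.algebraMap_mem' c)
  exact (hw_mem_iff_ord_nonneg v (ffi_red_sub_const_ne_zero hx c)).mp h2

/-- the pole divisor of `x - c` is the pole divisor of `x` -/
theorem ffi_red_poleDiv_sub_const (c : K) :
    rt_poleDiv hx (x - algebraMap K F c) = rt_poleDiv hx x := by
  ext v
  rw [rt_poleDiv_apply, rt_poleDiv_apply]
  rcases lt_or_ge (v.ord x) 0 with h | h
  · rw [ffi_red_ord_sub_const_of_neg hx v c h]
  · have := ffi_red_ord_sub_const_nonneg hx v c h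
    rw [max_eq_right (by omega), max_eq_right (by omega)]

theorem ffi_red_div_sub_const (c : K) :
    rt_div hx (x - algebraMap K F c) =
      rt_zeroDiv hx (x - algebraMap K F c) - rt_poleDiv hx x := by
  rw [rt_div_eq_sub, ffi_red_poleDiv_sub_const]

include hx in
/-- the zeros of `x - c` and of `x - c'` are disjoint for `c ≠ c'` -/
theorem ffi_red_zeroDiv_disjoint {c c' : K} (hc : c ≠ c') (v : Place K F) :
    rt_zeroDiv hx (x - algebraMap K F c) v = 0 ∨ rt_zeroDiv hx (x - algebraMap K F c') v = 0 := by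
  rw [rt_zeroDiv_apply, rt_zeroDiv_apply]
  by_contra hcon
  push Not at hcon
  have h1 : 0 < v.ord (x - algebraMap K F c) := by
    by_contra h; exact hcon.1 (max_eq_right (not_lt.mp h))
  have h2 : 0 < v.ord (x - algebraMap K F c') := by
    by_contra h; exact hcon.2 (max_eq_right (not_lt.mp h))
  have hne : (x - algebraMap K F c) + -(x - algebraMap K F c') ≠ 0 := by
    have : (x - algebraMap K F c) + -(x - algebraMap K F c') = algebraMap K F (c' - c) := by
      rw [map_sub]; ring
    rw [this]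
    exact (map_ne_zero _).mpr (sub_ne_zero.mpr hc.symm)
  have h3 := hw_ord_add_ge v (ffi_red_sub_const_ne_zero hx c)
    (neg_ne_zero.mpr (ffi_red_sub_const_ne_zero hx c')) hne
  have h4 : (x - algebraMap K F c) + -(x - algebraMap K F c') = algebraMap K F (c' - c) := by
    rw [map_sub]; ring
  rw [h4, hw_ord_algebraMap, hw_ord_neg] at h3
  rcases min_le_iff.mp h3 with h | h <;> omega

/-! ### the pole divisor and the zero divisors -/

include hx hxb in
/-- **`r_* (x)_∞ = (xb)_∞`** -/
theorem ffi_red_poleDiv (hn : Module.finrank K⟮x⟯ F = Module.finrank k⟮xb⟯ Fk)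
    {c₁ c₂ : K} {d₁ d₂ : k} (hd : d₁ ≠ d₂)
    (h₁ : Finsupp.mapDomain r (rt_div hx (x - algebraMap K F c₁)) =
      rt_div hxb (xb - algebraMap k Fk d₁))
    (h₂ : Finsupp.mapDomain r (rt_div hx (x - algebraMap K F c₂)) =
      rt_div hxb (xb - algebraMap k Fk d₂)) :
    Finsupp.mapDomain r (rt_poleDiv hx x) = rt_poleDiv hxb xb := by
  set T := rt_poleDiv hx x with hT
  set Tb := rt_poleDiv hxb xb with hTb
  have key : ∀ (c : K) (d : k), Finsupp.mapDomain r (rt_div hx (x - algebraMap K F c)) =
      rt_div hxb (xb - algebraMap k Fk d) →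
      Finsupp.mapDomain r T - Tb = Finsupp.mapDomain r (rt_zeroDiv hx (x - algebraMap K F c)) -
        rt_zeroDiv hxb (xb - algebraMap k Fk d) := by
    intro c d h
    rw [ffi_red_div_sub_const hx, ffi_red_div_sub_const hxb, Finsupp.mapDomain_sub] at h
    rw [← hT, ← hTb] at h
    have aux : ∀ a t b tb : Divisor k Fk, a - t = b - tb → t - tb = a - b := by
      intro a t b tb hh
      rw [sub_eq_sub_iff_add_eq_add] at hh ⊢
      rw [add_comm, ← hh, add_comm]
    exact aux _ _ _ _ h
  have hΔ : 0 ≤ Finsupp.mapDomain r T - Tb := by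
    intro Q
    rw [Finsupp.zero_apply]
    rcases ffi_red_zeroDiv_disjoint hxb hd Q with h | h
    · rw [key c₁ d₁ h₁, Finsupp.sub_apply, h, sub_zero]
      exact ffi_red_mapDomain_nonneg r (rt_zeroDiv_nonneg hx _) Q
    · rw [key c₂ d₂ h₂, Finsupp.sub_apply, h, sub_zero]
      exact ffi_red_mapDomain_nonneg r (rt_zeroDiv_nonneg hx _) Q
  have hdeg : Divisor.degree (Finsupp.mapDomain r T - Tb) = 0 := by
    rw [map_sub, ffi_red_degree_mapDomain hx hxb, hT, hTb, rt_degree_poleDiv hx hx.1,
      rt_degree_poleDiv hxb hxb.1, hn, sub_self]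
  exact sub_eq_zero.mp (ffi_red_eq_zero_of_nonneg hxb hΔ hdeg)

include hx hxb in
/-- **`r_* (x - c)_0 = (xb - d)_0`** for a reducible pair, once `r_* (x)_∞ = (xb)_∞` -/
theorem ffi_red_zeroDiv
    (hT : Finsupp.mapDomain r (rt_poleDiv hx x) = rt_poleDiv hxb xb) {c : K} {d : k}
    (h : Finsupp.mapDomain r (rt_div hx (x - algebraMap K F c)) =
      rt_div hxb (xb - algebraMap k Fk d)) :
    Finsupp.mapDomain r (rt_zeroDiv hx (x - algebraMap K F c)) =
      rt_zeroDiv hxb (xb - algebraMap k Fk d) := by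
  rw [ffi_red_div_sub_const hx, ffi_red_div_sub_const hxb, Finsupp.mapDomain_sub, hT] at h
  exact sub_left_injective h

/-! ### pointwise consequences -/

theorem ffi_red_poleDiv_pos_iff (v : Place K F) :
    0 < rt_poleDiv hx x v ↔ x ∉ v.toValuationSubring := by
  rw [rt_poleDiv_apply, hw_mem_iff_ord_nonneg v (ffi_red_x_ne_zero hx)]
  constructor
  · intro h hcon
    rw [max_eq_right (by omega)] at h
    exact lt_irrefl _ h
  · intro h
    exact lt_max_of_lt_left (by omega)

include hx hxb in
/-- poles of `x` go to poles of `xb` -/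
theorem ffi_red_pole (hT : Finsupp.mapDomain r (rt_poleDiv hx x) = rt_poleDiv hxb xb)
    {P : Place K F} (hP : x ∉ P.toValuationSubring) : xb ∉ (r P).toValuationSubring := by
  rw [← ffi_red_poleDiv_pos_iff hxb, ← hT]
  exact lt_of_lt_of_le ((ffi_red_poleDiv_pos_iff hx P).mpr hP)
    (ffi_red_le_mapDomain r (rt_poleDiv_nonneg hx x) P)

include hx hxb in
/-- places over a non-pole of `xb` are non-poles of `x` -/
theorem ffi_red_mem_of_mem (hT : Finsupp.mapDomain r (rt_poleDiv hx x) = rt_poleDiv hxb xb)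
    {P : Place K F} (hP : xb ∈ (r P).toValuationSubring) : x ∈ P.toValuationSubring := by
  by_contra h
  exact ffi_red_pole hx hxb r hT h hP

include hx hxb in
/-- zeros of `x - c` go to zeros of `xb - d` -/
theorem ffi_red_zero (hT : Finsupp.mapDomain r (rt_poleDiv hx x) = rt_poleDiv hxb xb)
    {c : K} {d : k}
    (h : Finsupp.mapDomain r (rt_div hx (x - algebraMap K F c)) =
      rt_div hxb (xb - algebraMap k Fk d))
    {P : Place K F} (hP : 0 < P.ord (x - algebraMap K F c)) :
    0 < (r P).ord (xb - algebraMap k Fk d) := by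
  have h1 := ffi_red_le_mapDomain r (rt_zeroDiv_nonneg hx (x - algebraMap K F c)) P
  rw [ffi_red_zeroDiv hx hxb r hT h, rt_zeroDiv_apply, rt_zeroDiv_apply, max_eq_left hP.le] at h1
  rcases le_max_iff.mp h1 with h2 | h2 <;> omega

/-! ### functions regular off the poles of `x` -/

section Regular

variable {a : F} {ab : Fk}

include hx hxb in
/-- for a reducible pair `(a, ab)` with `a` regular off the poles of `x` and `Q` not a pole of
`xb`: all the terms of `ord_Q ab = ∑_{r P = Q} ord_P a` are nonnegative -/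
theorem ffi_red_fibre_nonneg (hT : Finsupp.mapDomain r (rt_poleDiv hx x) = rt_poleDiv hxb xb)
    (ha0 : a ≠ 0) (hreg : ∀ P : Place K F, x ∈ P.toValuationSubring → a ∈ P.toValuationSubring)
    {P : Place K F} (hP : xb ∈ (r P).toValuationSubring) : 0 ≤ P.ord a :=
  (hw_mem_iff_ord_nonneg P ha0).mp (hreg P (ffi_red_mem_of_mem hx hxb r hT hP))

include hx hxb in
theorem ffi_red_ord_eq_sum (h : Finsupp.mapDomain r (rt_div hx a) = rt_div hxb ab)
    (Q : Place k Fk) :
    Q.ord ab = ∑ P ∈ (rt_div hx a).support.filter (fun P => r P = Q), P.ord a := by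
  rw [← rt_div_apply hxb ab Q, ← h, ffi_red_mapDomain_apply]
  rfl

include hx hxb in
/-- `ord_P a ≤ ord_{r P} ab` -/
theorem ffi_red_ord_le (hT : Finsupp.mapDomain r (rt_poleDiv hx x) = rt_poleDiv hxb xb)
    (ha0 : a ≠ 0) (hreg : ∀ P : Place K F, x ∈ P.toValuationSubring → a ∈ P.toValuationSubring)
    (h : Finsupp.mapDomain r (rt_div hx a) = rt_div hxb ab)
    {P : Place K F} (hP : xb ∈ (r P).toValuationSubring) : P.ord a ≤ (r P).ord ab := by
  rw [ffi_red_ord_eq_sum hx hxb r h (r P)]
  have hnn : ∀ P' ∈ (rt_div hx a).support.filter (fun P' => r P' = r P), 0 ≤ P'.ord a := by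
    intro P' hP'
    have h' : r P' = r P := (Finset.mem_filter.mp hP').2
    exact ffi_red_fibre_nonneg hx hxb r hT ha0 hreg (h' ▸ hP)
  by_cases hPs : P ∈ (rt_div hx a).support
  · have hmem : P ∈ (rt_div hx a).support.filter (fun P' => r P' = r P) :=
      Finset.mem_filter.mpr ⟨hPs, rfl⟩
    exact Finset.single_le_sum (f := fun P : Place K F => P.ord a) hnn hmem
  · have : P.ord a = 0 := Finsupp.notMem_support_iff.mp hPs
    rw [this]
    exact Finset.sum_nonneg hnn

include hx hxb in
/-- `0 ≤ ord_Q ab` at the non-poles of `xb` -/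
theorem ffi_red_ord_nonneg (hT : Finsupp.mapDomain r (rt_poleDiv hx x) = rt_poleDiv hxb xb)
    (ha0 : a ≠ 0) (hreg : ∀ P : Place K F, x ∈ P.toValuationSubring → a ∈ P.toValuationSubring)
    (h : Finsupp.mapDomain r (rt_div hx a) = rt_div hxb ab)
    {Q : Place k Fk} (hQ : xb ∈ Q.toValuationSubring) : 0 ≤ Q.ord ab := by
  rw [ffi_red_ord_eq_sum hx hxb r h Q]
  refine Finset.sum_nonneg fun P' hP' => ?_
  have h' : r P' = Q := (Finset.mem_filter.mp hP').2
  exact ffi_red_fibre_nonneg hx hxb r hT ha0 hreg (h' ▸ hQ)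

include hx hxb in
/-- a zero of `ab` at a non-pole `Q` of `xb` comes from a zero of `a` in the fibre of `Q` -/
theorem ffi_red_exists_zero (h : Finsupp.mapDomain r (rt_div hx a) = rt_div hxb ab)
    {Q : Place k Fk} (hQ0 : 0 < Q.ord ab) : ∃ P : Place K F, r P = Q ∧ 0 < P.ord a := by
  rw [ffi_red_ord_eq_sum hx hxb r h Q] at hQ0
  obtain ⟨P, hP, hpos⟩ := Finset.exists_lt_of_sum_lt
    (f := fun _ : Place K F => (0 : ℤ)) (g := fun P : Place K F => P.ord a) (by simpa using hQ0)
  exact ⟨P, (Finset.mem_filter.mp hP).2, hpos⟩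

include hx hxb in
/-- **a simple zero of `ab` at a non-pole of `xb` comes from exactly one simple zero of `a`** -/
theorem ffi_red_simple_zero (hT : Finsupp.mapDomain r (rt_poleDiv hx x) = rt_poleDiv hxb xb)
    (ha0 : a ≠ 0) (hreg : ∀ P : Place K F, x ∈ P.toValuationSubring → a ∈ P.toValuationSubring)
    (h : Finsupp.mapDomain r (rt_div hx a) = rt_div hxb ab)
    {Q : Place k Fk} (hQ : xb ∈ Q.toValuationSubring) (hQ1 : Q.ord ab = 1) :
    ∃ P : Place K F, r P = Q ∧ P.ord a = 1 ∧
      ∀ P' : Place K F, r P' = Q → P' ≠ P → P'.ord a = 0 := by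
  obtain ⟨P, hPQ, hP0⟩ := ffi_red_exists_zero hx hxb r h (Q := Q) (by omega)
  have hsum := ffi_red_ord_eq_sum hx hxb r h Q
  rw [hQ1] at hsum
  set S := (rt_div hx a).support.filter (fun P => r P = Q) with hS
  have hnn : ∀ P' ∈ S, 0 ≤ P'.ord a := by
    intro P' hP'
    have h' : r P' = Q := (Finset.mem_filter.mp hP').2
    exact ffi_red_fibre_nonneg hx hxb r hT ha0 hreg (h' ▸ hQ)
  have hPS : P ∈ S := by
    refine Finset.mem_filter.mpr ⟨?_, hPQ⟩
    rw [Finsupp.mem_support_iff, rt_div_apply]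
    omega
  rw [← Finset.add_sum_erase S (fun P => P.ord a) hPS] at hsum
  have hrest : 0 ≤ ∑ P' ∈ S.erase P, P'.ord a :=
    Finset.sum_nonneg fun P' hP' => hnn P' (Finset.mem_of_mem_erase hP')
  have hP1 : P.ord a = 1 := by omega
  have hrest0 : ∑ P' ∈ S.erase P, P'.ord a = 0 := by omega
  refine ⟨P, hPQ, hP1, fun P' hP'Q hne => ?_⟩
  by_cases hP'S : P' ∈ (rt_div hx a).support
  · have hmem : P' ∈ S.erase P :=
      Finset.mem_erase.mpr ⟨hne, Finset.mem_filter.mpr ⟨hP'S, hP'Q⟩⟩
    exact (Finset.sum_eq_zero_iff_of_nonneg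
      fun P'' hP'' => hnn P'' (Finset.mem_of_mem_erase hP'')).mp hrest0 P' hmem
  · exact Finsupp.notMem_support_iff.mp hP'S

end Regular

end Fermat.Agent.FF
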