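/-
Project FF (S19), cell [INST], sub-cell [I-PT] = `ffi_SeamPT N ℓ k` (sub-architect: helper13).
THE SUB-SEAMS of the points.  Prefix `ffi_pt_`.

`ffi_SeamPT N ℓ k  ⟸  ffi_pt_SeamABS ∧ ffi_pt_SeamWIRE N ℓ`            (`FF/Inst/Pt/Assembly.lean`)
`ffi_pt_SeamABS   ⟸  DEG ∧ RED ∧ LE ∧ LIFT ∧ DZ ∧ EQ ∧ SEP`             (`FF/Inst/Pt/AbsAssembly.lean`)

EVERYTHING except [T-WIRE] is ABSTRACT: two function fields `FK / Kb`, `Fκ / κ` over algebraically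
closed fields, an `O`-algebra `𝒜` with comparison maps `ιK : Kb ⊗ 𝒜 → FK`, `ικ : κ ⊗ 𝒜 → Fκ` (the two
fibre dictionaries `ffi_IsDict`), a valuation ring `Av ⊆ Kb` with residue map `res : Av → κ`, and a
map of places `r : Place Kb FK → Place κ Fκ` with `r_* (div y) = div ȳ` (`ffi_pt_IsRed`).

* `ffi_pt_At ι p v`     : `p : 𝒜 → k` is THE point of the fibre at the place `v` (`a - p a ∈ 𝔪_v`);
* `ffi_pt_sum v`        : the effective divisor `v 0 + ⋯ + v (g-1)`;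
* `ffi_pt_IsRed`        : the reduction context (what node E gives, in abstract form);
* **[T-DEG]  `ffi_pt_SeamDEG`**  : `deg (x_K)_∞ = n = deg (x_κ)_∞` (package + dictionaries);
* **[T-RED]  `ffi_pt_SeamRED`**  : `r_* (x_K)_∞ = (x_κ)_∞`, the value characterisation, simple zeros;
* **[T-LE]   `ffi_pt_SeamLE`**   : ONE fibre: points ↔ finite places, principal ⟹ `ff_LinEq`,
                                    `l(D) = 1` ⟹ `ff_Uniq`;
* **[T-LIFT] `ffi_pt_SeamLIFT`** : every finite place of the special fibre lifts to an `O`-rational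
                                    point (uniqueness of the zero of a lifted local parameter +
                                    inertia invariance);
* **[T-DZ]   `ffi_pt_SeamDZ`**   : ABSTRACT divisor theory: the generic `E₀` and the divisors `D_z`;
* **[T-EQ]   `ffi_pt_SeamEQ`**   : a semilinear automorphism fixing the chart functions permutes the
                                    points compatibly with the symmetric functions;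
* **[T-SEP]  `ffi_pt_SeamSEP`**  : pure algebra: the symmetric functions `e_i(a(P_j))`, `a ∈ 𝒜`,
                                    determine the `g`-tuple of points up to a permutation;
* **[T-WIRE] `ffi_pt_SeamWIRE N ℓ`** : CONCRETE: node E + `ffi_PkgData` give `ffi_pt_IsRed`, and the
                                    coefficientwise Galois action has the inertia properties.
-/
import Mathlib
import Fermat.Agent.FF.Inst.Seams
import Fermat.Agent.JT3.Riemann.Principal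

set_option autoImplicit false

noncomputable section

namespace Fermat.Agent.FF

open ModularCurve AlgebraicCurve IntermediateField Fermat.Agent.JT3
open scoped TensorProduct

/-! ### vocabulary -/

section Defs

variable {O : Type} [CommRing O] {𝒜 : Type} [CommRing 𝒜] [Algebra O 𝒜]
  {k : Type} [Field k] [Algebra O k] {Fk : Type} [Field Fk] [Algebra k Fk]

/-- `p : 𝒜 → k` is THE point of the fibre `k ⊗ 𝒜` at the place `v` of `Fk`: for every chart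
function `a`, `a - p a` vanishes at `v`. -/
def ffi_pt_At (ι : k ⊗[O] 𝒜 →ₐ[k] Fk) (p : 𝒜 →ₐ[O] k) (v : Place k Fk) : Prop :=
  ∀ a : 𝒜, ι (1 ⊗ₜ[O] a) - algebraMap k Fk (p a) ∈ v.toValuationSubring.nonunits

/-- the effective divisor `v 0 + ⋯ + v (g-1)`. -/
def ffi_pt_sum {g : ℕ} (v : Fin g → Place k Fk) : Divisor k Fk :=
  ∑ j, Finsupp.single (v j) (1 : ℤ)

end Defs

/-- **The reduction context** (abstract form of node E for the chart `𝒜`): `Av ⊆ Kb` a valuation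
ring with residue field `κ`, `r` a map of places with `r_* (div y) = div ȳ` for the `Av`-integral
functions `y = c₁ a - c₂` (`a ∈ 𝒜`, `c₁, c₂ ∈ Av`) with `ȳ ≠ 0`, and `r_*` preserves principal
divisors. -/
structure ffi_pt_IsRed (O : Type) [CommRing O] (𝒜 : Type) [CommRing 𝒜] [Algebra O 𝒜]
    (Kb : Type) [Field Kb] [Algebra O Kb] (κ : Type) [Field κ] [Algebra O κ]
    (FK : Type) [Field FK] [Algebra Kb FK] (Fκ : Type) [Field Fκ] [Algebra κ Fκ]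
    (ιK : Kb ⊗[O] 𝒜 →ₐ[Kb] FK) (ικ : κ ⊗[O] 𝒜 →ₐ[κ] Fκ)
    (Av : ValuationSubring Kb) (res : ↥Av →+* κ)
    (r : Place Kb FK → Place κ Fκ) (X : 𝒜) : Prop where
  /-- `κ` is the residue field of `Av` -/
  res_surj : Function.Surjective res
  res_ker : ∀ c : ↥Av, res c = 0 ↔ (c : Kb) ∈ Av.nonunits
  /-- `O ⊆ Av`, compatibly with the residue maps -/
  compat : ∀ o : O, ∃ h : algebraMap O Kb o ∈ Av, res ⟨_, h⟩ = algebraMap O κ o
  /-- `𝒜` is integral over `O[X]` -/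
  integral : ∀ a : 𝒜, IsIntegral ↥(Algebra.adjoin O {X}) a
  /-- constants reduce to constants -/
  const : ∀ (a : 𝒜) (d : Kb), ιK (1 ⊗ₜ[O] a) = algebraMap Kb FK d →
    ∃ h : d ∈ Av, ικ (1 ⊗ₜ[O] a) = algebraMap κ Fκ (res ⟨d, h⟩)
  /-- `r_* (div y) = div ȳ` -/
  red : ∀ (a : 𝒜) (c₁ c₂ : ↥Av),
    res c₁ • ικ (1 ⊗ₜ[O] a) - algebraMap κ Fκ (res c₂) ≠ 0 →
    ∀ D : Divisor Kb FK,
      (∀ P, D P = P.ord ((c₁ : Kb) • ιK (1 ⊗ₜ[O] a) - algebraMap Kb FK (c₂ : Kb))) →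
      ∀ Q, Finsupp.mapDomain r D Q =
        Q.ord (res c₁ • ικ (1 ⊗ₜ[O] a) - algebraMap κ Fκ (res c₂))
  /-- `r_*` preserves principal divisors -/
  prin : ∀ D ∈ Divisor.principal (K := Kb) (F := FK),
    Finsupp.mapDomain r D ∈ Divisor.principal (K := κ) (F := Fκ)

/-! ### [T-DEG] -/

/-- **[T-DEG]** both fibres of a package with dictionaries have `deg (x)_∞ = n`. -/
def ffi_pt_SeamDEG : Prop :=
  ∀ (O : Type) [CommRing O] [IsDomain O] [IsDiscreteValuationRing O]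
    (𝒜 : Type) [CommRing 𝒜] [Algebra O 𝒜] (C : Type) [CommRing C] [Algebra O C] (π : O)
    (Kb : Type) [Field Kb] [IsAlgClosed Kb] [Algebra O Kb]
    (κ : Type) [Field κ] [IsAlgClosed κ] [Algebra O κ]
    (Λ : ℕ → Submodule O 𝒜) (lead : ∀ m, ↥(Λ m) →ₗ[O] C) (g n m0 c0 : ℕ),
    ff_IsPkg O 𝒜 C π Kb κ Λ lead g n m0 c0 →
  ∀ (FK : Type) [Field FK] [Algebra Kb FK] (xK : FK) (ιK : Kb ⊗[O] 𝒜 →ₐ[Kb] FK) (m1 : ℕ)
    (Fκ : Type) [Field Fκ] [Algebra κ Fκ] (xκ : Fκ) (ικ : κ ⊗[O] 𝒜 →ₐ[κ] Fκ) (m1' : ℕ),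
    ffi_IsDict O 𝒜 C Kb Λ lead FK xK ιK g m1 → ffi_IsDict O 𝒜 C κ Λ lead Fκ xκ ικ g m1' →
    Module.finrank ↥Kb⟮xK⟯ FK = n ∧ Module.finrank ↥κ⟮xκ⟯ Fκ = n

/-! ### [T-RED] -/

/-- **[T-RED]** consequences of the reduction context, given `deg (x_K)_∞ = deg (x_κ)_∞` and the
regularity of the chart functions off the poles of `x_K`:
(a) `r_* (x_K)_∞ = (x_κ)_∞`;
(b) VALUE CHARACTERISATION: if `r P` is not a pole of `x_κ`, the point `p` at `P` has values in `Av`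
    and its reduction is the point at `r P`;
(c) if the value of `x_K` at `P` is in `Av`, then `r P` is not a pole of `x_κ`;
(d) a SIMPLE zero of `ū = ικ (1 ⊗ u)` at a non-pole `Q` of `x_κ` comes from exactly one simple zero
    of `u` in `r⁻¹ Q`. -/
def ffi_pt_SeamRED : Prop :=
  ∀ (O : Type) [CommRing O] (𝒜 : Type) [CommRing 𝒜] [Algebra O 𝒜]
    (Kb : Type) [Field Kb] [IsAlgClosed Kb] [Algebra O Kb]
    (κ : Type) [Field κ] [IsAlgClosed κ] [Algebra O κ]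
    (FK : Type) [Field FK] [Algebra Kb FK] (Fκ : Type) [Field Fκ] [Algebra κ Fκ]
    (ιK : Kb ⊗[O] 𝒜 →ₐ[Kb] FK) (ικ : κ ⊗[O] 𝒜 →ₐ[κ] Fκ)
    (Av : ValuationSubring Kb) (res : ↥Av →+* κ) (r : Place Kb FK → Place κ Fκ) (X : 𝒜),
    ffi_pt_IsRed O 𝒜 Kb κ FK Fκ ιK ικ Av res r X →
  ∀ (hxK : rt_IsSepGen Kb (ιK (1 ⊗ₜ[O] X))) (hxκ : rt_IsSepGen κ (ικ (1 ⊗ₜ[O] X))),
    Module.finrank ↥Kb⟮ιK (1 ⊗ₜ[O] X)⟯ FK = Module.finrank ↥κ⟮ικ (1 ⊗ₜ[O] X)⟯ Fκ →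
    (∀ (a : 𝒜) (P : Place Kb FK), ιK (1 ⊗ₜ[O] X) ∈ P.toValuationSubring →
      ιK (1 ⊗ₜ[O] a) ∈ P.toValuationSubring) →
    Finsupp.mapDomain r (rt_poleDiv hxK (ιK (1 ⊗ₜ[O] X))) = rt_poleDiv hxκ (ικ (1 ⊗ₜ[O] X)) ∧
    (∀ (P : Place Kb FK) (p : 𝒜 →ₐ[O] Kb) (pb : 𝒜 →ₐ[O] κ), ffi_pt_At ιK p P →
      ffi_pt_At ικ pb (r P) → ∀ a : 𝒜, ∃ h : p a ∈ Av, res ⟨p a, h⟩ = pb a) ∧
    (∀ (P : Place Kb FK) (p : 𝒜 →ₐ[O] Kb), ffi_pt_At ιK p P → p X ∈ Av →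
      ικ (1 ⊗ₜ[O] X) ∈ (r P).toValuationSubring) ∧
    (∀ (u : 𝒜) (Q : Place κ Fκ), ικ (1 ⊗ₜ[O] X) ∈ Q.toValuationSubring →
      Q.ord (ικ (1 ⊗ₜ[O] u)) = 1 →
      ∃ P : Place Kb FK, r P = Q ∧ P.ord (ιK (1 ⊗ₜ[O] u)) = 1 ∧
        ∀ P' : Place Kb FK, r P' = Q → P' ≠ P → P'.ord (ιK (1 ⊗ₜ[O] u)) = 0)

/-! ### [T-LE] -/

/-- **[T-LE]** ONE fibre with its dictionary (`k` algebraically closed):
(a) every finite place carries a point; (b) a point determines its place;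
(c) a linear equivalence `v¹ + v² ∼ v³ + v⁴` of sums of `g` finite places gives `ff_LinEq` for the
    ideals of the points; (d) `l(v) = 1` gives `ff_Uniq`. -/
def ffi_pt_SeamLE : Prop :=
  ∀ (O : Type) [CommRing O] (𝒜 : Type) [CommRing 𝒜] [Algebra O 𝒜]
    (C : Type) [CommRing C] [Algebra O C] (k : Type) [Field k] [IsAlgClosed k] [Algebra O k]
    (Λ : ℕ → Submodule O 𝒜) (lead : ∀ m, ↥(Λ m) →ₗ[O] C)
    (Fk : Type) [Field Fk] [Algebra k Fk] (xk : Fk) (ι : k ⊗[O] 𝒜 →ₐ[k] Fk) (g m1 : ℕ) (X : 𝒜),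
    ffi_IsDict O 𝒜 C k Λ lead Fk xk ι g m1 → ι (1 ⊗ₜ[O] X) = xk →
    (∀ m, Function.Injective (ff_incl O 𝒜 k Λ m)) →
    (∀ v : Place k Fk, xk ∈ v.toValuationSubring → ∃ p : 𝒜 →ₐ[O] k, ffi_pt_At ι p v) ∧
    (∀ (v v' : Place k Fk) (p : 𝒜 →ₐ[O] k), ffi_pt_At ι p v → ffi_pt_At ι p v' → v = v') ∧
    (∀ (v₁ v₂ v₃ v₄ : Fin g → Place k Fk) (p₁ p₂ p₃ p₄ : Fin g → 𝒜 →ₐ[O] k),
      (∀ j, ffi_pt_At ι (p₁ j) (v₁ j)) → (∀ j, ffi_pt_At ι (p₂ j) (v₂ j)) →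
      (∀ j, ffi_pt_At ι (p₃ j) (v₃ j)) → (∀ j, ffi_pt_At ι (p₄ j) (v₄ j)) →
      ffi_pt_sum v₁ + ffi_pt_sum v₂ - (ffi_pt_sum v₃ + ffi_pt_sum v₄) ∈
        Divisor.principal (K := k) (F := Fk) →
      ff_LinEq O 𝒜 C k Λ lead (ff_ptIdeal k p₁) (ff_ptIdeal k p₂) (ff_ptIdeal k p₃)
        (ff_ptIdeal k p₄)) ∧
    (∀ (v : Fin g → Place k Fk) (p : Fin g → 𝒜 →ₐ[O] k), (∀ j, ffi_pt_At ι (p j) (v j)) →
      Module.finrank k ↥(riemannRochSpace (ffi_pt_sum v)) = 1 →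
      ff_Uniq O 𝒜 C k Λ lead (ff_ptIdeal k p))

/-! ### [T-LIFT] -/

/-- **[T-LIFT]** every finite place `Q` of the special fibre lifts to an `O`-rational point:
a lift `u ∈ 𝒜` of a local parameter at `Q` has exactly one zero `P` in `r⁻¹ Q` ([T-RED] (d)); the
elements of the "inertia set" `I` fix `u` and act trivially on the residues, hence fix `P`
([T-RED] (b)(c) + [T-LE] (b)); so the values at `P` are `I`-invariant elements of `Av`, i.e. lie in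
`O`. -/
def ffi_pt_SeamLIFT : Prop :=
  ∀ (O : Type) [CommRing O] [IsDomain O] [IsDiscreteValuationRing O]
    (𝒜 : Type) [CommRing 𝒜] [Algebra O 𝒜] (C : Type) [CommRing C] [Algebra O C]
    (Kb : Type) [Field Kb] [IsAlgClosed Kb] [Algebra O Kb]
    (κ : Type) [Field κ] [IsAlgClosed κ] [Algebra O κ]
    (Λ : ℕ → Submodule O 𝒜) (lead : ∀ m, ↥(Λ m) →ₗ[O] C) (g m1 m1' : ℕ)
    (FK : Type) [Field FK] [Algebra Kb FK] (Fκ : Type) [Field Fκ] [Algebra κ Fκ]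
    (ιK : Kb ⊗[O] 𝒜 →ₐ[Kb] FK) (ικ : κ ⊗[O] 𝒜 →ₐ[κ] Fκ)
    (Av : ValuationSubring Kb) (res : ↥Av →+* κ) (r : Place Kb FK → Place κ Fκ) (X : 𝒜),
    ffi_pt_IsRed O 𝒜 Kb κ FK Fκ ιK ικ Av res r X →
    ffi_IsDict O 𝒜 C Kb Λ lead FK (ιK (1 ⊗ₜ[O] X)) ιK g m1 →
    ffi_IsDict O 𝒜 C κ Λ lead Fκ (ικ (1 ⊗ₜ[O] X)) ικ g m1' →
    Module.finrank ↥Kb⟮ιK (1 ⊗ₜ[O] X)⟯ FK = Module.finrank ↥κ⟮ικ (1 ⊗ₜ[O] X)⟯ Fκ →
    Function.Injective (algebraMap O Kb) → Function.Surjective (algebraMap O κ) →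
    (∀ m, Function.Injective (ff_incl O 𝒜 Kb Λ m)) →
    (∀ m, Function.Injective (ff_incl O 𝒜 κ Λ m)) →
  ∀ I : Set ↥(SemilinearAut Kb FK),
    (∀ τ ∈ I, ∀ a : 𝒜, τ • ιK (1 ⊗ₜ[O] a) = ιK (1 ⊗ₜ[O] a)) →
    (∀ τ ∈ I, ∀ c : ↥Av, ∃ h : SemilinearAut.baseAut τ (c : Kb) ∈ Av, res ⟨_, h⟩ = res c) →
    (∀ c : ↥Av, (∀ τ ∈ I, SemilinearAut.baseAut τ (c : Kb) = c) →
      (c : Kb) ∈ Set.range (algebraMap O Kb)) →
  ∀ Q : Place κ Fκ, ικ (1 ⊗ₜ[O] X) ∈ Q.toValuationSubring →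
    ∃ (P : Place Kb FK) (p0 : 𝒜 →ₐ[O] O),
      r P = Q ∧ ffi_pt_At ιK ((Algebra.ofId O Kb).comp p0) P

/-! ### [T-DZ] -/

/-- **[T-DZ]** ABSTRACT divisor theory.  Two function fields with Riemann's theorem for the same
genus `g`, a map of places `r` with `r_*` preserving principal divisors and `r_* (x_K)_∞ = (x_κ)_∞`,
every finite place of `Fκ` lifts to a place in the set `good`; `Z : M → Div⁰(FK)` a finite family.
Then there are `E₀ = P0 0 + ⋯ + P0 (g-1)` (places in `good`, with finite reductions) and for every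
`z` an effective `D_z = D z 0 + ⋯ + D z (g-1) ∼ Z z + E₀` all of whose points have finite reduction,
with `l(D_z) = 1` and `l(r_* D_z) = 1`.
[`Ē₀` generic on the special fibre by `ffg_generic` for the classes `r_* (Z z) - w`, `w` a pole of
`x_κ` or a fixed place; lift; `D_z` by Riemann's inequality; `r_* D_z` is THE effective divisor of its
class, it avoids the poles; `l(D_z) ≥ 2` would give an effective `D' ∼ D_z` through a pole.] -/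
def ffi_pt_SeamDZ : Prop :=
  ∀ (Kb : Type) [Field Kb] [IsAlgClosed Kb] (κ : Type) [Field κ] [IsAlgClosed κ]
    (FK : Type) [Field FK] [Algebra Kb FK] (Fκ : Type) [Field Fκ] [Algebra κ Fκ]
    (xK : FK) (xκ : Fκ) (hxK : rt_IsSepGen Kb xK) (hxκ : rt_IsSepGen κ xκ) (g : ℕ),
    (∃ c : ℤ, ∀ D : Divisor Kb FK, c ≤ Divisor.degree D →
      (Module.finrank Kb ↥(riemannRochSpace D) : ℤ) = Divisor.degree D + 1 - g) →
    (∃ c : ℤ, ∀ D : Divisor κ Fκ, c ≤ Divisor.degree D →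
      (Module.finrank κ ↥(riemannRochSpace D) : ℤ) = Divisor.degree D + 1 - g) →
  ∀ (r : Place Kb FK → Place κ Fκ),
    (∀ D ∈ Divisor.principal (K := Kb) (F := FK),
      Finsupp.mapDomain r D ∈ Divisor.principal (K := κ) (F := Fκ)) →
    Finsupp.mapDomain r (rt_poleDiv hxK xK) = rt_poleDiv hxκ xκ →
  ∀ (good : Set (Place Kb FK)),
    (∀ Q : Place κ Fκ, xκ ∈ Q.toValuationSubring → ∃ P ∈ good, r P = Q) →
  ∀ (M : Type) [Finite M] (Z : M → Divisor Kb FK), (∀ z, Divisor.degree (Z z) = 0) →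
    ∃ (P0 : Fin g → Place Kb FK) (D : M → Fin g → Place Kb FK),
      (∀ i, P0 i ∈ good) ∧ (∀ i, xκ ∈ (r (P0 i)).toValuationSubring) ∧
      (∀ z j, xκ ∈ (r (D z j)).toValuationSubring) ∧
      (∀ z, ffi_pt_sum (D z) - ffi_pt_sum P0 - Z z ∈ Divisor.principal (K := Kb) (F := FK)) ∧
      (∀ z, Module.finrank Kb ↥(riemannRochSpace (ffi_pt_sum (D z))) = 1) ∧
      (∀ z, Module.finrank κ ↥(riemannRochSpace (ffi_pt_sum fun j => r (D z j))) = 1)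

/-! ### [T-EQ] -/

/-- **[T-EQ]** a semilinear automorphism `τ` of `FK / Kb` fixing the chart functions:
(a) if `p` is the point at `v` then `τ ∘ p` is the point at `τ • v`;
(b) if `τ (v 0 + ⋯ + v (g-1)) = w 0 + ⋯ + w (g-1)` and `p j`, `q j` are the points at `v j`, `w j`,
then `e_i(a(q_j)) = τ (e_i(a(p_j)))`.  [`τ • v` carries the point `τ ∘ p`; equal sums of `g` places
differ by a permutation; `esymm` is symmetric and commutes with ring homomorphisms.] -/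
def ffi_pt_SeamEQ : Prop :=
  ∀ (O : Type) [CommRing O] (𝒜 : Type) [CommRing 𝒜] [Algebra O 𝒜]
    (C : Type) [CommRing C] [Algebra O C] (Kb : Type) [Field Kb] [IsAlgClosed Kb] [Algebra O Kb]
    (Λ : ℕ → Submodule O 𝒜) (lead : ∀ m, ↥(Λ m) →ₗ[O] C)
    (FK : Type) [Field FK] [Algebra Kb FK] (xK : FK) (ιK : Kb ⊗[O] 𝒜 →ₐ[Kb] FK) (g m1 : ℕ)
    (X : 𝒜),
    ffi_IsDict O 𝒜 C Kb Λ lead FK xK ιK g m1 → ιK (1 ⊗ₜ[O] X) = xK →
  ∀ τ : ↥(SemilinearAut Kb FK), (∀ a : 𝒜, τ • ιK (1 ⊗ₜ[O] a) = ιK (1 ⊗ₜ[O] a)) →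
    (∀ (v : Place Kb FK) (p p' : 𝒜 →ₐ[O] Kb), ffi_pt_At ιK p v →
      (∀ a, p' a = SemilinearAut.baseAut τ (p a)) → ffi_pt_At ιK p' (τ • v)) ∧
    ∀ (v w : Fin g → Place Kb FK) (p q : Fin g → 𝒜 →ₐ[O] Kb),
      (∀ j, ffi_pt_At ιK (p j) (v j)) → (∀ j, ffi_pt_At ιK (q j) (w j)) →
      τ • ffi_pt_sum v = ffi_pt_sum w →
      ∀ (a : 𝒜) (i : ℕ),
        ((Finset.univ : Finset (Fin g)).val.map fun j => q j a).esymm i =
          SemilinearAut.baseAut τ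
            (((Finset.univ : Finset (Fin g)).val.map fun j => p j a).esymm i)

/-! ### [T-SEP] -/

/-- **[T-SEP]** pure algebra: two `g`-tuples of `O`-algebra maps `𝒜 → Kb` (`O` an infinite domain
inside the field `Kb`) with the same symmetric functions `e_i(a(p_j))` for all `a ∈ 𝒜` differ by a
permutation.  [choose `a` separating the finitely many maps involved: a module over an infinite
domain with torsion-free quotients is not a finite union of proper submodules; then Vieta.] -/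
def ffi_pt_SeamSEP : Prop :=
  ∀ (O : Type) [CommRing O] [IsDomain O] [Infinite O] (𝒜 : Type) [CommRing 𝒜] [Algebra O 𝒜]
    (Kb : Type) [Field Kb] [Algebra O Kb], Function.Injective (algebraMap O Kb) →
  ∀ (g : ℕ) (p q : Fin g → 𝒜 →ₐ[O] Kb),
    (∀ (a : 𝒜) (i : ℕ), ((Finset.univ : Finset (Fin g)).val.map fun j => q j a).esymm i =
      ((Finset.univ : Finset (Fin g)).val.map fun j => p j a).esymm i) →
    ∃ e : Equiv.Perm (Fin g), ∀ j, q j = p (e j)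

/-! ### [ABS] the abstract theorem -/

/-- **[ABS]** THE ABSTRACT FORM OF [I-PT]: a package with its two fibre dictionaries, a reduction
context, an inertia set `I` of semilinear automorphisms, a finite group `M` of divisor classes:
there are points `PK`, `Pκ`, `P0` with all the clauses of `ffi_SeamPT`; the Galois equivariance holds
for EVERY pair (`τ` semilinear automorphism fixing the chart functions and `O`, `φ : M → M`) with
`cls (φ z) = τ • cls z`. -/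
def ffi_pt_SeamABS : Prop :=
  ∀ (O : Type) [CommRing O] [IsDomain O] [IsDiscreteValuationRing O]
    (𝒜 : Type) [CommRing 𝒜] [Algebra O 𝒜] (C : Type) [CommRing C] [Algebra O C] (π : O)
    (Kb : Type) [Field Kb] [IsAlgClosed Kb] [Algebra O Kb]
    (κ : Type) [Field κ] [IsAlgClosed κ] [Algebra O κ]
    (Λ : ℕ → Submodule O 𝒜) (lead : ∀ m, ↥(Λ m) →ₗ[O] C) (g n m0 c0 : ℕ),
    ff_IsPkg O 𝒜 C π Kb κ Λ lead g n m0 c0 →
  ∀ (FK : Type) [Field FK] [Algebra Kb FK] (Fκ : Type) [Field Fκ] [Algebra κ Fκ]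
    (ιK : Kb ⊗[O] 𝒜 →ₐ[Kb] FK) (ικ : κ ⊗[O] 𝒜 →ₐ[κ] Fκ) (m1 m1' : ℕ)
    (Av : ValuationSubring Kb) (res : ↥Av →+* κ) (r : Place Kb FK → Place κ Fκ) (X : 𝒜),
    ffi_IsDict O 𝒜 C Kb Λ lead FK (ιK (1 ⊗ₜ[O] X)) ιK g m1 →
    ffi_IsDict O 𝒜 C κ Λ lead Fκ (ικ (1 ⊗ₜ[O] X)) ικ g m1' →
    ffi_pt_IsRed O 𝒜 Kb κ FK Fκ ιK ικ Av res r X →
  ∀ I : Set ↥(SemilinearAut Kb FK),
    (∀ τ ∈ I, ∀ a : 𝒜, τ • ιK (1 ⊗ₜ[O] a) = ιK (1 ⊗ₜ[O] a)) →
    (∀ τ ∈ I, ∀ c : ↥Av, ∃ h : SemilinearAut.baseAut τ (c : Kb) ∈ Av, res ⟨_, h⟩ = res c) →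
    (∀ c : ↥Av, (∀ τ ∈ I, SemilinearAut.baseAut τ (c : Kb) = c) →
      (c : Kb) ∈ Set.range (algebraMap O Kb)) →
  ∀ (M : Type) [AddCommGroup M] [Finite M] (cls : M →+ Pic0 Kb FK), Function.Injective cls →
    ∃ (PK : M → Fin g → 𝒜 →ₐ[O] Kb) (Pκ : M → Fin g → 𝒜 →ₐ[O] κ) (P0 : Fin g → 𝒜 →ₐ[O] O),
      (∀ z j a, ∃ h : PK z j a ∈ Av, res ⟨_, h⟩ = Pκ z j a) ∧
      (∀ x y, ff_LinEq O 𝒜 C Kb Λ lead (ff_ptIdeal Kb (PK (x + y)))
        (ff_ptIdeal Kb fun j => (Algebra.ofId O Kb).comp (P0 j))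
        (ff_ptIdeal Kb (PK x)) (ff_ptIdeal Kb (PK y))) ∧
      (∀ z, ff_Uniq O 𝒜 C Kb Λ lead (ff_ptIdeal Kb (PK z))) ∧
      (∀ x y, ff_LinEq O 𝒜 C κ Λ lead (ff_ptIdeal κ (Pκ (x + y)))
        (ff_ptIdeal κ fun j => (Algebra.ofId O κ).comp (P0 j))
        (ff_ptIdeal κ (Pκ x)) (ff_ptIdeal κ (Pκ y))) ∧
      (∀ z, ff_Uniq O 𝒜 C κ Λ lead (ff_ptIdeal κ (Pκ z))) ∧
      (∀ (τ : ↥(SemilinearAut Kb FK)) (φ : M → M),
        (∀ a : 𝒜, τ • ιK (1 ⊗ₜ[O] a) = ιK (1 ⊗ₜ[O] a)) →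
        (∀ o : O, SemilinearAut.baseAut τ (algebraMap O Kb o) = algebraMap O Kb o) →
        (∀ z, cls (φ z) = τ • cls z) →
        ∀ z a i, ff_symFun PK a i (φ z) = SemilinearAut.baseAut τ (ff_symFun PK a i z)) ∧
      (∀ z z', z ≠ z' → ∃ a i, ff_symFun PK a i z ≠ ff_symFun PK a i z')

/-! ### [T-WIRE] the concrete wiring -/

section Wire

variable (N : ℕ) [NeZero N]

/-- the coefficientwise action of `σ ∈ G_ℚ` on `F̄_N`, as a semilinear automorphism. -/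
abbrev ffi_pt_gal (σ : ff_GQ) : ↥(SemilinearAut ff_Qb ↥(modularFunctionFieldBar N)) :=
  arithmeticGalois (modularFunctionFieldFull N) σ

/-- **[T-WIRE]** CONCRETE: in the context of `ffi_SeamPT` (level `L`, residue field `κ`, a place
reduction `r` along `(A, π)` with principal divisors generated by integral ones, `ffi_PkgData`):
(a) `(ιK, ικ, A, π, r, X := j)` is a reduction context `ffi_pt_IsRed` [`red`: the `q`-expansion of
    `c₁ a - c₂` has coefficients in `A` (`qint`), its two images are `c₁ ιK(1 ⊗ a) - c₂`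
    (`compatK`) and `π c₁ ικ(1 ⊗ a) - π c₂` (`compatκ` + `ffi_ResOK.comp`); `prin`:
    `IsPlaceReductionAlong.mapDomain_mem_principal`; `integral`: `𝒜 = fc_chart O₁ {j}`];
(b) `ιK (1 ⊗ j) = j̄`, `ικ (1 ⊗ j) = j̃`;
(c) the automorphisms of `Q̄` fixing `L` fix the chart functions `ιK (1 ⊗ a)`;
(d) the inertia group of `A` preserves `A` and acts trivially on its residue field, and an
    inertia-invariant element of `A` lies in `O₁ = A ∩ L` (`ffi_LvlOK.fix`). -/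
def ffi_pt_SeamWIRE (ℓ : ℕ) : Prop :=
  ℓ.Prime → ¬ ℓ ∣ N → ∀ A : ValuationSubring ff_Qb, A.LiesOverPrime ℓ →
  ∀ (L : Type) [Field L] [Algebra ℚ L] [Algebra L ff_Qb] [IsScalarTower ℚ L ff_Qb],
    ffi_LvlOK A L ℓ →
  ∀ (κ : Type) [Field κ] [IsAlgClosed κ] [Algebra ↥(ffi_O A L) κ] (π : ↥A →+* κ),
    ffi_ResOK A L κ π →
  ∀ (r : Place ff_Qb ↥(modularFunctionFieldBar N) → Place κ ↥(modularFunctionFieldFullC κ N)),
    IsPlaceReductionAlong A π N r → PrincipalGeneratedByIntegral A π N →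
  ∀ (g n m0 c0 : ℕ)
    (ιK : ff_Qb ⊗[↥(ffi_O A L)] ↥(ffi_A1 A L N) →ₐ[ff_Qb] ↥(modularFunctionFieldBar N))
    (ικ : κ ⊗[↥(ffi_O A L)] ↥(ffi_A1 A L N) →ₐ[κ] ↥(modularFunctionFieldFullC κ N)),
    ffi_PkgData A L κ N ℓ g n m0 c0 ιK ικ →
    ffi_pt_IsRed ↥(ffi_O A L) ↥(ffi_A1 A L N) ff_Qb κ ↥(modularFunctionFieldBar N)
      ↥(modularFunctionFieldFullC κ N) ιK ικ A π r (ffi_gX ↥(ffi_O A L) (ffi_j L N)) ∧
    ιK (1 ⊗ₜ[↥(ffi_O A L)] ffi_gX ↥(ffi_O A L) (ffi_j L N)) = ffi_jBar N ∧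
    ικ (1 ⊗ₜ[↥(ffi_O A L)] ffi_gX ↥(ffi_O A L) (ffi_j L N)) = ffi_j κ N ∧
    (∀ σ : ff_GQ, (∀ c : L, σ (algebraMap L ff_Qb c) = algebraMap L ff_Qb c) →
      ∀ a : ↥(ffi_A1 A L N), ffi_pt_gal N σ • ιK (1 ⊗ₜ[↥(ffi_O A L)] a) =
        ιK (1 ⊗ₜ[↥(ffi_O A L)] a)) ∧
    (∀ σ ∈ A.inertiaSubgroupIn ℚ, ∀ c : ↥A, ∃ h : σ (c : ff_Qb) ∈ A, π ⟨_, h⟩ = π c) ∧
    (∀ σ ∈ A.inertiaSubgroupIn ℚ, ∀ c : L, σ (algebraMap L ff_Qb c) = algebraMap L ff_Qb c)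

end Wire

end Fermat.Agent.FF
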