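/-
Project FF (S19), cell [INST], sub-cell [I-PT] (sub-architect: helper13).  THE ABSTRACT ASSEMBLY.
Prefix `ffi_pt_`.

`ffi_pt_abs_of_seams : DEG → RED → LE → LIFT → DZ → EQ → SEP → ffi_pt_SeamABS`.
-/
import Mathlib
import Fermat.Agent.FF.Inst.Pt.Seams
import Fermat.Agent.FF.Inst.Pt.RedAbs
import Fermat.Agent.FF.Add.Res.Fib

set_option autoImplicit false
set_option linter.style.haveILetI false
set_option linter.unusedSectionVars false

noncomputable section

namespace Fermat.Agent.FF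

open ModularCurve AlgebraicCurve IntermediateField Fermat.Agent.JT3 Fermat.Agent.S24
open scoped TensorProduct

/-! ### small lemmas on divisors -/

section Div

universe u v
variable {K : Type u} {F : Type v} [Field K] [Field F] [Algebra K F]

theorem ffi_pt_sum_nonneg {g : ℕ} (v : Fin g → Place K F) :
    0 ≤ (∑ j, Finsupp.single (v j) (1 : ℤ) : Divisor K F) := by
  refine Finset.sum_nonneg fun j _ => ?_
  intro w
  classical
  rw [Finsupp.zero_apply, Finsupp.single_apply]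
  split_ifs <;> norm_num

theorem ffi_pt_mk_eq_mk_iff {D E : Divisor.degZero (K := K) (F := F)} :
    Pic0.mk D = Pic0.mk E ↔
      (D : Divisor K F) - (E : Divisor K F) ∈ Divisor.principal (K := K) (F := F) := by
  rw [Pic0.mk, Pic0.mk, QuotientAddGroup.eq, AddSubgroup.mem_addSubgroupOf]
  rw [← neg_mem_iff]
  have : -((↑(-D + E) : Divisor K F)) = (D : Divisor K F) - (E : Divisor K F) := by
    push_cast
    abel
  rw [this]

variable [IsAlgClosed K] {x : F} (hx : rt_IsSepGen K x)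

include hx in
/-- `l(D) = 1`: `D` is the only effective divisor in its class. -/
theorem ffi_pt_eq_of_l_one {D D' : Divisor K F} (hD : 0 ≤ D)
    (hD' : 0 ≤ D') (hpr : D' - D ∈ Divisor.principal (K := K) (F := F))
    (hl : Module.finrank K ↥(riemannRochSpace D) = 1) : D' = D := by
  obtain ⟨f, hf0, hf⟩ := hpr
  have hfL : f ∈ riemannRochSpace D := by
    rw [rt_mem_L_iff hf0]
    intro v
    have h1 := hf v
    rw [Finsupp.sub_apply] at h1
    have h2 := hD' v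
    rw [Finsupp.zero_apply] at h2
    omega
  have h1L : (1 : F) ∈ riemannRochSpace D := by
    have := rt_algebraMap_mem_L (K := K) hD (1 : K)
    rwa [map_one] at this
  have hfinL := rt_L_finite hx D
  obtain ⟨c, hc⟩ := (finrank_eq_one_iff_of_nonzero' (⟨1, h1L⟩ : ↥(riemannRochSpace D))
    (by intro h; exact one_ne_zero (congrArg Subtype.val h))).mp hl ⟨f, hfL⟩
  have hfc : f = algebraMap K F c := by
    have := congrArg Subtype.val hc
    simp only [SetLike.val_smul] at this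
    rw [← this, Algebra.smul_def, mul_one]
  ext v
  have h1 := hf v
  rw [hfc, hw_ord_algebraMap, Finsupp.sub_apply] at h1
  omega

end Div

section Sums

variable {k : Type} [Field k] {Fk : Type} [Field Fk] [Algebra k Fk]

theorem ffi_pt_sum_nonneg' {g : ℕ} (v : Fin g → Place k Fk) : 0 ≤ ffi_pt_sum v :=
  ffi_pt_sum_nonneg v

theorem ffi_pt_mapDomain_sum {k' : Type} [Field k'] {Fk' : Type} [Field Fk'] [Algebra k' Fk']
    (r : Place k Fk → Place k' Fk') {g : ℕ} (v : Fin g → Place k Fk) :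
    Finsupp.mapDomain r (ffi_pt_sum v) = ffi_pt_sum fun j => r (v j) := by
  rw [ffi_pt_sum, ffi_pt_sum, Finsupp.mapDomain_finsetSum]
  exact Finset.sum_congr rfl fun j _ => Finsupp.mapDomain_single

theorem ffi_pt_smul_sum (τ : ↥(SemilinearAut k Fk)) {g : ℕ} (v : Fin g → Place k Fk) :
    τ • ffi_pt_sum v = ffi_pt_sum fun j => τ • v j := by
  rw [SemilinearAut.divisor_smul_def]
  exact ffi_pt_mapDomain_sum _ v

theorem ffi_pt_sum_perm {g : ℕ} (v : Fin g → Place k Fk) (e : Equiv.Perm (Fin g)) :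
    (ffi_pt_sum fun j => v (e j)) = ffi_pt_sum v := by
  rw [ffi_pt_sum, ffi_pt_sum]
  exact Equiv.sum_comp e fun j => Finsupp.single (v j) (1 : ℤ)

end Sums

/-! ### the assembly -/

theorem ffi_pt_abs_of_seams (hDEG : ffi_pt_SeamDEG) (hRED : ffi_pt_SeamRED)
    (hLE : ffi_pt_SeamLE) (hLIFT : ffi_pt_SeamLIFT) (hDZ : ffi_pt_SeamDZ) (hEQ : ffi_pt_SeamEQ)
    (hSEP : ffi_pt_SeamSEP) : ffi_pt_SeamABS := by
  intro O _ _ _ 𝒜 _ _ C _ _ π Kb _ _ _ κ _ _ _ Λ lead g n m0 c0 pkg FK _ _ Fκ _ _ ιK ικ m1 m1'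
    Av res r X dictK dictκ hred I hI1 hI2 hI3 M _ _ cls hcls
  have hxK := dictK.sep
  have hxκ := dictκ.sep
  obtain ⟨hnK, hnκ⟩ := hDEG O 𝒜 C π Kb κ Λ lead g n m0 c0 pkg FK (ιK (1 ⊗ₜ[O] X)) ιK m1
    Fκ (ικ (1 ⊗ₜ[O] X)) ικ m1' dictK dictκ
  have hn : Module.finrank ↥Kb⟮ιK (1 ⊗ₜ[O] X)⟯ FK = Module.finrank ↥κ⟮ικ (1 ⊗ₜ[O] X)⟯ Fκ :=
    hnK.trans hnκ.symm
  have hreg : ∀ (a : 𝒜) (P : Place Kb FK), ιK (1 ⊗ₜ[O] X) ∈ P.toValuationSubring →
      ιK (1 ⊗ₜ[O] a) ∈ P.toValuationSubring := fun a P hP =>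
    (dictK.chart _).mp ⟨1 ⊗ₜ[O] a, rfl⟩ P hP
  obtain ⟨hT, hval, hfinr, -⟩ := hRED O 𝒜 Kb κ FK Fκ ιK ικ Av res r X hred hxK hxκ hn hreg
  -- injectivity of the lattices
  have hKtf : Module.IsTorsionFree O Kb :=
    Module.isTorsionFree_iff_algebraMap_injective.mpr pkg.inj
  have hinclK : ∀ m, Function.Injective (ff_incl O 𝒜 Kb Λ m) := fun m =>
    ffa_res_fib_inj_flat Λ Kb m
  have hinclκ : ∀ m, Function.Injective (ff_incl O 𝒜 κ Λ m) := fun m =>
    ffa_res_fib_inj_κ pkg m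
  obtain ⟨evK, uniqK, lineqK, uniqlK⟩ :=
    hLE O 𝒜 C Kb Λ lead FK (ιK (1 ⊗ₜ[O] X)) ιK g m1 X dictK rfl hinclK
  obtain ⟨evκ, uniqκ, lineqκ, uniqlκ⟩ :=
    hLE O 𝒜 C κ Λ lead Fκ (ικ (1 ⊗ₜ[O] X)) ικ g m1' X dictκ rfl hinclκ
  -- lifting of the finite places of the special fibre to `O`-rational points
  let good : Set (Place Kb FK) :=
    {P | ∃ p0 : 𝒜 →ₐ[O] O, ffi_pt_At ιK ((Algebra.ofId O Kb).comp p0) P}
  have hlift : ∀ Q : Place κ Fκ, ικ (1 ⊗ₜ[O] X) ∈ Q.toValuationSubring →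
      ∃ P ∈ good, r P = Q := by
    intro Q hQ
    obtain ⟨P, p0, hPQ, hp0⟩ := hLIFT O 𝒜 C Kb κ Λ lead g m1 m1' FK Fκ ιK ικ Av res r X hred
      dictK dictκ hn pkg.inj pkg.res_surj hinclK hinclκ I hI1 hI2 hI3 Q hQ
    exact ⟨P, ⟨p0, hp0⟩, hPQ⟩
  -- representatives of the classes
  choose Zrep hZrep using fun z : M => Pic0.mk_surjective (cls z)
  have hZdeg : ∀ z, Divisor.degree ((Zrep z : Divisor Kb FK)) = 0 := fun z =>
    Divisor.mem_degZero.mp (Zrep z).2
  obtain ⟨P0pl, Dpl, hP0good, hP0fin, hDfin, hDlin, hlK, hlκ⟩ :=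
    hDZ Kb κ FK Fκ (ιK (1 ⊗ₜ[O] X)) (ικ (1 ⊗ₜ[O] X)) hxK hxκ g dictK.riemann dictκ.riemann r
      hred.prin hT good hlift M (fun z => (Zrep z : Divisor Kb FK)) hZdeg
  -- the points
  have hDfinK : ∀ z j, ιK (1 ⊗ₜ[O] X) ∈ (Dpl z j).toValuationSubring := fun z j =>
    ffi_red_mem_of_mem hxK hxκ r hT (hDfin z j)
  choose PK hPK using fun z j => evK (Dpl z j) (hDfinK z j)
  choose Pκ hPκ using fun z j => evκ (r (Dpl z j)) (hDfin z j)
  choose P0 hP0 using hP0good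
  -- the reductions of the points of `E₀`
  have hP0κ : ∀ i, ffi_pt_At ικ ((Algebra.ofId O κ).comp (P0 i)) (r (P0pl i)) := by
    intro i
    obtain ⟨pb, hpb⟩ := evκ (r (P0pl i)) (hP0fin i)
    have hv := hval (P0pl i) _ pb (hP0 i) hpb
    have hpbeq : pb = (Algebra.ofId O κ).comp (P0 i) := by
      apply AlgHom.ext
      intro a
      obtain ⟨h, hh⟩ := hv a
      obtain ⟨h', hh'⟩ := hred.compat (P0 i a)
      rw [← hh]
      exact hh'
    rw [← hpbeq]
    exact hpb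
  -- additivity of the representatives
  have hZadd : ∀ x y : M, (Zrep (x + y) : Divisor Kb FK) -
      ((Zrep x : Divisor Kb FK) + (Zrep y : Divisor Kb FK)) ∈
      Divisor.principal (K := Kb) (F := FK) := by
    intro x y
    have h1 : Pic0.mk (Zrep (x + y)) = Pic0.mk (Zrep x + Zrep y) := by
      rw [Pic0.mk_add, hZrep, hZrep, hZrep, map_add]
    have h2 := ffi_pt_mk_eq_mk_iff.mp h1
    rwa [AddSubgroup.coe_add] at h2
  -- the linear equivalence on the generic fibre, in divisor form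
  have hlinK : ∀ x y : M, ffi_pt_sum (Dpl (x + y)) + ffi_pt_sum P0pl -
      (ffi_pt_sum (Dpl x) + ffi_pt_sum (Dpl y)) ∈ Divisor.principal (K := Kb) (F := FK) := by
    intro x y
    have e : ffi_pt_sum (Dpl (x + y)) + ffi_pt_sum P0pl -
        (ffi_pt_sum (Dpl x) + ffi_pt_sum (Dpl y)) =
        (ffi_pt_sum (Dpl (x + y)) - ffi_pt_sum P0pl - (Zrep (x + y) : Divisor Kb FK)) -
        (ffi_pt_sum (Dpl x) - ffi_pt_sum P0pl - (Zrep x : Divisor Kb FK)) -
        (ffi_pt_sum (Dpl y) - ffi_pt_sum P0pl - (Zrep y : Divisor Kb FK)) +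
        ((Zrep (x + y) : Divisor Kb FK) -
          ((Zrep x : Divisor Kb FK) + (Zrep y : Divisor Kb FK))) := by
      abel
    rw [e]
    exact add_mem (sub_mem (sub_mem (hDlin (x + y)) (hDlin x)) (hDlin y)) (hZadd x y)
  have hlinκ : ∀ x y : M, (ffi_pt_sum fun j => r (Dpl (x + y) j)) +
      (ffi_pt_sum fun j => r (P0pl j)) -
      ((ffi_pt_sum fun j => r (Dpl x j)) + (ffi_pt_sum fun j => r (Dpl y j))) ∈
      Divisor.principal (K := κ) (F := Fκ) := by
    intro x y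
    have h := hred.prin _ (hlinK x y)
    rwa [Finsupp.mapDomain_sub, Finsupp.mapDomain_add, Finsupp.mapDomain_add,
      ffi_pt_mapDomain_sum, ffi_pt_mapDomain_sum, ffi_pt_mapDomain_sum,
      ffi_pt_mapDomain_sum] at h
  refine ⟨PK, Pκ, P0, ?_, ?_, ?_, ?_, ?_, ?_, ?_⟩
  · exact fun z j a => hval (Dpl z j) (PK z j) (Pκ z j) (hPK z j) (hPκ z j) a
  · exact fun x y => lineqK (Dpl (x + y)) P0pl (Dpl x) (Dpl y) (PK (x + y))
      (fun j => (Algebra.ofId O Kb).comp (P0 j)) (PK x) (PK y) (hPK (x + y)) hP0 (hPK x) (hPK y)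
      (hlinK x y)
  · exact fun z => uniqlK (Dpl z) (PK z) (hPK z) (hlK z)
  · exact fun x y => lineqκ (fun j => r (Dpl (x + y) j)) (fun j => r (P0pl j))
      (fun j => r (Dpl x j)) (fun j => r (Dpl y j)) (Pκ (x + y))
      (fun j => (Algebra.ofId O κ).comp (P0 j)) (Pκ x) (Pκ y) (hPκ (x + y)) hP0κ (hPκ x) (hPκ y)
      (hlinκ x y)
  · exact fun z => uniqlκ (fun j => r (Dpl z j)) (Pκ z) (hPκ z) (hlκ z)
  · -- Galois equivariance
    intro τ φ hτfix hτO hφ z a i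
    obtain ⟨hEQa, hEQb⟩ := hEQ O 𝒜 C Kb Λ lead FK (ιK (1 ⊗ₜ[O] X)) ιK g m1 X dictK rfl τ hτfix
    have hτP0 : ∀ i, τ • P0pl i = P0pl i := by
      intro i
      have h1 : ffi_pt_At ιK ((Algebra.ofId O Kb).comp (P0 i)) (τ • P0pl i) :=
        hEQa (P0pl i) _ _ (hP0 i) (fun a => (hτO (P0 i a)).symm)
      exact uniqK _ _ _ h1 (hP0 i)
    have hτE0 : τ • ffi_pt_sum P0pl = ffi_pt_sum P0pl := by
      rw [ffi_pt_smul_sum]
      congr 1
      funext i
      exact hτP0 i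
    have hτZ : τ • (Zrep z : Divisor Kb FK) - (Zrep (φ z) : Divisor Kb FK) ∈
        Divisor.principal (K := Kb) (F := FK) := by
      have h1 : Pic0.mk (SemilinearAut.degZeroSMulHom τ (Zrep z)) = Pic0.mk (Zrep (φ z)) := by
        rw [← SemilinearAut.pic0_smul_mk, hZrep z, hZrep (φ z)]
        exact (hφ z).symm
      have := ffi_pt_mk_eq_mk_iff.mp h1
      rwa [SemilinearAut.coe_degZeroSMulHom] at this
    have hτD : τ • ffi_pt_sum (Dpl z) = ffi_pt_sum (Dpl (φ z)) := by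
      refine ffi_pt_eq_of_l_one hxK (ffi_pt_sum_nonneg' _) ?_ ?_ (hlK (φ z))
      · rw [ffi_pt_smul_sum]
        exact ffi_pt_sum_nonneg' _
      · have h1 := SemilinearAut.smul_mem_principal τ (hDlin z)
        rw [smul_sub, smul_sub, hτE0] at h1
        have e : τ • ffi_pt_sum (Dpl z) - ffi_pt_sum (Dpl (φ z)) =
            (τ • ffi_pt_sum (Dpl z) - ffi_pt_sum P0pl - τ • (Zrep z : Divisor Kb FK)) -
            (ffi_pt_sum (Dpl (φ z)) - ffi_pt_sum P0pl - (Zrep (φ z) : Divisor Kb FK)) +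
            (τ • (Zrep z : Divisor Kb FK) - (Zrep (φ z) : Divisor Kb FK)) := by
          abel
        rw [e]
        exact add_mem (sub_mem h1 (hDlin (φ z))) hτZ
    exact hEQb (Dpl z) (Dpl (φ z)) (PK z) (PK (φ z)) (hPK z) (hPK (φ z)) hτD a i
  · -- separation
    intro z z' hzz'
    by_contra hcon
    push Not at hcon
    haveI : Infinite O := Infinite.of_injective (fun n : ℕ => π ^ n)
      (pow_injective_of_not_isUnit pkg.irr.not_isUnit pkg.irr.ne_zero)
    obtain ⟨e, he⟩ := hSEP O 𝒜 Kb pkg.inj g (PK z) (PK z') (fun a i => (hcon a i).symm)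
    have hpl : ∀ j, Dpl z' j = Dpl z (e j) := fun j =>
      uniqK _ _ (PK z' j) (hPK z' j) (by rw [he j]; exact hPK z (e j))
    have hsum : ffi_pt_sum (Dpl z') = ffi_pt_sum (Dpl z) := by
      have h1 : Dpl z' = fun j => Dpl z (e j) := funext hpl
      rw [h1, ffi_pt_sum_perm]
    have hpr : (Zrep z : Divisor Kb FK) - (Zrep z' : Divisor Kb FK) ∈
        Divisor.principal (K := Kb) (F := FK) := by
      have h1 := hDlin z
      have h2 := hDlin z'
      rw [hsum] at h2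
      have e' : (Zrep z : Divisor Kb FK) - (Zrep z' : Divisor Kb FK) =
          (ffi_pt_sum (Dpl z) - ffi_pt_sum P0pl - (Zrep z' : Divisor Kb FK)) -
          (ffi_pt_sum (Dpl z) - ffi_pt_sum P0pl - (Zrep z : Divisor Kb FK)) := by
        abel
      rw [e']
      exact sub_mem h2 h1
    have hc : cls z = cls z' := by
      rw [← hZrep z, ← hZrep z']
      exact ffi_pt_mk_eq_mk_iff.mpr hpr
    exact hzz' (hcls hc)

end Fermat.Agent.FF
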