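/-
Project FF (S19), cell [INST], sub-cell [I-PT] (sub-architect: helper13).  THE CONCRETE ASSEMBLY.
Prefix `ffi_pt_`.

`ffi_pt_of_seams : ffi_pt_SeamABS → ffi_pt_SeamWIRE N ℓ → Finite J₀(N)[ℓ^k] → ffi_SeamPT N ℓ k`.
(The finiteness hypothesis is `tj_finite` of `JT3/Tate/JZeroLattice`; it is discharged in the final
file to keep this one light.)
-/
import Mathlib
import Fermat.Agent.FF.Inst.Pt.Seams

set_option autoImplicit false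
set_option linter.style.haveILetI false

noncomputable section

namespace Fermat.Agent.FF

open ModularCurve AlgebraicCurve IntermediateField Fermat.Agent.JT3
open scoped TensorProduct

theorem ffi_pt_of_seams (N : ℕ) [NeZero N] (ℓ k : ℕ) (hABS : ffi_pt_SeamABS)
    (hWIRE : ffi_pt_SeamWIRE N ℓ)
    (hfin : Finite ↥(Submodule.torsionBy ℤ (JZero N) ((ℓ : ℤ) ^ k))) : ffi_SeamPT N ℓ k := by
  intro hℓ hℓN A hA L _ _ _ _ lvl κ _ _ _ π hres hE g n m0 c0 ιK ικ D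
  obtain ⟨r, hr, hgen⟩ := hE
  obtain ⟨hred, hxK, hxκ, hfixL, hinA, hinL⟩ :=
    hWIRE hℓ hℓN A hA L lvl κ π hres r hr hgen g n m0 c0 ιK ικ D
  haveI := lvl.dvr
  set X := ffi_gX ↥(ffi_O A L) (ffi_j L N) with hX
  have dictK : ffi_IsDict ↥(ffi_O A L) ↥(ffi_A1 A L N) (ffi_gC ↥(ffi_O A L) (ffi_j L N)) ff_Qb
      (ffi_gLam ↥(ffi_O A L) (ffi_j L N)) (ffi_gLead ↥(ffi_O A L) (ffi_j L N))
      ↥(modularFunctionFieldBar N) (ιK (1 ⊗ₜ[↥(ffi_O A L)] X)) ιK g 0 := by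
    rw [hxK]; exact D.dictK
  have dictκ : ffi_IsDict ↥(ffi_O A L) ↥(ffi_A1 A L N) (ffi_gC ↥(ffi_O A L) (ffi_j L N)) κ
      (ffi_gLam ↥(ffi_O A L) (ffi_j L N)) (ffi_gLead ↥(ffi_O A L) (ffi_j L N))
      ↥(modularFunctionFieldFullC κ N) (ικ (1 ⊗ₜ[↥(ffi_O A L)] X)) ικ g m0 := by
    rw [hxκ]; exact D.dictκ
  -- the inertia set
  let I : Set ↥(SemilinearAut ff_Qb ↥(modularFunctionFieldBar N)) :=
    {τ | ∃ σ ∈ A.inertiaSubgroupIn ℚ, τ = ffi_pt_gal N σ}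
  have hI1 : ∀ τ ∈ I, ∀ a : ↥(ffi_A1 A L N), τ • ιK (1 ⊗ₜ[↥(ffi_O A L)] a) =
      ιK (1 ⊗ₜ[↥(ffi_O A L)] a) := by
    rintro τ ⟨σ, hσ, rfl⟩ a
    exact hfixL σ (hinL σ hσ) a
  have hI2 : ∀ τ ∈ I, ∀ c : ↥A, ∃ h : SemilinearAut.baseAut τ (c : ff_Qb) ∈ A,
      π ⟨_, h⟩ = π c := by
    rintro τ ⟨σ, hσ, rfl⟩ c
    exact hinA σ hσ c
  have hI3 : ∀ c : ↥A, (∀ τ ∈ I, SemilinearAut.baseAut τ (c : ff_Qb) = c) →
      (c : ff_Qb) ∈ Set.range (algebraMap ↥(ffi_O A L) ff_Qb) := by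
    intro c hc
    have h1 : (c : ff_Qb) ∈ (algebraMap L ff_Qb).range :=
      (lvl.fix (c : ff_Qb)).mpr fun σ hσ => hc _ ⟨σ, hσ, rfl⟩
    obtain ⟨b, hb⟩ := h1
    have hbO : b ∈ ffi_O A L := by
      rw [ffi_mem_O, hb]; exact c.2
    exact ⟨⟨b, hbO⟩, hb⟩
  -- the group of classes
  let cls : ↥(Submodule.torsionBy ℤ (JZero N) ((ℓ : ℤ) ^ k)) →+
      Pic0 ff_Qb ↥(modularFunctionFieldBar N) :=
    (Submodule.torsionBy ℤ (JZero N) ((ℓ : ℤ) ^ k)).subtype.toAddMonoidHom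
  have hcls : Function.Injective cls := Subtype.val_injective
  obtain ⟨PK, Pκ, P0, h1, h2, h3, h4, h5, h6, h7⟩ :=
    hABS ↥(ffi_O A L) ↥(ffi_A1 A L N) (ffi_gC ↥(ffi_O A L) (ffi_j L N))
      ((ℓ : ℕ) : ↥(ffi_O A L)) ff_Qb κ (ffi_gLam ↥(ffi_O A L) (ffi_j L N))
      (ffi_gLead ↥(ffi_O A L) (ffi_j L N)) g n m0 c0 D.pkg
      ↥(modularFunctionFieldBar N) ↥(modularFunctionFieldFullC κ N) ιK ικ 0 m0 A π r X
      dictK dictκ hred I hI1 hI2 hI3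
      ↥(Submodule.torsionBy ℤ (JZero N) ((ℓ : ℤ) ^ k)) cls hcls
  refine ⟨PK, Pκ, P0, h1, h2, h3, h4, h5, ?_, h7⟩
  intro σ hσ z a i
  have h := h6 (ffi_pt_gal N σ) (fun z => σ • z) (hfixL σ hσ)
    (fun o => hσ (o : L)) (fun z => rfl) z a i
  exact h

end Fermat.Agent.FF
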