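/-
Project FF (S19), cell [INST], sub-cell [I-PT], leaf [T-DZ]: abstract divisor theory.
Owner: helper27.  Prefix `ffi_dz_`.

`ffi_pt_dz : ffi_pt_SeamDZ`.  Two function fields `FK / Kb`, `Fκ / κ` over algebraically closed
fields with Riemann's theorem for the same genus `g`, a map of places `r` with `r_*` preserving
principal divisors and `r_* (x_K)_∞ = (x_κ)_∞`, every finite place of `Fκ` lifts to `good`;
`Z : M → Div⁰(FK)` a finite family.  Then there are `E₀ = ∑ P0 i` (`P0 i ∈ good`, finite
reductions) and for every `z` an effective `D_z = ∑ D z j ∼ Z z + E₀` with finite reductions,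
`l(D_z) = 1` and `l(r_* D_z) = 1`.

* `ffi_dz_riemann_ineq` : Riemann's inequality from Riemann's theorem in large degree;
* `ffi_dz_exists_sum`   : an effective divisor of degree `g` is a sum of `g` places;
* `ffi_dz_l_congr`      : `l` is invariant under linear equivalence;
* `ffi_dz_one_le_of_ge` : `E ≥ w` effective, `E ∼ S` ⟹ `l(S - w) ≥ 1`;
* `ffi_dz_map_*`        : push-forward of divisors along a map of places.
-/
import Mathlib
import Fermat.Agent.FF.Inst.Pt.Seams
import Fermat.Agent.FF.Generic

set_option autoImplicit false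
set_option linter.unusedSectionVars false
set_option linter.style.haveILetI false

noncomputable section

namespace Fermat.Agent.FF

open AlgebraicCurve IntermediateField Fermat.Agent.JT3 Fermat.Agent.S24

/-! ### one function field -/

section One

variable {K : Type} {F : Type} [Field K] [Field F] [Algebra K F] [IsAlgClosed K]
  {x : F} (hx : rt_IsSepGen K x)

include hx

/-- Riemann's inequality, from Riemann's theorem in large degree. -/
theorem ffi_dz_riemann_ineq (g : ℕ) (c : ℤ)
    (hR : ∀ D : Divisor K F, c ≤ Divisor.degree D →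
      (Module.finrank K ↥(riemannRochSpace D) : ℤ) = Divisor.degree D + 1 - g)
    (D : Divisor K F) :
    Divisor.degree D + 1 - g ≤ (Module.finrank K ↥(riemannRochSpace D) : ℤ) := by
  classical
  haveI := ffg_infinite_place hx
  obtain ⟨v⟩ : Nonempty (Place K F) := inferInstance
  set n : ℕ := (c - Divisor.degree D).toNat with hn
  set B : Divisor K F := D + n • Finsupp.single v 1 with hB
  have hDB : D ≤ B := by
    rw [hB]
    apply le_add_of_nonneg_right
    apply nsmul_nonneg
    rw [Finsupp.le_def]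
    intro w
    rw [Finsupp.zero_apply, Finsupp.single_apply]
    split_ifs <;> norm_num
  have hdegB : Divisor.degree B = Divisor.degree D + n := by
    rw [hB, map_add, map_nsmul, rt_degree_single hx, nsmul_eq_mul, mul_one]
  have hc : c ≤ Divisor.degree B := by
    rw [hdegB, hn]
    have := Int.self_le_toNat (c - Divisor.degree D)
    omega
  have h1 := hR B hc
  have h2 := rt_l_le_of_le hx hDB
  omega

/-- an effective divisor of degree `g` is a sum of `g` places. -/
theorem ffi_dz_exists_sum (g : ℕ) (D : Divisor K F) (hD : 0 ≤ D)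
    (hdeg : Divisor.degree D = g) :
    ∃ v : Fin g → Place K F, D = ffi_pt_sum v := by
  classical
  induction g generalizing D with
  | zero =>
    refine ⟨Fin.elim0, ?_⟩
    rw [ffi_pt_sum, Finset.univ_eq_empty, Finset.sum_empty]
    by_contra hne
    have := rt_degree_lt_of_lt hx hD (Ne.symm hne)
    rw [map_zero, hdeg] at this
    exact absurd this (by norm_num)
  | succ g ih =>
    have hne : D ≠ 0 := by
      intro h0
      rw [h0, map_zero] at hdeg
      exact absurd hdeg (by push_cast; omega)
    obtain ⟨w, hw⟩ := Finsupp.support_nonempty_iff.mpr hne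
    have hw0 : D w ≠ 0 := Finsupp.mem_support_iff.mp hw
    have hw1 : 0 ≤ D w := Finsupp.le_def.mp hD w
    have hD' : 0 ≤ D - Finsupp.single w 1 := by
      rw [Finsupp.le_def]
      intro u
      rw [Finsupp.zero_apply, Finsupp.sub_apply, Finsupp.single_apply]
      split_ifs with h
      · subst h; omega
      · have := Finsupp.le_def.mp hD u
        rw [Finsupp.zero_apply] at this
        omega
    have hdeg' : Divisor.degree (D - Finsupp.single w 1) = g := by
      rw [map_sub, hdeg, rt_degree_single hx]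
      push_cast
      ring
    obtain ⟨v', hv'⟩ := ih (D - Finsupp.single w 1) hD' hdeg'
    refine ⟨Fin.cons w v', ?_⟩
    rw [ffi_pt_sum, Fin.sum_univ_succ]
    simp only [Fin.cons_zero, Fin.cons_succ]
    rw [ffi_pt_sum] at hv'
    rw [← hv']
    abel

omit [IsAlgClosed K] hx in
theorem ffi_dz_sum_nonneg {g : ℕ} (v : Fin g → Place K F) : 0 ≤ ffi_pt_sum v := by
  classical
  rw [ffi_pt_sum]
  apply Finset.sum_nonneg
  intro j _
  rw [Finsupp.le_def]
  intro w
  rw [Finsupp.zero_apply, Finsupp.single_apply]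
  split_ifs <;> norm_num

omit [IsAlgClosed K] hx in
theorem ffi_dz_single_le_sum {g : ℕ} (v : Fin g → Place K F) (j : Fin g) :
    Finsupp.single (v j) 1 ≤ ffi_pt_sum v := by
  classical
  rw [ffi_pt_sum, ← Finset.add_sum_erase _ _ (Finset.mem_univ j)]
  apply le_add_of_nonneg_right
  apply Finset.sum_nonneg
  intro i _
  rw [Finsupp.le_def]
  intro w
  rw [Finsupp.zero_apply, Finsupp.single_apply]
  split_ifs <;> norm_num

theorem ffi_dz_degree_sum {g : ℕ} (v : Fin g → Place K F) :
    Divisor.degree (ffi_pt_sum v) = g := by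
  rw [ffi_pt_sum, map_sum]
  simp [rt_degree_single hx]

/-- `l` is invariant under linear equivalence. -/
theorem ffi_dz_l_congr {D D' : Divisor K F}
    (h : D - D' ∈ Divisor.principal (K := K) (F := F)) :
    Module.finrank K ↥(riemannRochSpace D) = Module.finrank K ↥(riemannRochSpace D') := by
  obtain ⟨z, hz0, hz⟩ := h
  have h1 : D - D' = rt_div hx z := rt_eq_div_of_forall hx hz
  have h2 : D = D' + rt_div hx z := by rw [← h1]; abel
  rw [h2]
  exact rt_finrank_L_add_div hx D' hz0

/-- `E ≥ w` effective and `E ∼ S` ⟹ `l(S - w) ≥ 1`. -/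
theorem ffi_dz_one_le_of_ge {S E : Divisor K F} {w : Place K F}
    (hE : Finsupp.single w 1 ≤ E) (h : E - S ∈ Divisor.principal (K := K) (F := F)) :
    1 ≤ Module.finrank K ↥(riemannRochSpace (S - Finsupp.single w 1)) := by
  have h1 : 0 ≤ E - Finsupp.single w 1 := sub_nonneg.mpr hE
  have h2 := rt_one_le_l hx h1
  have h3 : (E - Finsupp.single w 1) - (S - Finsupp.single w 1) ∈
      Divisor.principal (K := K) (F := F) := by
    have : (E - Finsupp.single w 1) - (S - Finsupp.single w 1) = E - S := by abel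
    rw [this]; exact h
  rwa [ffi_dz_l_congr hx h3] at h2

/-- `l(S - w) = 0` ⟹ `l(S) ≤ 1`. -/
theorem ffi_dz_l_le_one {S : Divisor K F} {w : Place K F}
    (h : Module.finrank K ↥(riemannRochSpace (S - Finsupp.single w 1)) = 0) :
    Module.finrank K ↥(riemannRochSpace S) ≤ 1 := by
  have hle : S - Finsupp.single w 1 ≤ S := by
    rw [sub_le_self_iff, Finsupp.le_def]
    intro u
    classical
    rw [Finsupp.zero_apply, Finsupp.single_apply]
    split_ifs <;> norm_num
  have h1 := rt_l_le_of_le hx hle
  rw [h, map_sub, rt_degree_single hx] at h1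
  have : (Module.finrank K ↥(riemannRochSpace S) : ℤ) ≤ 1 := by
    push_cast at h1; linarith
  exact_mod_cast this

/-- a pole of `x` exists -/
theorem ffi_dz_exists_pole : ∃ w : Place K F, Finsupp.single w 1 ≤ rt_poleDiv hx x := by
  classical
  have hdeg := rt_degree_poleDiv hx hx.1
  haveI : FiniteDimensional K⟮x⟯ F := hx.2.1
  have hpos : 0 < Module.finrank K⟮x⟯ F := Module.finrank_pos
  have hne : rt_poleDiv hx x ≠ 0 := by
    intro h0
    rw [h0, map_zero] at hdeg
    have : (0 : ℤ) < (Module.finrank K⟮x⟯ F : ℤ) := by exact_mod_cast hpos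
    omega
  obtain ⟨w, hw⟩ := Finsupp.support_nonempty_iff.mpr hne
  refine ⟨w, ?_⟩
  have hw0 : rt_poleDiv hx x w ≠ 0 := Finsupp.mem_support_iff.mp hw
  have hnn := rt_poleDiv_nonneg hx x
  rw [Finsupp.le_def]
  intro u
  rw [Finsupp.single_apply]
  split_ifs with h
  · subst h
    have := Finsupp.le_def.mp hnn w
    rw [Finsupp.zero_apply] at this
    omega
  · have := Finsupp.le_def.mp hnn u
    rwa [Finsupp.zero_apply] at this

/-- the support of the pole divisor: the places where `x` is not regular -/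
theorem ffi_dz_pole_iff (w : Place K F) :
    Finsupp.single w 1 ≤ rt_poleDiv hx x ↔ x ∉ w.toValuationSubring := by
  classical
  have hx0 : x ≠ 0 := fun h => hx.1 (h ▸ (isAlgebraic_zero))
  rw [hw_mem_iff_ord_nonneg w hx0]
  constructor
  · intro h
    have h1 := Finsupp.le_def.mp h w
    rw [Finsupp.single_eq_same, rt_poleDiv_apply] at h1
    intro h2
    rw [max_eq_right (by omega)] at h1
    omega
  · intro h
    rw [Finsupp.le_def]
    intro u
    rw [Finsupp.single_apply, rt_poleDiv_apply]
    split_ifs with huw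
    · subst huw
      rw [not_le] at h
      have : (1 : ℤ) ≤ -w.ord x := by omega
      exact le_max_of_le_left this
    · exact le_max_right _ _

end One

/-! ### push-forward of divisors -/

section Map

variable {K : Type} {F : Type} [Field K] [Field F] [Algebra K F]
  {k : Type} {Fk : Type} [Field k] [Field Fk] [Algebra k Fk]
  (r : Place K F → Place k Fk)

theorem ffi_dz_map_sub (A B : Divisor K F) :
    Finsupp.mapDomain r (A - B) = Finsupp.mapDomain r A - Finsupp.mapDomain r B := by
  rw [← Finsupp.mapDomain.addMonoidHom_apply, map_sub, Finsupp.mapDomain.addMonoidHom_apply,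
    Finsupp.mapDomain.addMonoidHom_apply]

theorem ffi_dz_map_sum {g : ℕ} (v : Fin g → Place K F) :
    Finsupp.mapDomain r (ffi_pt_sum v) = ffi_pt_sum fun j => r (v j) := by
  rw [ffi_pt_sum, ffi_pt_sum, Finsupp.mapDomain_finsetSum]
  exact Finset.sum_congr rfl (fun j _ => Finsupp.mapDomain_single)

theorem ffi_dz_map_nonneg {D : Divisor K F} (hD : 0 ≤ D) : 0 ≤ Finsupp.mapDomain r D := by
  classical
  rw [Finsupp.le_def]
  intro q
  rw [Finsupp.zero_apply, Finsupp.mapDomain, Finsupp.sum_apply, Finsupp.sum]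
  apply Finset.sum_nonneg
  intro P _
  rw [Finsupp.single_apply]
  split_ifs
  · have := Finsupp.le_def.mp hD P
    rwa [Finsupp.zero_apply] at this
  · exact le_rfl

theorem ffi_dz_map_mono {D D' : Divisor K F} (h : D ≤ D') :
    Finsupp.mapDomain r D ≤ Finsupp.mapDomain r D' := by
  have h1 := ffi_dz_map_nonneg r (sub_nonneg.mpr h)
  rw [ffi_dz_map_sub] at h1
  exact sub_nonneg.mp h1

theorem ffi_dz_map_single_le {D : Divisor K F} {w : Place K F}
    (h : Finsupp.single w 1 ≤ D) : Finsupp.single (r w) 1 ≤ Finsupp.mapDomain r D := by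
  have := ffi_dz_map_mono r h
  rwa [Finsupp.mapDomain_single] at this

variable [IsAlgClosed K] [IsAlgClosed k] {x : F} (hx : rt_IsSepGen K x)
  {xk : Fk} (hxk : rt_IsSepGen k xk)

include hx hxk in
theorem ffi_dz_map_degree (D : Divisor K F) :
    Divisor.degree (Finsupp.mapDomain r D) = Divisor.degree D := by
  induction D using Finsupp.induction with
  | zero => simp
  | single_add P n D _ _ ih =>
    rw [Finsupp.mapDomain_add, map_add, map_add, ih, Finsupp.mapDomain_single,
      rt_degree_single hx, rt_degree_single hxk]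

end Map

/-! ### the theorem -/

/-- **[T-DZ]** abstract divisor theory: the generic `E₀` and the divisors `D_z`. -/
theorem ffi_pt_dz : ffi_pt_SeamDZ := by
  intro Kb _ _ κ _ _ FK _ _ Fκ _ _ xK xκ hxK hxκ g hRK' hRκ' r hprin hpole good hgood M _ Z hZ
  classical
  obtain ⟨cK, hRK⟩ := hRK'
  obtain ⟨cκ, hRκ⟩ := hRκ'
  haveI : Fintype M := Fintype.ofFinite M
  -- the poles of `xκ`, and one more place
  set T : Finset (Place κ Fκ) := (rt_poleDiv hxκ xκ).support with hT
  have hTmem : ∀ w : Place κ Fκ, w ∈ T ↔ xκ ∉ w.toValuationSubring := by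
    intro w
    rw [← ffi_dz_pole_iff hxκ w, hT, Finsupp.mem_support_iff]
    constructor
    · intro h
      have hnn := Finsupp.le_def.mp (rt_poleDiv_nonneg hxκ xκ)
      rw [Finsupp.le_def]
      intro u
      rw [Finsupp.single_apply]
      split_ifs with huw
      · subst huw
        have := hnn w
        rw [Finsupp.zero_apply] at this
        omega
      · have := hnn u
        rwa [Finsupp.zero_apply] at this
    · intro h h0
      have h1 := Finsupp.le_def.mp h w
      rw [Finsupp.single_eq_same, h0] at h1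
      exact absurd h1 (by norm_num)
  haveI := ffg_infinite_place hxκ
  obtain ⟨w0, -⟩ := (T.finite_toSet).infinite_compl.nonempty
  -- the family of classes
  set 𝒞 : Finset (Divisor κ Fκ) :=
    ((Finset.univ : Finset M) ×ˢ insert w0 T).image
      (fun zw => Finsupp.mapDomain r (Z zw.1) - Finsupp.single zw.2 1) with h𝒞def
  have h𝒞 : ∀ C ∈ 𝒞, Divisor.degree C = -1 := by
    intro C hC
    obtain ⟨⟨z, w⟩, -, rfl⟩ := Finset.mem_image.mp hC
    rw [map_sub, ffi_dz_map_degree r hxK hxκ, hZ z, rt_degree_single hxκ]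
    norm_num
  obtain ⟨Q, -, hQT, hQ⟩ := ffg_generic hxκ g cκ hRκ 𝒞 h𝒞 T
  have hQ' : ∀ (z : M) (w : Place κ Fκ), w ∈ insert w0 T →
      Module.finrank κ ↥(riemannRochSpace
        (Finsupp.mapDomain r (Z z) + ffi_pt_sum Q - Finsupp.single w 1)) = 0 := by
    intro z w hw
    have h1 := hQ (Finsupp.mapDomain r (Z z) - Finsupp.single w 1)
      (Finset.mem_image.mpr ⟨(z, w), Finset.mem_product.mpr ⟨Finset.mem_univ _, hw⟩, rfl⟩)
    have h2 : Finsupp.mapDomain r (Z z) - Finsupp.single w 1 + ∑ i, Finsupp.single (Q i) (1 : ℤ) =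
        Finsupp.mapDomain r (Z z) + ffi_pt_sum Q - Finsupp.single w 1 := by
      rw [ffi_pt_sum]; abel
    rwa [h2] at h1
  -- lift `Ē₀`
  have hQfin : ∀ i, xκ ∈ (Q i).toValuationSubring := by
    intro i
    by_contra h
    exact hQT i ((hTmem _).mpr h)
  choose P0 hP0good hP0r using fun i => hgood (Q i) (hQfin i)
  have hrP0 : (fun j => r (P0 j)) = Q := funext hP0r
  -- the divisors `D_z`
  have hex : ∀ z : M, ∃ f : FK, f ≠ 0 ∧ 0 ≤ Z z + ffi_pt_sum P0 + rt_div hxK f := by
    intro z
    have h1 := ffi_dz_riemann_ineq hxK g cK hRK (Z z + ffi_pt_sum P0)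
    rw [map_add, hZ z, ffi_dz_degree_sum hxK] at h1
    have hpos : 0 < Module.finrank Kb ↥(riemannRochSpace (Z z + ffi_pt_sum P0)) := by
      have : (0 : ℤ) < (Module.finrank Kb ↥(riemannRochSpace (Z z + ffi_pt_sum P0)) : ℤ) := by
        linarith
      exact_mod_cast this
    haveI := rt_L_finite hxK (Z z + ffi_pt_sum P0)
    obtain ⟨⟨f, hfmem⟩, hf0'⟩ := Module.finrank_pos_iff_exists_ne_zero.mp hpos
    have hf0 : f ≠ 0 := fun h => hf0' (Subtype.ext h)
    refine ⟨f, hf0, ?_⟩
    rw [Finsupp.le_def]
    intro v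
    have := (rt_mem_L_iff hf0).mp hfmem v
    rw [Finsupp.zero_apply, Finsupp.add_apply, rt_div_apply]
    omega
  choose f hf0 hfnn using hex
  have hdegD : ∀ z, Divisor.degree (Z z + ffi_pt_sum P0 + rt_div hxK (f z)) = g := by
    intro z
    rw [map_add, map_add, hZ z, ffi_dz_degree_sum hxK, rt_degree_div hxK]
    ring
  choose D hD using fun z => ffi_dz_exists_sum hxK g _ (hfnn z) (hdegD z)
  -- the push-forward of `D_z`
  have hS : ∀ z, ffi_pt_sum (fun j => r (D z j)) -
      (Finsupp.mapDomain r (Z z) + ffi_pt_sum Q) ∈ Divisor.principal (K := κ) (F := Fκ) := by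
    intro z
    have h1 : Finsupp.mapDomain r (rt_div hxK (f z)) ∈ Divisor.principal (K := κ) (F := Fκ) :=
      hprin _ (rt_div_isPrincipal hxK (hf0 z))
    have h2 : ffi_pt_sum (fun j => r (D z j)) - (Finsupp.mapDomain r (Z z) + ffi_pt_sum Q) =
        Finsupp.mapDomain r (rt_div hxK (f z)) := by
      rw [← ffi_dz_map_sum r (D z), ← hD z, Finsupp.mapDomain_add, Finsupp.mapDomain_add,
        ffi_dz_map_sum r P0, hrP0]
      abel
    rw [h2]; exact h1
  have hSw : ∀ (z : M) (w : Place κ Fκ), w ∈ insert w0 T →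
      Module.finrank κ ↥(riemannRochSpace
        (ffi_pt_sum (fun j => r (D z j)) - Finsupp.single w 1)) = 0 := by
    intro z w hw
    rw [← hQ' z w hw]
    apply ffi_dz_l_congr hxκ
    have : ffi_pt_sum (fun j => r (D z j)) - Finsupp.single w 1 -
        (Finsupp.mapDomain r (Z z) + ffi_pt_sum Q - Finsupp.single w 1) =
        ffi_pt_sum (fun j => r (D z j)) - (Finsupp.mapDomain r (Z z) + ffi_pt_sum Q) := by abel
    rw [this]; exact hS z
  refine ⟨P0, D, hP0good, fun i => by rw [hP0r]; exact hQfin i, ?_, ?_, ?_, ?_⟩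
  · -- the points of `D_z` have finite reduction
    intro z j
    by_contra h
    have hw : r (D z j) ∈ insert w0 T := Finset.mem_insert_of_mem ((hTmem _).mpr h)
    have h1 := ffi_dz_one_le_of_ge hxκ
      (S := ffi_pt_sum (fun j => r (D z j))) (E := ffi_pt_sum (fun j => r (D z j)))
      (w := r (D z j)) (ffi_dz_single_le_sum (fun j => r (D z j)) j)
      (by rw [sub_self]; exact AddSubgroup.zero_mem _)
    rw [hSw z _ hw] at h1
    exact absurd h1 (by norm_num)
  · -- `D_z ∼ Z z + E₀`
    intro z
    have : ffi_pt_sum (D z) - ffi_pt_sum P0 - Z z = rt_div hxK (f z) := by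
      rw [← hD z]; abel
    rw [this]
    exact rt_div_isPrincipal hxK (hf0 z)
  · -- `l(D_z) = 1`
    intro z
    apply le_antisymm _ (rt_one_le_l hxK (ffi_dz_sum_nonneg (D z)))
    by_contra hlt
    rw [not_le] at hlt
    obtain ⟨wt, hwt⟩ := ffi_dz_exists_pole hxK
    -- an effective divisor `∼ D_z` through the pole `wt`
    have hle : ffi_pt_sum (D z) - Finsupp.single wt 1 ≤ ffi_pt_sum (D z) := by
      rw [sub_le_self_iff, Finsupp.le_def]
      intro u
      rw [Finsupp.zero_apply, Finsupp.single_apply]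
      split_ifs <;> norm_num
    have h1 := rt_l_le_of_le hxK hle
    rw [map_sub, rt_degree_single hxK] at h1
    have hpos : 0 < Module.finrank Kb
        ↥(riemannRochSpace (ffi_pt_sum (D z) - Finsupp.single wt 1)) := by
      have h2 : (2 : ℤ) ≤ (Module.finrank Kb ↥(riemannRochSpace (ffi_pt_sum (D z))) : ℤ) := by
        exact_mod_cast hlt
      have : (0 : ℤ) < (Module.finrank Kb
          ↥(riemannRochSpace (ffi_pt_sum (D z) - Finsupp.single wt 1)) : ℤ) := by linarith
      exact_mod_cast this
    haveI := rt_L_finite hxK (ffi_pt_sum (D z) - Finsupp.single wt 1)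
    obtain ⟨⟨h, hhmem⟩, hh0'⟩ := Module.finrank_pos_iff_exists_ne_zero.mp hpos
    have hh0 : h ≠ 0 := fun h' => hh0' (Subtype.ext h')
    have hE : Finsupp.single wt 1 ≤ ffi_pt_sum (D z) + rt_div hxK h := by
      rw [Finsupp.le_def]
      intro v
      have := (rt_mem_L_iff hh0).mp hhmem v
      rw [Finsupp.sub_apply] at this
      rw [Finsupp.add_apply, rt_div_apply]
      omega
    have hE' := ffi_dz_map_single_le r hE
    have hprinE : Finsupp.mapDomain r (ffi_pt_sum (D z) + rt_div hxK h) -
        ffi_pt_sum (fun j => r (D z j)) ∈ Divisor.principal (K := κ) (F := Fκ) := by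
      rw [Finsupp.mapDomain_add, ffi_dz_map_sum r (D z), add_sub_cancel_left]
      exact hprin _ (rt_div_isPrincipal hxK hh0)
    have h3 := ffi_dz_one_le_of_ge hxκ hE' hprinE
    have hwT : r wt ∈ insert w0 T := by
      apply Finset.mem_insert_of_mem
      rw [hTmem, ← ffi_dz_pole_iff hxκ, ← hpole]
      exact ffi_dz_map_single_le r hwt
    rw [hSw z _ hwT] at h3
    exact absurd h3 (by norm_num)
  · -- `l(r_* D_z) = 1`
    intro z
    apply le_antisymm
    · exact ffi_dz_l_le_one hxκ (hSw z w0 (Finset.mem_insert_self _ _))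
    · exact rt_one_le_l hxκ (ffi_dz_sum_nonneg _)

end Fermat.Agent.FF
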