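/-
Project FF (S19), cell [INST], sub-cell [I-PT], leaf **[T-DEG]** (helper5).  Prefix `ffi_pt_deg_`.

`theorem ffi_pt_deg : ffi_pt_SeamDEG`: both fibres of a package with dictionaries have
`deg (x)_∞ = [F : k(x)] = n` — a corollary of `ffi_gr_degree` ([P-GR]); the injectivity of
`k ⊗ Λ m → k ⊗ 𝒜` is `ffa_res_fib_inj_flat` (generic fibre) / `ffa_res_fib_inj_κ` (special fibre).
-/
import Mathlib
import Fermat.Agent.FF.Inst.Pt.Seams
import Fermat.Agent.FF.Inst.Pkg.GenusRiemann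
import Fermat.Agent.FF.Add.Res.Fib

set_option autoImplicit false

noncomputable section

namespace Fermat.Agent.FF

open AlgebraicCurve IntermediateField Fermat.Agent.JT3
open scoped TensorProduct

/-- the filtration part of a package. -/
theorem ffi_pt_deg_filt {O : Type} [CommRing O] {𝒜 : Type} [CommRing 𝒜] [Algebra O 𝒜]
    {C : Type} [CommRing C] [Algebra O C] {π : O}
    {Kb : Type} [Field Kb] [Algebra O Kb] {κ : Type} [Field κ] [Algebra O κ]
    {Λ : ℕ → Submodule O 𝒜} {lead : ∀ m, ↥(Λ m) →ₗ[O] C} {g n m0 c0 : ℕ}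
    (pkg : ff_IsPkg O 𝒜 C π Kb κ Λ lead g n m0 c0) : ffi_IsFilt O 𝒜 C π Λ lead g n m0 where
  ft := pkg.ft
  tf := pkg.tf
  mono := pkg.mono
  exh := pkg.exh
  one_mem := pkg.one_mem
  zero_const := pkg.zero_const
  mul_mem := pkg.mul_mem
  fg := pkg.fg
  sat := pkg.sat
  Cfin := pkg.Cfin
  Cfree := pkg.Cfree
  Crank := pkg.Crank
  lead_ker := pkg.lead_ker
  lead_zero := pkg.lead_zero
  lead_one := pkg.lead_one
  lead_mul := pkg.lead_mul
  lead_surj := pkg.lead_surj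
  rank := pkg.rank

/-- a dictionary with injective lattices is a pre-dictionary. -/
theorem ffi_pt_deg_preDict {O : Type} [CommRing O] {𝒜 : Type} [CommRing 𝒜] [Algebra O 𝒜]
    {C : Type} [CommRing C] [Algebra O C] {k : Type} [Field k] [Algebra O k]
    {Λ : ℕ → Submodule O 𝒜} {lead : ∀ m, ↥(Λ m) →ₗ[O] C}
    {Fk : Type} [Field Fk] [Algebra k Fk] {xk : Fk} {ι : k ⊗[O] 𝒜 →ₐ[k] Fk} {g m1 : ℕ}
    (d : ffi_IsDict O 𝒜 C k Λ lead Fk xk ι g m1)
    (hincl : ∀ m, Function.Injective (ff_incl O 𝒜 k Λ m)) :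
    ffi_IsPreDict O 𝒜 C k Λ lead Fk xk ι m1 :=
  ⟨d.sep, d.inj, d.chart, hincl, d.lam_le, d.lam_ge, d.lead_iff⟩

/-- **[T-DEG]**. -/
theorem ffi_pt_deg : ffi_pt_SeamDEG := by
  intro O _ _ _ 𝒜 _ _ C _ _ π Kb _ _ _ κ _ _ _ Λ lead g n m0 c0 pkg FK _ _ xK ιK m1
    Fκ _ _ xκ ικ m1' dK dκ
  have hF := ffi_pt_deg_filt pkg
  have hKtf : Module.IsTorsionFree O Kb :=
    Module.isTorsionFree_iff_algebraMap_injective.mpr pkg.inj
  have preK := ffi_pt_deg_preDict dK fun m => ffa_res_fib_inj_flat Λ Kb m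
  have preκ := ffi_pt_deg_preDict dκ fun m => ffa_res_fib_inj_κ pkg m
  exact ⟨ffi_gr_degree pkg.irr hF pkg.dedK preK, ffi_gr_degree pkg.irr hF pkg.dedκ preκ⟩

end Fermat.Agent.FF
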