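/-
Project FF (S19), cell [INST], sub-cell [I-PT], leaf **[T-LE]** (helper16).  Prefix `ffi_pt_le_`.

`theorem ffi_pt_le : ffi_pt_SeamLE`: ONE fibre `B = k ⊗ 𝒜` with its dictionary `ffi_IsDict`
(`k` algebraically closed):
(a) every finite place carries a point (`ffd_ev`);
(b) a point determines its place (`ffd_placeOfPt_ev`);
(c) a linear equivalence `v¹ + v² ∼ v³ + v⁴` of sums of `g` finite places gives `ff_LinEq` for the
    ideals of the points (`ffd_linEq_of_div`, then multiply by `x^m1` to reach `s ≥ m1`, `lam_ge`,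
    `lead_iff`);
(d) `l(v) = 1` gives `ff_Uniq` (`ffd_uniq_of_l_one`, `lam_le`, `lead_iff`, injectivity of `incl`).

`B` is a Dedekind domain with fraction field `Fk` because `ι` identifies it with the integral closure
of `k[xk]` in `Fk` (`dict.inj`, `dict.chart`).
-/
import Mathlib
import Fermat.Agent.FF.Inst.Pt.Seams
import Fermat.Agent.FF.Inst.ChartFrac
import Fermat.Agent.FF.Dict.LinEq
import Fermat.Agent.FF.Dict.Points

set_option autoImplicit false
set_option linter.unusedSectionVars false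
set_option linter.unusedVariables false
set_option linter.style.haveILetI false

noncomputable section

namespace Fermat.Agent.FF

open AlgebraicCurve IntermediateField Fermat.Agent.S24 Fermat.Agent.JT3
open scoped TensorProduct

/-! ### generalities on an abstract chart -/

section AbsB

universe u v w

/-- Dedekind domains are invariant under ring isomorphisms. -/
theorem ffi_pt_le_dedekind_of_equiv {R S : Type*} [CommRing R] [CommRing S]
    [IsDedekindDomain S] (e : R ≃+* S) : IsDedekindDomain R := by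
  have : IsDomain R := e.toMulEquiv.isDomain
  have : IsNoetherianRing R := isNoetherianRing_of_ringEquiv S e.symm
  have : Ring.DimensionLEOne R := Ring.DimensionLEOne.of_ringEquiv e
  have : IsIntegrallyClosed R := IsIntegrallyClosed.of_equiv e.symm
  exact { }

variable {K : Type u} {F : Type v} [Field K] [Field F] [Algebra K F]

/-- an abstract chart of a separating generator, injective into `F`, is a Dedekind domain. -/
theorem ffi_pt_le_isDedekind {x : F} (hx : rt_IsSepGen K x) (B : Type w) [CommRing B]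
    [Algebra K B] [Algebra B F] [IsScalarTower K B F]
    (hinj : Function.Injective (algebraMap B F)) (hB : ffd_IsChart K B x) :
    IsDedekindDomain B := by
  haveI := rt_chart_isDedekindDomain hx
  have hC := ffd_isChart_chart hx
  have hmem : ∀ b : B, algebraMap B F b ∈ (ffd_chart K x).toSubring := by
    intro b
    obtain ⟨c, hc⟩ := (hC _).mpr ((hB _).mp ⟨b, rfl⟩)
    rw [← hc]
    exact c.2
  let φ : B →+* ↥(ffd_chart K x).toSubring := (algebraMap B F).codRestrict _ hmem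
  have hφinj : Function.Injective φ := by
    intro a b hab
    apply hinj
    exact congrArg Subtype.val hab
  have hφsurj : Function.Surjective φ := by
    intro c
    obtain ⟨b, hb⟩ := (hB _).mpr ((hC _).mp ⟨⟨c.1, c.2⟩, rfl⟩)
    exact ⟨b, Subtype.ext hb⟩
  exact ffi_pt_le_dedekind_of_equiv
    ((RingEquiv.ofBijective φ ⟨hφinj, hφsurj⟩).trans
      (RingEquiv.refl ↥(ffd_chart K x)))

variable [IsAlgClosed K] {x : F} (hx : rt_IsSepGen K x)
variable {B : Type w} [CommRing B] [IsDedekindDomain B] [Algebra K B] [Algebra B F]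
  [IsScalarTower K B F] [IsFractionRing B F]

/-- membership in the prime of a finite place, in terms of the nonunits of the place. -/
theorem ffi_pt_le_mem_prime_iff (v : Place K F)
    (hv : ffd_IsFin B v) (b : B) :
    b ∈ (hw_primeOfPlace v hv).asIdeal ↔ algebraMap B F b ∈ v.toValuationSubring.nonunits := by
  rw [hw_mem_primeOfPlace_iff, ← mem_nonunits_iff, ← IsLocalRing.mem_maximalIdeal,
    ← ValuationSubring.coe_mem_nonunits_iff]
  rfl

/-- the value at a finite place is characterised by vanishing at the place. -/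
theorem ffi_pt_le_ev_eq_iff (v : Place K F) (hv : ffd_IsFin B v) (b : B) (c : K) :
    ffd_ev hx v hv b = c ↔
      algebraMap B F b - algebraMap K F c ∈ v.toValuationSubring.nonunits := by
  rw [ffd_ev_eq_iff, ffi_pt_le_mem_prime_iff, map_sub, ← IsScalarTower.algebraMap_apply]

end AbsB

/-! ### divisors `v 0 + ⋯ + v (g-1)` -/

section Sum

variable {k : Type} [Field k] {Fk : Type} [Field Fk] [Algebra k Fk] {g : ℕ}

theorem ffi_pt_le_sum_apply (v : Fin g → Place k Fk) (w : Place k Fk) :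
    ffi_pt_sum v w = ∑ j, (Finsupp.single (v j) (1 : ℤ)) w := by
  rw [ffi_pt_sum, Finsupp.finsetSum_apply]

theorem ffi_pt_le_sum_nonneg (v : Fin g → Place k Fk) : 0 ≤ ffi_pt_sum v := by
  classical
  intro w
  rw [ffi_pt_le_sum_apply, Finsupp.zero_apply]
  refine Finset.sum_nonneg fun j _ => ?_
  by_cases h : w = v j
  · rw [h, Finsupp.single_eq_same]; norm_num
  · rw [Finsupp.single_eq_of_ne h]

theorem ffi_pt_le_sum_supp (v : Fin g → Place k Fk) (w : Place k Fk)
    (h : ffi_pt_sum v w ≠ 0) : ∃ j, v j = w := by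
  classical
  by_contra hne
  push Not at hne
  apply h
  rw [ffi_pt_le_sum_apply]
  refine Finset.sum_eq_zero fun j _ => ?_
  exact Finsupp.single_eq_of_ne (fun h' => hne j h'.symm)

end Sum

/-! ### the leaf -/

/-- **[T-LE]** -/
theorem ffi_pt_le : ffi_pt_SeamLE := by
  intro O _ 𝒜 _ _ C _ _ k _ _ _ Λ lead Fk _ _ xk ι g m1 X dict hX hincl
  classical
  -- the chart structure on `B = k ⊗ 𝒜`
  letI algB : Algebra (k ⊗[O] 𝒜) Fk := ι.toRingHom.toAlgebra
  haveI : IsScalarTower k (k ⊗[O] 𝒜) Fk :=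
    IsScalarTower.of_algebraMap_eq fun c => (ι.commutes c).symm
  have hx := dict.sep
  have hB : ffd_IsChart k (k ⊗[O] 𝒜) xk := by
    intro f
    rw [← dict.chart f]
    constructor
    · rintro ⟨b, rfl⟩; exact ⟨b, rfl⟩
    · rintro ⟨b, rfl⟩; exact ⟨b, rfl⟩
  haveI hded : IsDedekindDomain (k ⊗[O] 𝒜) := ffi_pt_le_isDedekind hx _ dict.inj hB
  haveI hfr : IsFractionRing (k ⊗[O] 𝒜) Fk := ffi_cf_isFractionRing hx _ dict.inj hB
  have hιalg : ∀ b : k ⊗[O] 𝒜, algebraMap (k ⊗[O] 𝒜) Fk b = ι b := fun _ => rfl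
  -- a point at a place: the place is finite and its value map is the point
  have hfinAt : ∀ (p : 𝒜 →ₐ[O] k) (v : Place k Fk), ffi_pt_At ι p v →
      xk ∈ v.toValuationSubring := by
    intro p v hp
    have h1 := hp X
    rw [hX] at h1
    have h2 : xk - algebraMap k Fk (p X) ∈ v.toValuationSubring :=
      ValuationSubring.nonunits_subset h1
    have h3 : algebraMap k Fk (p X) ∈ v.toValuationSubring := v.algebraMap_mem' _
    have := v.toValuationSubring.add_mem _ _ h2 h3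
    rwa [sub_add_cancel] at this
  have hptmul : ∀ (p : 𝒜 →ₐ[O] k) (a : 𝒜), ff_pt k p (1 ⊗ₜ[O] a) = p a := by
    intro p a
    rw [ff_pt, Algebra.TensorProduct.lift_tmul, map_one, one_mul]
  have hevAt : ∀ (p : 𝒜 →ₐ[O] k) (v : Place k Fk) (hp : ffi_pt_At ι p v)
      (hv : ffd_IsFin (k ⊗[O] 𝒜) v), ffd_ev hx v hv = ff_pt k p := by
    intro p v hp hv
    apply Algebra.TensorProduct.ext
    · ext
    · ext a
      show ffd_ev hx v hv (1 ⊗ₜ[O] a) = ff_pt k p (1 ⊗ₜ[O] a)
      rw [hptmul, ffi_pt_le_ev_eq_iff, hιalg]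
      exact hp a
  have hplaceAt : ∀ (p : 𝒜 →ₐ[O] k) (v : Place k Fk), ffi_pt_At ι p v →
      ffd_placeOfPt hx hB (ff_pt k p) = v := by
    intro p v hp
    have hv : ffd_IsFin (k ⊗[O] 𝒜) v := (hB.isFin_iff v).mpr (hfinAt p v hp)
    rw [← hevAt p v hp hv, ffd_placeOfPt_ev]
  -- the ideal of a sum of points
  have hideal : ∀ (v : Fin g → Place k Fk) (p : Fin g → 𝒜 →ₐ[O] k),
      (∀ j, ffi_pt_At ι (p j) (v j)) →
      ffd_ideal (k ⊗[O] 𝒜) (ffi_pt_sum v) = ff_ptIdeal k p := by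
    intro v p hp
    have h1 := ffd_ideal_sum_single hx hB (Finset.univ : Finset (Fin g)) fun j => ff_pt k (p j)
    have h2 : (∑ j, Finsupp.single (ffd_placeOfPt hx hB (ff_pt k (p j))) (1 : ℤ) :
        Divisor k Fk) = ffi_pt_sum v := by
      rw [ffi_pt_sum]
      refine Finset.sum_congr rfl fun j _ => ?_
      rw [hplaceAt (p j) (v j) (hp j)]
    rw [h2] at h1
    rw [h1, ff_ptIdeal]
    rfl
  have hsumfin : ∀ (v : Fin g → Place k Fk) (p : Fin g → 𝒜 →ₐ[O] k),
      (∀ j, ffi_pt_At ι (p j) (v j)) →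
      ∀ w, ffi_pt_sum v w ≠ 0 → xk ∈ w.toValuationSubring := by
    intro v p hp w hw
    obtain ⟨j, rfl⟩ := ffi_pt_le_sum_supp v w hw
    exact hfinAt (p j) (v j) (hp j)
  -- `k ⊗ Λ m ⊆ Λ_m`, with equality for `m ≥ m1`
  have hle : ∀ (m : ℕ) (u : k ⊗[O] ↥(Λ m)),
      ff_incl O 𝒜 k Λ m u ∈ ffd_Lam hx (k ⊗[O] 𝒜) (m : ℤ) := by
    intro m u
    by_cases hb : ff_incl O 𝒜 k Λ m u = 0
    · rw [hb]; exact zero_mem _
    rw [ffd_mem_Lam_iff hx _ hb]
    intro v
    by_cases hv : xk ∈ v.toValuationSubring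
    · rw [(ffd_Tinf_eq_zero_iff hx v).mpr hv, mul_zero, neg_zero]
      have hne : algebraMap (k ⊗[O] 𝒜) Fk (ff_incl O 𝒜 k Λ m u) ≠ 0 := ffd_map_ne_zero hb
      rw [← hw_mem_iff_ord_nonneg v hne]
      exact (hB _).mp ⟨_, rfl⟩ v hv
    · rw [ffd_Tinf_eq_neg_ord hx hv, mul_neg, neg_neg]
      exact dict.lam_le m u v hv
  have hge : ∀ m : ℕ, m1 ≤ m → ∀ b ∈ ffd_Lam hx (k ⊗[O] 𝒜) (m : ℤ),
      ∃ u : k ⊗[O] ↥(Λ m), ff_incl O 𝒜 k Λ m u = b := by
    intro m hm b hb
    by_cases hb0 : b = 0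
    · exact ⟨0, by rw [map_zero, hb0]⟩
    refine dict.lam_ge m hm b fun v hv => ?_
    have := (ffd_mem_Lam_iff hx _ hb0).mp hb v
    rw [ffd_Tinf_eq_neg_ord hx hv, mul_neg, neg_neg] at this
    exact this
  -- exactness ↔ unit leading term
  have hexact : ∀ (m : ℕ) (u : k ⊗[O] ↥(Λ m)),
      IsUnit (ff_leadk O 𝒜 C k Λ lead m u) ↔
        ffd_IsExact (K := k) (x := xk) m (ff_incl O 𝒜 k Λ m u) := by
    intro m u
    rw [dict.lead_iff m u]
    constructor
    · rintro ⟨h0, h1⟩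
      refine ⟨fun h => h0 (by rw [h, map_zero]), fun v hv => h1 v hv⟩
    · rintro ⟨h0, h1⟩
      exact ⟨fun h => h0 (dict.inj (by rw [h, map_zero])), fun v hv => h1 v hv⟩
  obtain ⟨c, hR⟩ := dict.riemann
  refine ⟨?_, ?_, ?_, ?_⟩
  · -- (a)
    intro v hv
    have hvB : ffd_IsFin (k ⊗[O] 𝒜) v := (hB.isFin_iff v).mpr hv
    refine ⟨((ffd_ev hx v hvB).restrictScalars O).comp
      (Algebra.TensorProduct.includeRight : 𝒜 →ₐ[O] k ⊗[O] 𝒜), fun a => ?_⟩
    have := (ffi_pt_le_ev_eq_iff hx v hvB (1 ⊗ₜ[O] a) _).mp rfl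
    exact this
  · -- (b)
    intro v v' p hp hp'
    rw [← hplaceAt p v hp, ← hplaceAt p v' hp']
  · -- (c)
    intro v₁ v₂ v₃ v₄ p₁ p₂ p₃ p₄ hp₁ hp₂ hp₃ hp₄ hprin
    obtain ⟨f, hf0, hdiv⟩ := hprin
    have hdiv' : ∀ v : Place k Fk, v.ord f =
        ffi_pt_sum v₁ v + ffi_pt_sum v₂ v - ffi_pt_sum v₃ v - ffi_pt_sum v₄ v := by
      intro v
      rw [← hdiv v, Finsupp.sub_apply, Finsupp.add_apply, Finsupp.add_apply]
      ring
    obtain ⟨s, h, h', hh, hh', hI⟩ := ffd_linEq_of_div hx hB g c hR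
      (ffi_pt_le_sum_nonneg v₁) (ffi_pt_le_sum_nonneg v₂) (ffi_pt_le_sum_nonneg v₃)
      (ffi_pt_le_sum_nonneg v₄) (hsumfin v₁ p₁ hp₁) (hsumfin v₂ p₂ hp₂) (hsumfin v₃ p₃ hp₃)
      (hsumfin v₄ p₄ hp₄) hf0 hdiv'
    rw [hideal v₁ p₁ hp₁, hideal v₂ p₂ hp₂, hideal v₃ p₃ hp₃, hideal v₄ p₄ hp₄] at hI
    -- shift by `x^m1`
    set XB : k ⊗[O] 𝒜 := (1 : k) ⊗ₜ[O] X with hXB
    have hXBx : algebraMap (k ⊗[O] 𝒜) Fk XB = xk := hX
    have hx0 : xk ≠ 0 := ffd_x_ne_zero hx
    have hXB0 : XB ≠ 0 := by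
      intro h0
      apply hx0
      rw [← hXBx, h0, map_zero]
    have hshift : ∀ b : k ⊗[O] 𝒜, ffd_IsExact (K := k) (x := xk) s b →
        ffd_IsExact (K := k) (x := xk) (s + m1) (XB ^ m1 * b) := by
      rintro b ⟨hb0, hb⟩
      refine ⟨mul_ne_zero (pow_ne_zero _ hXB0) hb0, fun v hv => ?_⟩
      rw [map_mul, map_pow, hXBx, v.ord_mul (pow_ne_zero _ hx0) (ffd_map_ne_zero hb0),
        rt_ord_pow, hb v hv]
      push_cast
      ring
    obtain ⟨u, hu⟩ := hge (s + m1) (Nat.le_add_left _ _) _ ((hshift h hh).mem_Lam hx hB)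
    obtain ⟨u', hu'⟩ := hge (s + m1) (Nat.le_add_left _ _) _ ((hshift h' hh').mem_Lam hx hB)
    refine ⟨s + m1, u, u', ?_, ?_, ?_⟩
    · rw [hexact, hu]; exact hshift h hh
    · rw [hexact, hu']; exact hshift h' hh'
    · rw [hu, hu', ← Ideal.span_singleton_mul_span_singleton,
        ← Ideal.span_singleton_mul_span_singleton, mul_assoc, mul_assoc, mul_assoc, mul_assoc,
        ← mul_assoc (Ideal.span {h}), ← mul_assoc (Ideal.span {h'}), hI]
  · -- (d)
    intro v p hp hl s u u' hu' hdvd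
    have hI := hideal v p hp
    obtain ⟨c', hc'⟩ := ffd_uniq_of_l_one hx hB (ffi_pt_le_sum_nonneg v) (hsumfin v p hp) hl s
      (hle s u) ((hexact s u').mp hu') (fun w hw => hdvd w (by rw [← hI]; exact hw))
    refine ⟨c', hincl s ?_⟩
    rw [hc', map_smul]

end Fermat.Agent.FF
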