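/-
Project FF (S19), cell [INST], sub-cell [I-PT], leaf **[T-LIFT]** (helper16).
Prefix `ffi_pt_lift_`.

`theorem ffi_pt_lift (hRED : ffi_pt_SeamRED) (hLE : ffi_pt_SeamLE) : ffi_pt_SeamLIFT`:
every finite place `Q` of the special fibre lifts to an `O`-rational point.

* `ū ∈ κ ⊗ 𝒜` with `ord_Q ū = 1` (the fibre is a Dedekind domain with fraction field `Fκ`), and
  `ū = 1 ⊗ u` since `O → κ` is onto;
* [T-RED] (d): exactly one `P ∈ r⁻¹ Q` with `ord_P u = 1`, the other points of the fibre have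
  `ord = 0`; `P` is finite ([T-RED] (a)) and carries a point `p` ([T-LE] (a));
* `τ ∈ I` fixes the chart functions, so `τ • P` carries the point `τ ∘ p`, whose `X`-value is in `Av`
  ([T-RED] (b)), so `r (τ • P)` is finite ([T-RED] (c)) and carries the point `res ∘ τ ∘ p = res ∘ p`
  ([T-RED] (b)), hence `r (τ • P) = r P` ([T-LE] (b)); as `ord_{τ • P} u = ord_P u = 1`, `τ • P = P`;
* the point at a place is unique, so `τ ∘ p = p` for all `τ ∈ I`: the values of `p` are `I`-invariant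
  elements of `Av`, i.e. lie in `O`.
-/
import Mathlib
import Fermat.Agent.FF.Inst.Pt.Seams
import Fermat.Agent.FF.Inst.Pt.LE
import Fermat.Agent.FF.Inst.Pt.RedAbs

set_option autoImplicit false
set_option linter.unusedSectionVars false
set_option linter.unusedVariables false
set_option linter.style.haveILetI false

noncomputable section

namespace Fermat.Agent.FF

open AlgebraicCurve IntermediateField Fermat.Agent.S24 Fermat.Agent.JT3
open scoped TensorProduct Pointwise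

/-! ### generalities -/

section Gen

/-- every element of `κ ⊗[O] 𝒜` is `1 ⊗ u` when `O → κ` is onto. -/
theorem ffi_pt_lift_exists_tmul {O : Type*} [CommRing O] {𝒜 : Type*} [CommRing 𝒜] [Algebra O 𝒜]
    {κ : Type*} [CommRing κ] [Algebra O κ] (hs : Function.Surjective (algebraMap O κ))
    (b : κ ⊗[O] 𝒜) : ∃ u : 𝒜, b = (1 : κ) ⊗ₜ[O] u := by
  induction b using TensorProduct.induction_on with
  | zero => exact ⟨0, (TensorProduct.tmul_zero _ _).symm⟩
  | tmul c a =>
    obtain ⟨o, rfl⟩ := hs c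
    refine ⟨o • a, ?_⟩
    rw [Algebra.algebraMap_eq_smul_one, TensorProduct.smul_tmul]
  | add b₁ b₂ h₁ h₂ =>
    obtain ⟨u₁, rfl⟩ := h₁
    obtain ⟨u₂, rfl⟩ := h₂
    exact ⟨u₁ + u₂, (TensorProduct.tmul_add _ _ _).symm⟩

variable {K : Type*} {F : Type*} [Field K] [Field F] [Algebra K F]

/-- the maximal ideal of a place is closed under subtraction. -/
theorem ffi_pt_lift_sub_mem_nonunits (A : ValuationSubring F) {a b : F} (ha : a ∈ A.nonunits)
    (hb : b ∈ A.nonunits) : a - b ∈ A.nonunits := by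
  rw [ValuationSubring.mem_nonunits_iff] at ha hb ⊢
  exact Valuation.map_sub_lt _ ha hb

/-- a constant vanishing at a place is zero. -/
theorem ffi_pt_lift_const_eq_zero (v : Place K F) {c : K}
    (h : algebraMap K F c ∈ v.toValuationSubring.nonunits) : c = 0 := by
  by_contra hc
  rw [ValuationSubring.mem_nonunits_iff_or] at h
  rcases h with h | h
  · exact hc ((map_eq_zero _).mp h)
  · apply h
    rw [← map_inv₀]
    exact v.algebraMap_mem' _

/-- a semilinear automorphism maps the maximal ideal of `v` to that of `g • v`. -/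
theorem ffi_pt_lift_smul_mem_nonunits (g : ↥(SemilinearAut K F)) (v : Place K F) {y : F}
    (hy : y ∈ v.toValuationSubring.nonunits) : g • y ∈ (g • v).toValuationSubring.nonunits := by
  rw [ValuationSubring.mem_nonunits_iff_or] at hy ⊢
  rcases hy with rfl | hy
  · left; exact smul_zero g
  · right
    intro h
    apply hy
    rw [SemilinearAut.smul_toValuationSubring,
      ValuationSubring.mem_pointwise_smul_iff_inv_smul_mem, ← smul_inv'', inv_smul_smul] at h
    exact h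

end Gen

/-! ### the leaf -/

/-- **[T-LIFT]** -/
theorem ffi_pt_lift (hRED : ffi_pt_SeamRED) (hLE : ffi_pt_SeamLE) : ffi_pt_SeamLIFT := by
  intro O _ _ _ 𝒜 _ _ C _ _ Kb _ _ _ κ _ _ _ Λ lead g m1 m1' FK _ _ Fκ _ _ ιK ικ Av res r X
    hred dK dκ hdeg hinjO hsurjO hinclK hinclκ I hIfix hIres hIinv Q hQ
  classical
  have hxK := dK.sep
  have hxκ := dκ.sep
  have hreg : ∀ (a : 𝒜) (P : Place Kb FK), ιK (1 ⊗ₜ[O] X) ∈ P.toValuationSubring →
      ιK (1 ⊗ₜ[O] a) ∈ P.toValuationSubring := fun a P hP =>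
    (dK.chart _).mp ⟨_, rfl⟩ P hP
  obtain ⟨hpole, hval, hfin, hsimple⟩ :=
    hRED O 𝒜 Kb κ FK Fκ ιK ικ Av res r X hred hxK hxκ hdeg hreg
  obtain ⟨hKa, hKb, -, -⟩ := hLE O 𝒜 C Kb Λ lead FK _ ιK g m1 X dK rfl hinclK
  obtain ⟨hκa, hκb, -, -⟩ := hLE O 𝒜 C κ Λ lead Fκ _ ικ g m1' X dκ rfl hinclκ
  -- Step 1: a lifted local parameter at `Q`
  obtain ⟨u, hu⟩ : ∃ u : 𝒜, Q.ord (ικ (1 ⊗ₜ[O] u)) = 1 := by
    letI algB : Algebra (κ ⊗[O] 𝒜) Fκ := ικ.toRingHom.toAlgebra
    haveI : IsScalarTower κ (κ ⊗[O] 𝒜) Fκ :=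
      IsScalarTower.of_algebraMap_eq fun c => (ικ.commutes c).symm
    have hB : ffd_IsChart κ (κ ⊗[O] 𝒜) (ικ (1 ⊗ₜ[O] X)) := by
      intro f
      rw [← dκ.chart f]
      constructor
      · rintro ⟨b, rfl⟩; exact ⟨b, rfl⟩
      · rintro ⟨b, rfl⟩; exact ⟨b, rfl⟩
    haveI hded : IsDedekindDomain (κ ⊗[O] 𝒜) := ffi_pt_le_isDedekind hxκ _ dκ.inj hB
    haveI hfr : IsFractionRing (κ ⊗[O] 𝒜) Fκ := ffi_cf_isFractionRing hxκ _ dκ.inj hB
    have hQB : ffd_IsFin (κ ⊗[O] 𝒜) Q := (hB.isFin_iff Q).mpr hQ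
    have hD : (0 : Divisor κ Fκ) ≤ Finsupp.single Q 1 := by
      intro w
      rw [Finsupp.zero_apply]
      by_cases h : w = Q
      · rw [h, Finsupp.single_eq_same]; norm_num
      · rw [Finsupp.single_eq_of_ne h]
    have hDfin : ∀ w : Place κ Fκ, (Finsupp.single Q 1 : Divisor κ Fκ) w ≠ 0 →
        ffd_IsFin (κ ⊗[O] 𝒜) w := by
      intro w hw
      by_cases h : w = Q
      · rw [h]; exact hQB
      · exact absurd (Finsupp.single_eq_of_ne h) hw
    obtain ⟨b, -, -, hb⟩ := ffd_exists_mem_ideal_ord_eq (B := κ ⊗[O] 𝒜) hD hDfin Q hQB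
    obtain ⟨u, rfl⟩ := ffi_pt_lift_exists_tmul hsurjO b
    refine ⟨u, ?_⟩
    rw [Finsupp.single_eq_same] at hb
    exact hb
  -- Step 2: the unique simple zero of `u` above `Q`
  obtain ⟨P, hrP, hPu, hPuniq⟩ := hsimple u Q hQ hu
  -- Step 3: `P` is finite
  have hPfin : ιK (1 ⊗ₜ[O] X) ∈ P.toValuationSubring := by
    by_contra hP
    have h1 : 0 < ffd_Tinf hxK P := (ffd_Tinf_pos_iff hxK P).mpr hP
    have h2 : ffd_Tinf hxK P ≤ Finsupp.mapDomain r (ffd_Tinf hxK) (r P) :=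
      ffi_red_le_mapDomain r (ffd_Tinf_nonneg hxK) P
    have h3 : Finsupp.mapDomain r (ffd_Tinf hxK) = ffd_Tinf hxκ := hpole
    rw [h3, hrP] at h2
    have h4 : ffd_Tinf hxκ Q = 0 := (ffd_Tinf_eq_zero_iff hxκ Q).mpr hQ
    omega
  -- Step 4: the points at `P` and at `Q`
  obtain ⟨p, hp⟩ := hKa P hPfin
  obtain ⟨pb, hpb⟩ := hκa Q hQ
  have hpbP : ffi_pt_At ικ pb (r P) := by rw [hrP]; exact hpb
  have hvalP := hval P p pb hp hpbP
  -- Step 5: the elements of `I` fix `P` and `p`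
  have hIp : ∀ τ ∈ I, ∀ a : 𝒜, SemilinearAut.baseAut τ (p a) = p a := by
    intro τ hτ
    -- `τ` fixes `O`
    have hτO : ∀ o : O, SemilinearAut.baseAut τ (algebraMap O Kb o) = algebraMap O Kb o := by
      intro o
      have h1 : ιK (1 ⊗ₜ[O] algebraMap O 𝒜 o) = algebraMap Kb FK (algebraMap O Kb o) := by
        rw [Algebra.algebraMap_eq_smul_one, ← TensorProduct.smul_tmul,
          ← Algebra.algebraMap_eq_smul_one]
        have : (algebraMap O Kb o ⊗ₜ[O] (1 : 𝒜) : Kb ⊗[O] 𝒜) =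
            algebraMap Kb (Kb ⊗[O] 𝒜) (algebraMap O Kb o) := rfl
        rw [this, AlgHom.commutes]
      have h2 := hIfix τ hτ (algebraMap O 𝒜 o)
      rw [h1, SemilinearAut.smul_algebraMap] at h2
      exact (algebraMap Kb FK).injective h2
    -- the conjugate point
    let p' : 𝒜 →ₐ[O] Kb :=
      { ((SemilinearAut.baseAut τ : Kb ≃+* Kb) : Kb →+* Kb).comp (p : 𝒜 →+* Kb) with
        commutes' := fun o => by
          show SemilinearAut.baseAut τ (p (algebraMap O 𝒜 o)) = algebraMap O Kb o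
          rw [AlgHom.commutes, hτO] }
    have hp'a : ∀ a, p' a = SemilinearAut.baseAut τ (p a) := fun _ => rfl
    have hp' : ffi_pt_At ιK p' (τ • P) := by
      intro a
      have h1 := ffi_pt_lift_smul_mem_nonunits τ P (hp a)
      rw [smul_sub, hIfix τ hτ a, SemilinearAut.smul_algebraMap] at h1
      exact h1
    -- `r (τ • P)` is finite
    obtain ⟨hX, -⟩ := hvalP X
    obtain ⟨hX', -⟩ := hIres τ hτ ⟨p X, hX⟩
    have hfin' : ικ (1 ⊗ₜ[O] X) ∈ (r (τ • P)).toValuationSubring := hfin (τ • P) p' hp' hX'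
    obtain ⟨pb', hpb'⟩ := hκa (r (τ • P)) hfin'
    have hval' := hval (τ • P) p' pb' hp' hpb'
    have hpbeq : pb' = pb := by
      apply AlgHom.ext
      intro a
      obtain ⟨h1, h2⟩ := hval' a
      obtain ⟨h3, h4⟩ := hvalP a
      obtain ⟨h5, h6⟩ := hIres τ hτ ⟨p a, h3⟩
      rw [← h2, ← h4, ← h6]
      rfl
    rw [hpbeq] at hpb'
    have hrτ : r (τ • P) = Q := by
      rw [← hrP]
      exact hκb (r (τ • P)) (r P) pb hpb' hpbP
    -- `τ • P = P`
    have hτP : τ • P = P := by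
      by_contra hne
      have h1 := hPuniq (τ • P) hrτ hne
      have h2 := SemilinearAut.ord_smul τ P (ιK (1 ⊗ₜ[O] u))
      rw [hIfix τ hτ u, h1, hPu] at h2
      omega
    rw [hτP] at hp'
    -- uniqueness of the point at `P`
    intro a
    have h1 := ffi_pt_lift_sub_mem_nonunits _ (hp a) (hp' a)
    have h2 : ιK (1 ⊗ₜ[O] a) - algebraMap Kb FK (p a) -
        (ιK (1 ⊗ₜ[O] a) - algebraMap Kb FK (p' a)) = algebraMap Kb FK (p' a - p a) := by
      rw [map_sub]; ring
    rw [h2] at h1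
    have h3 := ffi_pt_lift_const_eq_zero P h1
    rw [← hp'a]
    exact sub_eq_zero.mp h3
  -- Step 6: the values of `p` lie in `O`
  have hrange : ∀ a : 𝒜, p a ∈ (Algebra.ofId O Kb).range := by
    intro a
    obtain ⟨ha, -⟩ := hvalP a
    obtain ⟨o, ho⟩ := hIinv ⟨p a, ha⟩ fun τ hτ => hIp τ hτ a
    exact ⟨o, ho⟩
  let e : O ≃ₐ[O] ↥(Algebra.ofId O Kb).range := AlgEquiv.ofInjective (Algebra.ofId O Kb) hinjO
  let p0 : 𝒜 →ₐ[O] O := (e.symm : ↥(Algebra.ofId O Kb).range →ₐ[O] O).comp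
    (p.codRestrict (Algebra.ofId O Kb).range hrange)
  have hp0 : (Algebra.ofId O Kb).comp p0 = p := by
    apply AlgHom.ext
    intro a
    show Algebra.ofId O Kb (e.symm (p.codRestrict (Algebra.ofId O Kb).range hrange a)) = p a
    have := congrArg Subtype.val (e.apply_symm_apply (p.codRestrict _ hrange a))
    exact this
  refine ⟨P, p0, hrP, ?_⟩
  rw [hp0]
  exact hp

end Fermat.Agent.FF
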