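/-
Project FF (S19), cell [INST], sub-cell [I-PT], leaf [T-RED].  Owner: helper13.
Prefix `ffi_pt_red_`.  Imports Mathlib + FF/Inst/Pt/{Seams, RedAbs}.

`theorem ffi_pt_red : ffi_pt_SeamRED` — consequences of the reduction context `ffi_pt_IsRed`:
(a) `r_* (x_K)_∞ = (x_κ)_∞`; (b) the value characterisation; (c) integral `x`-value ⟹ finite
reduction; (d) simple zeros of reductions of chart functions come from exactly one simple zero.
-/
import Mathlib
import Fermat.Agent.FF.Inst.Pt.Seams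
import Fermat.Agent.FF.Inst.Pt.RedAbs

set_option autoImplicit false
set_option linter.unusedSectionVars false

noncomputable section

namespace Fermat.Agent.FF

open ModularCurve AlgebraicCurve IntermediateField Fermat.Agent.JT3 Fermat.Agent.S24
open scoped TensorProduct

section Aux

universe u v
variable {K : Type u} {F : Type v} [Field K] [Field F] [Algebra K F]

theorem ffi_pt_red_mem_nonunits_iff (v : Place K F) {f : F} (hf : f ≠ 0) :
    f ∈ v.toValuationSubring.nonunits ↔ 0 < v.ord f := by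
  rw [ValuationSubring.mem_nonunits_iff_or, hw_ord_pos_iff v hf]
  simp [hf]

theorem ffi_pt_red_const_eq_zero (v : Place K F) {c : K}
    (h : algebraMap K F c ∈ v.toValuationSubring.nonunits) : c = 0 := by
  by_contra hc
  have hc' : algebraMap K F c ≠ 0 := (map_ne_zero _).mpr hc
  rw [ffi_pt_red_mem_nonunits_iff v hc', hw_ord_algebraMap] at h
  exact lt_irrefl _ h

theorem ffi_pt_red_ord_smul (v : Place K F) {c : K} (hc : c ≠ 0) (f : F) :
    v.ord (c • f) = v.ord f := by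
  by_cases hf : f = 0
  · rw [hf, smul_zero]
  · rw [Algebra.smul_def, v.ord_mul ((map_ne_zero _).mpr hc) hf, hw_ord_algebraMap, zero_add]

theorem ffi_pt_red_sub_mem_nonunits (v : Place K F) {f g : F}
    (hf : f ∈ v.toValuationSubring.nonunits) (hg : g ∈ v.toValuationSubring.nonunits) :
    f - g ∈ v.toValuationSubring.nonunits := by
  rw [ValuationSubring.mem_nonunits_iff] at hf hg ⊢
  exact Valuation.map_sub_lt _ hf hg

end Aux

theorem ffi_pt_red : ffi_pt_SeamRED := by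
  intro O _ 𝒜 _ _ Kb _ _ _ κ _ _ _ FK _ _ Fκ _ _ ιK ικ Av res r X hred hxK hxκ hn hreg
  -- the reducible pairs
  have hpair : ∀ (a : 𝒜) (c₁ c₂ : ↥Av),
      res c₁ • ικ (1 ⊗ₜ[O] a) - algebraMap κ Fκ (res c₂) ≠ 0 →
      Finsupp.mapDomain r (rt_div hxK ((c₁ : Kb) • ιK (1 ⊗ₜ[O] a) - algebraMap Kb FK (c₂ : Kb))) =
        rt_div hxκ (res c₁ • ικ (1 ⊗ₜ[O] a) - algebraMap κ Fκ (res c₂)) := by
    intro a c₁ c₂ hne
    ext Q
    exact hred.red a c₁ c₂ hne _ (fun P => rfl) Q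
  have hpair1 : ∀ (a : 𝒜) (c : ↥Av), ικ (1 ⊗ₜ[O] a) - algebraMap κ Fκ (res c) ≠ 0 →
      Finsupp.mapDomain r (rt_div hxK (ιK (1 ⊗ₜ[O] a) - algebraMap Kb FK (c : Kb))) =
        rt_div hxκ (ικ (1 ⊗ₜ[O] a) - algebraMap κ Fκ (res c)) := by
    intro a c hne
    have h := hpair a 1 c (by rw [map_one, one_smul]; exact hne)
    rw [map_one, one_smul] at h
    rw [← h]
    congr 2
    rw [OneMemClass.coe_one, one_smul]
  have hpairX : ∀ c : ↥Av,
      Finsupp.mapDomain r (rt_div hxK (ιK (1 ⊗ₜ[O] X) - algebraMap Kb FK (c : Kb))) =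
        rt_div hxκ (ικ (1 ⊗ₜ[O] X) - algebraMap κ Fκ (res c)) := fun c =>
    hpair1 X c (ffi_red_sub_const_ne_zero hxκ (res c))
  -- (a)
  have hT : Finsupp.mapDomain r (rt_poleDiv hxK (ιK (1 ⊗ₜ[O] X))) =
      rt_poleDiv hxκ (ικ (1 ⊗ₜ[O] X)) := by
    have h0 := hpairX 0
    have h1 := hpairX 1
    rw [ZeroMemClass.coe_zero, map_zero (res : ↥Av →+* κ)] at h0
    rw [OneMemClass.coe_one, map_one (res : ↥Av →+* κ)] at h1
    exact ffi_red_poleDiv hxK hxκ r hn (c₁ := 0) (c₂ := 1) (d₁ := 0) (d₂ := 1) zero_ne_one h0 h1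
  -- (c)
  have hfinr : ∀ (P : Place Kb FK) (p : 𝒜 →ₐ[O] Kb), ffi_pt_At ιK p P → p X ∈ Av →
      ικ (1 ⊗ₜ[O] X) ∈ (r P).toValuationSubring := by
    intro P p hp hpX
    have hz : 0 < P.ord (ιK (1 ⊗ₜ[O] X) - algebraMap Kb FK (p X)) :=
      (ffi_pt_red_mem_nonunits_iff P (ffi_red_sub_const_ne_zero hxK _)).mp (hp X)
    have h1 := ffi_red_zero hxK hxκ r hT (hpairX ⟨p X, hpX⟩) hz
    have h2 : ικ (1 ⊗ₜ[O] X) - algebraMap κ Fκ (res ⟨p X, hpX⟩) ∈ (r P).toValuationSubring :=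
      (hw_mem_iff_ord_nonneg (r P) (ffi_red_sub_const_ne_zero hxκ _)).mpr h1.le
    have h3 := add_mem h2 ((r P).algebraMap_mem' (res ⟨p X, hpX⟩))
    rwa [sub_add_cancel] at h3
  refine ⟨hT, ?_, hfinr, ?_⟩
  · -- (b) the value characterisation
    intro P p pb hp hpb
    have hfinκ : ικ (1 ⊗ₜ[O] X) ∈ (r P).toValuationSubring := by
      have h1 := ValuationSubring.nonunits_subset (hpb X)
      have h2 := add_mem h1 ((r P).algebraMap_mem' (pb X))
      rwa [sub_add_cancel] at h2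
    -- the value of `x` at `P` is integral
    have hpX : p X ∈ Av := by
      by_contra hnot
      have hc0 : p X ≠ 0 := fun h0 => hnot (h0 ▸ Av.zero_mem)
      have hcinv : (p X)⁻¹ ∈ Av := (Av.mem_or_inv_mem (p X)).resolve_left hnot
      have hcinvn : (p X)⁻¹ ∈ Av.nonunits := by
        rw [ValuationSubring.mem_nonunits_iff_or]
        right
        rwa [inv_inv]
      have hres0 : res ⟨(p X)⁻¹, hcinv⟩ = 0 := (hred.res_ker ⟨(p X)⁻¹, hcinv⟩).mpr hcinvn
      have hne : res ⟨(p X)⁻¹, hcinv⟩ • ικ (1 ⊗ₜ[O] X) - algebraMap κ Fκ (res 1) ≠ 0 := by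
        rw [hres0, zero_smul, zero_sub, map_one, map_one]
        exact neg_ne_zero.mpr one_ne_zero
      have h := hpair X ⟨(p X)⁻¹, hcinv⟩ 1 hne
      have hR : rt_div hxκ (res ⟨(p X)⁻¹, hcinv⟩ • ικ (1 ⊗ₜ[O] X) - algebraMap κ Fκ (res 1)) =
          0 := by
        rw [hres0, zero_smul, zero_sub, ← map_neg]
        exact rt_div_algebraMap hxκ _
      have hL : rt_div hxK (((⟨(p X)⁻¹, hcinv⟩ : ↥Av) : Kb) • ιK (1 ⊗ₜ[O] X) -
          algebraMap Kb FK ((1 : ↥Av) : Kb)) =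
          rt_div hxK (ιK (1 ⊗ₜ[O] X) - algebraMap Kb FK (p X)) := by
        ext v
        rw [rt_div_apply, rt_div_apply]
        have e : ((⟨(p X)⁻¹, hcinv⟩ : ↥Av) : Kb) • ιK (1 ⊗ₜ[O] X) -
            algebraMap Kb FK ((1 : ↥Av) : Kb) =
            (p X)⁻¹ • (ιK (1 ⊗ₜ[O] X) - algebraMap Kb FK (p X)) := by
          rw [smul_sub, Algebra.smul_def ((p X)⁻¹) (algebraMap Kb FK (p X)), ← map_mul,
            inv_mul_cancel₀ hc0, OneMemClass.coe_one]
        rw [e, ffi_pt_red_ord_smul v (inv_ne_zero hc0)]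
      rw [hL, hR, ffi_red_div_sub_const hxK, Finsupp.mapDomain_sub, hT, sub_eq_zero] at h
      have hz : 0 < P.ord (ιK (1 ⊗ₜ[O] X) - algebraMap Kb FK (p X)) :=
        (ffi_pt_red_mem_nonunits_iff P (ffi_red_sub_const_ne_zero hxK _)).mp (hp X)
      have h2 := ffi_red_le_mapDomain r
        (rt_zeroDiv_nonneg hxK (ιK (1 ⊗ₜ[O] X) - algebraMap Kb FK (p X))) P
      rw [h, rt_zeroDiv_apply, max_eq_left hz.le] at h2
      have h3 : 0 < rt_poleDiv hxκ (ικ (1 ⊗ₜ[O] X)) (r P) := lt_of_lt_of_le hz h2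
      exact ((ffi_red_poleDiv_pos_iff hxκ (r P)).mp h3) hfinκ
    -- `p` maps `O[X]` into `Av`
    have hadj' : ∀ y : 𝒜, y ∈ Algebra.adjoin O {X} → p y ∈ Av := by
      intro y hy
      induction hy using Algebra.adjoin_induction with
      | mem y hy =>
        rw [Set.mem_singleton_iff] at hy
        rw [hy]
        exact hpX
      | algebraMap o =>
        rw [AlgHom.commutes]
        exact (hred.compat o).1
      | add y z _ _ hy hz => rw [map_add]; exact add_mem hy hz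
      | mul y z _ _ hy hz => rw [map_mul]; exact mul_mem hy hz
    have hadj : ∀ y : ↥(Algebra.adjoin O {X}), p (y : 𝒜) ∈ Av := fun y => hadj' y.1 y.2
    intro a
    -- the value of `a` at `P` is integral
    have hpa : p a ∈ Av := by
      let φ : ↥(Algebra.adjoin O {X}) →+* ↥Av :=
        ((p : 𝒜 →+* Kb).comp (Algebra.adjoin O {X}).val.toRingHom).codRestrict Av.toSubring hadj
      have hint : IsIntegral ↥Av (p a) :=
        IsIntegral.map_of_comp_eq φ (p : 𝒜 →+* Kb) (RingHom.ext fun y => rfl) (hred.integral a)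
      obtain ⟨y, hy⟩ := IsIntegrallyClosed.isIntegral_iff.1 hint
      rw [← hy]
      exact y.2
    refine ⟨hpa, ?_⟩
    -- the two constants `res (p a)` and `pb a` agree at `r P`
    have hkey : ικ (1 ⊗ₜ[O] a) - algebraMap κ Fκ (res ⟨p a, hpa⟩) ∈
        (r P).toValuationSubring.nonunits := by
      by_cases h0 : ιK (1 ⊗ₜ[O] a) - algebraMap Kb FK (p a) = 0
      · obtain ⟨h, hκ⟩ := hred.const a (p a) (sub_eq_zero.mp h0)
        rw [hκ, sub_self]
        exact (r P).toValuationSubring.nonunits.zero_mem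
      · by_cases h1 : ικ (1 ⊗ₜ[O] a) - algebraMap κ Fκ (res ⟨p a, hpa⟩) = 0
        · rw [h1]
          exact (r P).toValuationSubring.nonunits.zero_mem
        · have hp1 := hpair1 a ⟨p a, hpa⟩ h1
          have hreg' : ∀ P' : Place Kb FK, ιK (1 ⊗ₜ[O] X) ∈ P'.toValuationSubring →
              ιK (1 ⊗ₜ[O] a) - algebraMap Kb FK (p a) ∈ P'.toValuationSubring := fun P' hP' =>
            sub_mem (hreg a P' hP') (P'.algebraMap_mem' _)
          have hle := ffi_red_ord_le hxK hxκ r hT h0 hreg' hp1 hfinκ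
          have hz : 0 < P.ord (ιK (1 ⊗ₜ[O] a) - algebraMap Kb FK (p a)) :=
            (ffi_pt_red_mem_nonunits_iff P h0).mp (hp a)
          exact (ffi_pt_red_mem_nonunits_iff (r P) h1).mpr (lt_of_lt_of_le hz hle)
    have hdiff := ffi_pt_red_sub_mem_nonunits (r P) (hpb a) hkey
    have e : ικ (1 ⊗ₜ[O] a) - algebraMap κ Fκ (pb a) -
        (ικ (1 ⊗ₜ[O] a) - algebraMap κ Fκ (res ⟨p a, hpa⟩)) =
        algebraMap κ Fκ (res ⟨p a, hpa⟩ - pb a) := by
      rw [map_sub]; ring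
    rw [e] at hdiff
    exact sub_eq_zero.mp (ffi_pt_red_const_eq_zero (r P) hdiff)
  · -- (d) simple zeros
    intro u Q hQ hQ1
    have hab0 : ικ (1 ⊗ₜ[O] u) ≠ 0 := by
      intro h
      rw [h, Place.ord_zero] at hQ1
      exact zero_ne_one hQ1
    have ha0 : ιK (1 ⊗ₜ[O] u) ≠ 0 := by
      intro h
      obtain ⟨h', hκ⟩ := hred.const u 0 (by rw [h, map_zero])
      have hz : res ⟨0, h'⟩ = 0 := map_zero res
      rw [hz, map_zero] at hκ
      exact hab0 hκ
    have hp := hpair1 u 0 (by rw [map_zero (res : ↥Av →+* κ), map_zero, sub_zero]; exact hab0)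
    rw [ZeroMemClass.coe_zero, map_zero (res : ↥Av →+* κ), map_zero, map_zero, sub_zero,
      sub_zero] at hp
    exact ffi_red_simple_zero hxK hxκ r hT ha0 (hreg u) hp hQ hQ1

end Fermat.Agent.FF
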