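/-
Project FF (S19), cell [INST], sub-cell [I-PT], leaf **[T-SEP]** (helper1): SEPARATION, pure algebra —
`theorem ffi_pt_sep : ffi_pt_SeamSEP`.

Two `g`-tuples of `O`-algebra maps `𝒜 → Kb` (`O` an infinite domain inside the field `Kb`) with the
same symmetric functions `e_i(a(p_j))` for all `a ∈ 𝒜` differ by a permutation.

* `ffi_sep_avoid`    : finitely many NONZERO `O`-linear maps `𝒜 → Kb` have a common point where none
                       of them vanishes;
* `ffi_sep_exists`   : an element of `𝒜` separating finitely many distinct `O`-algebra maps;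
* `ffi_sep_multiset` : equal elementary symmetric functions ⟹ equal multisets (Vieta);
* `ffi_sep_perm`     : two maps `Fin g → T` with the same multiset of values differ by a permutation;
* **`ffi_pt_sep`**.
Prefix `ffi_sep_`.
-/
import Mathlib
import Fermat.Agent.FF.Inst.Pt.Seams

set_option autoImplicit false

noncomputable section

namespace Fermat.Agent.FF

open Polynomial

/-- **avoidance**: finitely many nonzero `O`-linear maps into a field containing the infinite domain
`O` have a common point where none of them vanishes -/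
theorem ffi_sep_avoid {O 𝒜 Kb : Type*} [CommRing O] [Infinite O] [AddCommGroup 𝒜]
    [Module O 𝒜] [Field Kb] [Algebra O Kb] (hinj : Function.Injective (algebraMap O Kb))
    (T : Finset (𝒜 →ₗ[O] Kb)) (hT : ∀ φ ∈ T, φ ≠ 0) : ∃ a : 𝒜, ∀ φ ∈ T, φ a ≠ 0 := by
  classical
  induction T using Finset.induction_on with
  | empty => exact ⟨0, fun φ h => absurd h (Finset.notMem_empty _)⟩
  | insert φ T' hφ ih =>
    obtain ⟨a, ha⟩ := ih fun ψ hψ => hT ψ (Finset.mem_insert_of_mem hψ)
    have hφ0 : φ ≠ 0 := hT φ (Finset.mem_insert_self _ _)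
    obtain ⟨b, hb⟩ : ∃ b, φ b ≠ 0 := by
      by_contra h
      push Not at h
      exact hφ0 (LinearMap.ext h)
    -- for each map the set of bad scalars has at most one element
    have hbad : ∀ ψ : 𝒜 →ₗ[O] Kb, (ψ a ≠ 0 ∨ ψ b ≠ 0) →
        ({o : O | ψ (a + o • b) = 0} : Set O).Subsingleton := by
      intro ψ hψ o ho o' ho'
      simp only [Set.mem_ofPred_eq, map_add, map_smul, Algebra.smul_def] at ho ho'
      by_contra hne
      have h1 : algebraMap O Kb (o - o') * ψ b = 0 := by
        rw [map_sub, sub_mul]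
        linear_combination ho - ho'
      rcases mul_eq_zero.1 h1 with h2 | h2
      · rw [map_sub, sub_eq_zero] at h2
        exact hne (hinj h2)
      · rw [h2, mul_zero, add_zero] at ho
        rcases hψ with h3 | h3
        · exact h3 ho
        · exact h3 h2
    have hfin : (⋃ ψ ∈ (insert φ T' : Finset (𝒜 →ₗ[O] Kb)),
        ({o : O | ψ (a + o • b) = 0} : Set O)).Finite := by
      refine Set.Finite.biUnion (Finset.finite_toSet _) fun ψ hψ => ?_
      refine (hbad ψ ?_).finite
      rcases Finset.mem_insert.1 (Finset.mem_coe.1 hψ) with rfl | h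
      · exact Or.inr hb
      · exact Or.inl (ha ψ h)
    obtain ⟨o, ho⟩ := hfin.exists_notMem
    refine ⟨a + o • b, fun ψ hψ h0 => ho ?_⟩
    exact Set.mem_biUnion (Finset.mem_coe.2 hψ) h0

/-- an element of `𝒜` separating finitely many distinct `O`-algebra maps -/
theorem ffi_sep_exists {O 𝒜 Kb : Type*} [CommRing O] [Infinite O] [CommRing 𝒜]
    [Algebra O 𝒜] [Field Kb] [Algebra O Kb] (hinj : Function.Injective (algebraMap O Kb))
    (S : Finset (𝒜 →ₐ[O] Kb)) : ∃ a : 𝒜, ∀ f ∈ S, ∀ f' ∈ S, f a = f' a → f = f' := by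
  classical
  obtain ⟨a, ha⟩ := ffi_sep_avoid hinj
    ((S.offDiag).image fun ff' => ff'.1.toLinearMap - ff'.2.toLinearMap) (by
      intro φ hφ
      obtain ⟨⟨f, f'⟩, hff', rfl⟩ := Finset.mem_image.1 hφ
      rw [Finset.mem_offDiag] at hff'
      intro h0
      apply hff'.2.2
      apply AlgHom.ext
      intro x
      have := LinearMap.congr_fun h0 x
      simpa [sub_eq_zero] using this)
  refine ⟨a, fun f hf f' hf' h => ?_⟩
  by_contra hne
  have hmem : (f.toLinearMap - f'.toLinearMap) ∈
      (S.offDiag).image fun ff' : (𝒜 →ₐ[O] Kb) × (𝒜 →ₐ[O] Kb) =>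
        ff'.1.toLinearMap - ff'.2.toLinearMap :=
    Finset.mem_image.2 ⟨(f, f'), Finset.mem_offDiag.2 ⟨hf, hf', hne⟩, rfl⟩
  apply ha _ hmem
  simp [h]

/-- **Vieta**: multisets of the same cardinality in a field with equal elementary symmetric functions
are equal -/
theorem ffi_sep_multiset {Kb : Type*} [Field Kb] (s t : Multiset Kb)
    (hcard : Multiset.card s = Multiset.card t) (h : ∀ i, s.esymm i = t.esymm i) : s = t := by
  have h1 : (s.map fun a => X - C a).prod = (t.map fun a => X - C a).prod := by
    rw [Multiset.prod_X_sub_X_eq_sum_esymm, Multiset.prod_X_sub_X_eq_sum_esymm, hcard]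
    exact Finset.sum_congr rfl fun j _ => by rw [h j]
  have h2 := congrArg Polynomial.roots h1
  rwa [roots_multiset_prod_X_sub_C, roots_multiset_prod_X_sub_C] at h2

/-- two maps `Fin g → T` with the same multiset of values differ by a permutation -/
theorem ffi_sep_perm {g : ℕ} {T : Type*} (p q : Fin g → T)
    (h : (Finset.univ : Finset (Fin g)).val.map q = (Finset.univ : Finset (Fin g)).val.map p) :
    ∃ e : Equiv.Perm (Fin g), ∀ j, q j = p (e j) := by
  classical
  have hc : ∀ c : T, Fintype.card {j // q j = c} = Fintype.card {j // p j = c} := by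
    intro c
    have h1 := congrArg (Multiset.count c) h
    rw [Multiset.count_map, Multiset.count_map] at h1
    rw [Fintype.card_subtype, Fintype.card_subtype]
    simp only [Finset.card, Finset.filter_val]
    simpa [eq_comm] using h1
  have he : ∀ c : T, Nonempty ({j // q j = c} ≃ {j // p j = c}) :=
    fun c => Fintype.card_eq.1 (hc c)
  refine ⟨Equiv.ofFiberEquiv fun c => (he c).some, fun j => ?_⟩
  exact (Equiv.ofFiberEquiv_map (fun c => (he c).some) j).symm

/-- **[T-SEP]** -/
theorem ffi_pt_sep : ffi_pt_SeamSEP := by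
  intro O _ _ _ 𝒜 _ _ Kb _ _ hinj g p q h
  classical
  obtain ⟨a, ha⟩ := ffi_sep_exists hinj
    ((Finset.univ.image p) ∪ (Finset.univ.image q) : Finset (𝒜 →ₐ[O] Kb))
  have hp : ∀ j, p j ∈ ((Finset.univ.image p) ∪ (Finset.univ.image q) : Finset (𝒜 →ₐ[O] Kb)) :=
    fun j => Finset.mem_union_left _ (Finset.mem_image_of_mem p (Finset.mem_univ j))
  have hq : ∀ j, q j ∈ ((Finset.univ.image p) ∪ (Finset.univ.image q) : Finset (𝒜 →ₐ[O] Kb)) :=
    fun j => Finset.mem_union_right _ (Finset.mem_image_of_mem q (Finset.mem_univ j))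
  -- the multisets of values at `a` agree
  have hval : ((Finset.univ : Finset (Fin g)).val.map fun j => q j a) =
      ((Finset.univ : Finset (Fin g)).val.map fun j => p j a) :=
    ffi_sep_multiset _ _ (by rw [Multiset.card_map, Multiset.card_map]) (h a)
  -- hence the multisets of maps agree
  apply ffi_sep_perm
  refine Multiset.ext.2 fun f => ?_
  by_cases hf : f ∈ ((Finset.univ.image p) ∪ (Finset.univ.image q) : Finset (𝒜 →ₐ[O] Kb))
  · have h1 := congrArg (Multiset.count (f a)) hval
    rw [Multiset.count_map, Multiset.count_map] at h1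
    rw [Multiset.count_map, Multiset.count_map]
    have e1 : ∀ j, (f a = q j a) ↔ (f = q j) :=
      fun j => ⟨fun h' => ha f hf (q j) (hq j) h', fun h' => by rw [h']⟩
    have e2 : ∀ j, (f a = p j a) ↔ (f = p j) :=
      fun j => ⟨fun h' => ha f hf (p j) (hp j) h', fun h' => by rw [h']⟩
    simp only [e1, e2] at h1
    exact h1
  · rw [Multiset.count_eq_zero_of_notMem, Multiset.count_eq_zero_of_notMem]
    · intro hm
      obtain ⟨j, -, rfl⟩ := Multiset.mem_map.1 hm
      exact hf (hp j)
    · intro hm
      obtain ⟨j, -, rfl⟩ := Multiset.mem_map.1 hm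
      exact hf (hq j)

end Fermat.Agent.FF

end
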