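/-
Project FF (S19), cell [INST], sub-cell [I-PT], leaf **[T-WIRE]** (helper1): THE CONCRETE WIRING —
`theorem ffi_pt_wire (N) [NeZero N] (ℓ) : ffi_pt_SeamWIRE N ℓ`.

In the context of `ffi_SeamPT` (level `L`, residue field `(κ, π)`, a place reduction `r` along
`(A, π)` with principal divisors generated by integral ones, the package data `ffi_PkgData`):
(a) `(ιK, ικ, A, π, r, X := j)` is a reduction context `ffi_pt_IsRed`;
(b) `ιK (1 ⊗ j) = j̄`, `ικ (1 ⊗ j) = j̃`;
(c) the automorphisms of `Q̄` fixing `L` fix the chart functions;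
(d) the inertia group of `A` preserves `A`, acts trivially on the residue field, and fixes `L`.

* `ffi_wire_integral` : GENERIC: the chart `fc_chart A0 {x}` is integral over `A0[X]`, `X = x` as an
                        element of the chart;
* `ffi_wire_coe_K`, `ffi_wire_coe_κ` : the `q`-expansions of `ιK (1 ⊗ a)`, `ικ (1 ⊗ a)`;
* `ffi_wire_red`, `ffi_wire_const`, `ffi_wire_isRed` : clause (a);
* **`ffi_pt_wire`**.
Prefix `ffi_wire_`.
-/
import Mathlib
import Fermat.Agent.FF.Inst.Pt.Seams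
import Fermat.Agent.S55.LevelFields

set_option autoImplicit false
set_option linter.unusedSectionVars false
set_option linter.style.haveILetI false
set_option synthInstance.maxHeartbeats 400000
set_option maxHeartbeats 1000000

noncomputable section

namespace Fermat.Agent.FF

open ModularCurve AlgebraicCurve IntermediateField Fermat.Agent.JT3
open scoped TensorProduct Pointwise

/-! ### generic: the chart is integral over `A0[X]` -/

section Integral

universe u v

variable {A0 : Type u} [CommRing A0] {F0 : Type v} [Field F0] [Algebra A0 F0] (x : F0)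

/-- the chart `fc_chart A0 {x}` is integral over `A0[X]`, `X = x` as an element of the chart -/
theorem ffi_wire_integral (a : ↥(fc_chart A0 ({x} : Set F0))) :
    IsIntegral ↥(Algebra.adjoin A0 ({ffi_gX A0 x} : Set ↥(fc_chart A0 ({x} : Set F0)))) a := by
  have hmap : (Algebra.adjoin A0 ({ffi_gX A0 x} : Set ↥(fc_chart A0 ({x} : Set F0)))).map
      (fc_chart A0 ({x} : Set F0)).val = Algebra.adjoin A0 ({x} : Set F0) := by
    rw [AlgHom.map_adjoin, Set.image_singleton]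
    rfl
  have h1 : ∀ r : ↥(Algebra.adjoin A0 ({x} : Set F0)), (r : F0) ∈ fc_chart A0 ({x} : Set F0) :=
    fun r => fc_adjoin_le_chart _ r.2
  have h2 : ∀ r : ↥(Algebra.adjoin A0 ({x} : Set F0)),
      (⟨(r : F0), h1 r⟩ : ↥(fc_chart A0 ({x} : Set F0))) ∈
        Algebra.adjoin A0 ({ffi_gX A0 x} : Set ↥(fc_chart A0 ({x} : Set F0))) := by
    intro r
    have hr : (r : F0) ∈ (Algebra.adjoin A0
        ({ffi_gX A0 x} : Set ↥(fc_chart A0 ({x} : Set F0)))).map
          (fc_chart A0 ({x} : Set F0)).val := by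
      rw [hmap]
      exact r.2
    obtain ⟨r', hr', hrr'⟩ := hr
    have e : (⟨(r : F0), h1 r⟩ : ↥(fc_chart A0 ({x} : Set F0))) = r' := Subtype.ext hrr'.symm
    rw [e]
    exact hr'
  let φ : ↥(Algebra.adjoin A0 ({x} : Set F0)) →+*
      ↥(Algebra.adjoin A0 ({ffi_gX A0 x} : Set ↥(fc_chart A0 ({x} : Set F0)))) :=
    { toFun := fun r => ⟨⟨(r : F0), h1 r⟩, h2 r⟩
      map_one' := rfl
      map_mul' := fun _ _ => rfl
      map_zero' := rfl
      map_add' := fun _ _ => rfl }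
  have ha : IsIntegral ↥(Algebra.adjoin A0 ({x} : Set F0)) (a : F0) := fc_mem_chart.1 a.2
  have h3 : IsIntegral ↥(Algebra.adjoin A0 ({ffi_gX A0 x} : Set ↥(fc_chart A0 ({x} : Set F0))))
      (algebraMap ↥(fc_chart A0 ({x} : Set F0)) F0 a) :=
    IsIntegral.map_of_comp_eq φ (RingHom.id F0) (RingHom.ext fun r => rfl) ha
  exact (isIntegral_algebraMap_iff
    (R := ↥(Algebra.adjoin A0 ({ffi_gX A0 x} : Set ↥(fc_chart A0 ({x} : Set F0)))))
    (A := ↥(fc_chart A0 ({x} : Set F0))) (B := F0) (x := a) Subtype.val_injective).1 h3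

end Integral

/-! ### the concrete wiring -/

section Wire

variable {A : ValuationSubring ff_Qb} {L : Type} [Field L] [Algebra ℚ L] [Algebra L ff_Qb]
  [IsScalarTower ℚ L ff_Qb]
  {κ : Type} [Field κ] [Algebra ↥(ffi_O A L) κ] {π : ↥A →+* κ} {N : ℕ} [NeZero N] {ℓ : ℕ}
  {g n m0 c0 : ℕ}
  {ιK : ff_Qb ⊗[↥(ffi_O A L)] ↥(ffi_A1 A L N) →ₐ[ff_Qb] ↥(modularFunctionFieldBar N)}
  {ικ : κ ⊗[↥(ffi_O A L)] ↥(ffi_A1 A L N) →ₐ[κ] ↥(modularFunctionFieldFullC κ N)}

/-- the `q`-expansion of `ιK (1 ⊗ a)` -/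
theorem ffi_wire_coe_K (D : ffi_PkgData A L κ N ℓ g n m0 c0 ιK ικ) (a : ↥(ffi_A1 A L N))
    (w : LaurentSeries ↥(ffi_O A L))
    (hw : coeffMap (algebraMap ↥(ffi_O A L) L) w =
      ((a : ↥(modularFunctionFieldFullC L N)) : LaurentSeries L)) :
    ((ιK (1 ⊗ₜ[↥(ffi_O A L)] a) : ↥(modularFunctionFieldBar N)) : LaurentSeries ff_Qb) =
      coeffMap A.subtype (coeffMap (ffi_OtoA A L) w) := by
  rw [D.compatK, ffi_toBar_coe, ← hw, coeffMap_coeffMap, coeffMap_coeffMap]
  exact coeffMap_congr (RingHom.ext fun o => rfl) w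

/-- the `q`-expansion of `ικ (1 ⊗ a)` -/
theorem ffi_wire_coe_κ (hres : ffi_ResOK A L κ π) (D : ffi_PkgData A L κ N ℓ g n m0 c0 ιK ικ)
    (a : ↥(ffi_A1 A L N)) (w : LaurentSeries ↥(ffi_O A L))
    (hw : coeffMap (algebraMap ↥(ffi_O A L) L) w =
      ((a : ↥(modularFunctionFieldFullC L N)) : LaurentSeries L)) :
    ((ικ (1 ⊗ₜ[↥(ffi_O A L)] a) : ↥(modularFunctionFieldFullC κ N)) : LaurentSeries κ) =
      coeffMap π (coeffMap (ffi_OtoA A L) w) := by
  rw [D.compatκ a w hw, coeffMap_coeffMap]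
  exact coeffMap_congr (RingHom.ext fun o => hres.comp o) w


/-- clause `red` of the reduction context -/
theorem ffi_wire_red (hres : ffi_ResOK A L κ π)
    {r : Place ff_Qb ↥(modularFunctionFieldBar N) → Place κ ↥(modularFunctionFieldFullC κ N)}
    (hr : IsPlaceReductionAlong A π N r) (D : ffi_PkgData A L κ N ℓ g n m0 c0 ιK ικ)
    (a : ↥(ffi_A1 A L N)) (c₁ c₂ : ↥A)
    (hne : π c₁ • ικ (1 ⊗ₜ[↥(ffi_O A L)] a) -
      algebraMap κ ↥(modularFunctionFieldFullC κ N) (π c₂) ≠ 0)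
    (E : Divisor ff_Qb ↥(modularFunctionFieldBar N))
    (hE : ∀ P, E P = P.ord ((c₁ : ff_Qb) • ιK (1 ⊗ₜ[↥(ffi_O A L)] a) -
      algebraMap ff_Qb ↥(modularFunctionFieldBar N) (c₂ : ff_Qb)))
    (Q : Place κ ↥(modularFunctionFieldFullC κ N)) :
    Finsupp.mapDomain r E Q = Q.ord (π c₁ • ικ (1 ⊗ₜ[↥(ffi_O A L)] a) -
      algebraMap κ ↥(modularFunctionFieldFullC κ N) (π c₂)) := by
  obtain ⟨w, hw⟩ := D.qint a
  set y : LaurentSeries ↥A := HahnSeries.single 0 c₁ * coeffMap (ffi_OtoA A L) w -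
    HahnSeries.single 0 c₂ with hy
  have h1 : coeffMap A.subtype y =
      (((c₁ : ff_Qb) • ιK (1 ⊗ₜ[↥(ffi_O A L)] a) -
        algebraMap ff_Qb ↥(modularFunctionFieldBar N) (c₂ : ff_Qb) :
          ↥(modularFunctionFieldBar N)) : LaurentSeries ff_Qb) := by
    rw [hy, map_sub, map_mul, coeffMap_single, coeffMap_single, ← ffi_wire_coe_K D a w hw,
      AddSubgroupClass.coe_sub, IntermediateField.coe_smul, Algebra.smul_def,
      IntermediateField.coe_algebraMap_apply, algebraMap_laurentSeries_eq_single,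
      algebraMap_laurentSeries_eq_single]
    rfl
  have h2 : coeffMap π y =
      ((π c₁ • ικ (1 ⊗ₜ[↥(ffi_O A L)] a) -
        algebraMap κ ↥(modularFunctionFieldFullC κ N) (π c₂) :
          ↥(modularFunctionFieldFullC κ N)) : LaurentSeries κ) := by
    rw [hy, map_sub, map_mul, coeffMap_single, coeffMap_single, ← ffi_wire_coe_κ hres D a w hw,
      AddSubgroupClass.coe_sub, IntermediateField.coe_smul, Algebra.smul_def,
      IntermediateField.coe_algebraMap_apply, algebraMap_laurentSeries_eq_single,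
      algebraMap_laurentSeries_eq_single]
  have hyK : coeffMap A.subtype y ∈
      laurentBaseChange ff_Qb (modularFunctionFieldFull N) := by
    rw [h1]
    exact Subtype.property _
  have hyk : coeffMap π y ∈ modularFunctionFieldFullC κ N := by
    rw [h2]
    exact Subtype.property _
  have hne' : coeffMap π y ≠ 0 := by
    rw [h2]
    intro h0
    exact hne (Subtype.ext h0)
  have e1 : (⟨coeffMap A.subtype y, hyK⟩ :
      ↥(laurentBaseChange ff_Qb (modularFunctionFieldFull N))) =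
      (c₁ : ff_Qb) • ιK (1 ⊗ₜ[↥(ffi_O A L)] a) -
        algebraMap ff_Qb ↥(modularFunctionFieldBar N) (c₂ : ff_Qb) := Subtype.ext h1
  have e2 : (⟨coeffMap π y, hyk⟩ : ↥(modularFunctionFieldFullC κ N)) =
      π c₁ • ικ (1 ⊗ₜ[↥(ffi_O A L)] a) -
        algebraMap κ ↥(modularFunctionFieldFullC κ N) (π c₂) := Subtype.ext h2
  have key := hr.2 y hyK hyk hne' E (fun P => by rw [e1]; exact hE P) Q
  rw [e2] at key
  exact key

/-- clause `const` of the reduction context -/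
theorem ffi_wire_const (hres : ffi_ResOK A L κ π) (D : ffi_PkgData A L κ N ℓ g n m0 c0 ιK ικ)
    (a : ↥(ffi_A1 A L N)) (d : ff_Qb)
    (had : ιK (1 ⊗ₜ[↥(ffi_O A L)] a) = algebraMap ff_Qb ↥(modularFunctionFieldBar N) d) :
    ∃ h : d ∈ A, ικ (1 ⊗ₜ[↥(ffi_O A L)] a) =
      algebraMap κ ↥(modularFunctionFieldFullC κ N) (π ⟨d, h⟩) := by
  obtain ⟨w, hw⟩ := D.qint a
  have hK := ffi_wire_coe_K D a w hw
  rw [had, IntermediateField.coe_algebraMap_apply, algebraMap_laurentSeries_eq_single] at hK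
  -- coefficientwise
  have hc : ∀ k : ℤ, ((ffi_OtoA A L (w.coeff k) : ↥A) : ff_Qb) =
      (HahnSeries.single (0 : ℤ) d).coeff k := by
    intro k
    have := congrArg (fun z : LaurentSeries ff_Qb => z.coeff k) hK
    simp only [coeffMap_coeff] at this
    exact this.symm
  have h0 : ((ffi_OtoA A L (w.coeff 0) : ↥A) : ff_Qb) = d := by
    rw [hc 0, HahnSeries.coeff_single_same]
  have hd : d ∈ A := by
    rw [← h0]
    exact Subtype.property _
  refine ⟨hd, Subtype.ext ?_⟩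
  rw [ffi_wire_coe_κ hres D a w hw, IntermediateField.coe_algebraMap_apply,
    algebraMap_laurentSeries_eq_single]
  ext k
  rw [coeffMap_coeff, coeffMap_coeff]
  rcases eq_or_ne k 0 with rfl | hk
  · rw [HahnSeries.coeff_single_same]
    congr 1
    exact Subtype.ext h0
  · rw [HahnSeries.coeff_single_of_ne hk]
    have hz : ffi_OtoA A L (w.coeff k) = 0 := by
      apply Subtype.ext
      rw [hc k, HahnSeries.coeff_single_of_ne hk]
      rfl
    rw [hz, map_zero]

/-- **clause (a)**: the reduction context. -/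
theorem ffi_wire_isRed (hres : ffi_ResOK A L κ π)
    {r : Place ff_Qb ↥(modularFunctionFieldBar N) → Place κ ↥(modularFunctionFieldFullC κ N)}
    (hr : IsPlaceReductionAlong A π N r) (hgen : PrincipalGeneratedByIntegral A π N)
    (D : ffi_PkgData A L κ N ℓ g n m0 c0 ιK ικ) :
    ffi_pt_IsRed ↥(ffi_O A L) ↥(ffi_A1 A L N) ff_Qb κ ↥(modularFunctionFieldBar N)
      ↥(modularFunctionFieldFullC κ N) ιK ικ A π r (ffi_gX ↥(ffi_O A L) (ffi_j L N)) where
  res_surj := hres.surj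
  res_ker := hres.ker
  compat o := ⟨o.2, (hres.comp o).symm⟩
  integral a := ffi_wire_integral (ffi_j L N) a
  const a d had := ffi_wire_const hres D a d had
  red a c₁ c₂ hne E hE Q := ffi_wire_red hres hr D a c₁ c₂ hne E hE Q
  prin _ hE := hr.mapDomain_mem_principal hgen hE

/-- **clause (b)**, generic fibre: `ιK (1 ⊗ j) = j̄`. -/
theorem ffi_wire_jK (D : ffi_PkgData A L κ N ℓ g n m0 c0 ιK ικ) :
    ιK (1 ⊗ₜ[↥(ffi_O A L)] ffi_gX ↥(ffi_O A L) (ffi_j L N)) = ffi_jBar N := by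
  rw [D.compatK]
  exact ffi_toBar_j L N

/-- **clause (b)**, special fibre: `ικ (1 ⊗ j) = j̃`. -/
theorem ffi_wire_jκ (D : ffi_PkgData A L κ N ℓ g n m0 c0 ιK ικ) :
    ικ (1 ⊗ₜ[↥(ffi_O A L)] ffi_gX ↥(ffi_O A L) (ffi_j L N)) = ffi_j κ N := by
  apply Subtype.ext
  rw [D.compatκ (ffi_gX ↥(ffi_O A L) (ffi_j L N)) (jqModC ↥(ffi_O A L))
    (by rw [coeffMap_jqModC]; rfl), coeffMap_jqModC]
  rfl

/-- **clause (c)**: the automorphisms of `Q̄` fixing `L` fix the chart functions. -/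
theorem ffi_wire_gal (D : ffi_PkgData A L κ N ℓ g n m0 c0 ιK ικ) (σ : ff_GQ)
    (hσ : ∀ c : L, σ (algebraMap L ff_Qb c) = algebraMap L ff_Qb c) (a : ↥(ffi_A1 A L N)) :
    ffi_pt_gal N σ • ιK (1 ⊗ₜ[↥(ffi_O A L)] a) = ιK (1 ⊗ₜ[↥(ffi_O A L)] a) := by
  apply Subtype.ext
  rw [coe_arithmeticGalois_smul, D.compatK, ffi_toBar_coe, coeffMap_coeffMap]
  exact coeffMap_congr (RingHom.ext fun c => hσ c) _

/-- **clause (d)**: the inertia group preserves `A` and acts trivially on the residue field. -/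
theorem ffi_wire_inertia (hres : ffi_ResOK A L κ π) (σ : ff_GQ)
    (hσ : σ ∈ A.inertiaSubgroupIn ℚ) (c : ↥A) :
    ∃ h : σ (c : ff_Qb) ∈ A, π ⟨_, h⟩ = π c := by
  obtain ⟨hA, htriv⟩ := (Fermat.Agent.S55.tl_mem_inertiaSubgroupIn_iff A σ).1 hσ
  have h1 : σ (c : ff_Qb) ∈ A := by
    have : σ • (c : ff_Qb) ∈ σ • A :=
      (ValuationSubring.smul_mem_pointwise_smul_iff).2 c.2
    rw [hA] at this
    exact this
  refine ⟨h1, ?_⟩
  have h2 : ((⟨σ (c : ff_Qb), h1⟩ - c : ↥A) : ff_Qb) ∈ A.nonunits := htriv c c.2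
  have h3 := (hres.ker (⟨σ (c : ff_Qb), h1⟩ - c)).2 h2
  rw [map_sub, sub_eq_zero] at h3
  exact h3

end Wire

/-- **[T-WIRE]** the concrete wiring. -/
theorem ffi_pt_wire (N : ℕ) [NeZero N] (ℓ : ℕ) : ffi_pt_SeamWIRE N ℓ := by
  intro _ _ A _ L _ _ _ _ lvl κ _ _ _ π hres r hr hgen g n m0 c0 ιK ικ D
  refine ⟨ffi_wire_isRed hres hr hgen D, ffi_wire_jK D, ffi_wire_jκ D,
    fun σ hσ a => ffi_wire_gal D σ hσ a, fun σ hσ c => ffi_wire_inertia hres σ hσ c,
    fun σ hσ c => ?_⟩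
  exact (lvl.fix (algebraMap L ff_Qb c)).1 ⟨c, rfl⟩ σ hσ

end Fermat.Agent.FF

end
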