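/-
Project FF (S19), cell [INST], sub-cell [I-PT], leaf [T-EQ] (helper28).  Prefix `ffi_pt_eq_`.

`theorem ffi_pt_eq : ffi_pt_SeamEQ` — a semilinear automorphism `τ` of `FK / Kb` fixing the chart
functions: (a) `τ ∘ p` is the point at `τ • v`; (b) `τ` permutes the points compatibly with the
symmetric functions.

* `ffi_pt_eq_smul_mem_nonunits` : `f ∈ 𝔪_v ⟹ τ f ∈ 𝔪_{τ v}`;
* `ffi_pt_eq_const_eq_zero`     : a constant in `𝔪_v` is zero;
* `ffi_pt_eq_value`             : the value at `τ • v` of a `τ`-fixed function is `τ` of its value at `v`;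
* `ffi_pt_eq_multiset`          : equal sums of `g` places have equal multisets of places.
-/
import Mathlib
import Fermat.Agent.FF.Inst.Pt.Seams
import Fermat.Agent.FF.Inst.Pt.Sep

set_option autoImplicit false
set_option linter.unusedSectionVars false

noncomputable section

namespace Fermat.Agent.FF

open ModularCurve AlgebraicCurve IntermediateField Fermat.Agent.JT3
open scoped TensorProduct Pointwise

section Tools

variable {K F : Type} [Field K] [Field F] [Algebra K F]

/-- `f ∈ 𝔪_v ⟹ τ f ∈ 𝔪_{τ v}`. -/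
theorem ffi_pt_eq_smul_mem_nonunits (τ : ↥(SemilinearAut K F)) (v : Place K F) {f : F}
    (hf : f ∈ v.toValuationSubring.nonunits) :
    τ • f ∈ (τ • v).toValuationSubring.nonunits := by
  rw [ValuationSubring.mem_nonunits_iff_exists_mem_maximalIdeal] at hf ⊢
  obtain ⟨hfv, hfm⟩ := hf
  set e := SemilinearAut.smulValuationSubringEquiv τ v.toValuationSubring with he
  refine ⟨(e ⟨f, hfv⟩).2, ?_⟩
  rw [IsLocalRing.mem_maximalIdeal, mem_nonunits_iff] at hfm ⊢
  intro hu
  apply hfm
  have : IsUnit (e ⟨f, hfv⟩) := hu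
  exact (MulEquiv.isUnit_map e).1 this

/-- a constant in the maximal ideal of a place is zero. -/
theorem ffi_pt_eq_const_eq_zero (v : Place K F) {c : K}
    (hc : algebraMap K F c ∈ v.toValuationSubring.nonunits) : c = 0 := by
  by_contra h0
  have h1 : (algebraMap K F c)⁻¹ ∈ v.toValuationSubring := by
    rw [← map_inv₀]
    exact v.algebraMap_mem' _
  rw [ValuationSubring.mem_nonunits_iff_exists_mem_maximalIdeal] at hc
  obtain ⟨hcv, hcm⟩ := hc
  have h2 := Ideal.mul_mem_left _ (⟨_, h1⟩ : ↥v.toValuationSubring) hcm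
  have h3 : (⟨_, h1⟩ : ↥v.toValuationSubring) * ⟨algebraMap K F c, hcv⟩ = 1 := by
    apply Subtype.ext
    show (algebraMap K F c)⁻¹ * algebraMap K F c = 1
    exact inv_mul_cancel₀ (by simpa using h0)
  rw [h3] at h2
  exact (Ideal.ne_top_iff_one _).1 (IsLocalRing.maximalIdeal.isMaximal _).ne_top h2

/-- the value at `τ • v` of a `τ`-fixed function is `τ` applied to its value at `v`. -/
theorem ffi_pt_eq_value (τ : ↥(SemilinearAut K F)) (v : Place K F) {f : F} (hτ : τ • f = f)
    {c d : K} (hc : f - algebraMap K F c ∈ v.toValuationSubring.nonunits)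
    (hd : f - algebraMap K F d ∈ (τ • v).toValuationSubring.nonunits) :
    d = SemilinearAut.baseAut τ c := by
  have h1 := ffi_pt_eq_smul_mem_nonunits τ v hc
  rw [smul_sub, hτ, SemilinearAut.smul_algebraMap] at h1
  have h2 : algebraMap K F (SemilinearAut.baseAut τ c - d) ∈
      (τ • v).toValuationSubring.nonunits := by
    have h3 : algebraMap K F (SemilinearAut.baseAut τ c - d) =
        (f - algebraMap K F d) - (f - algebraMap K F (SemilinearAut.baseAut τ c)) := by
      rw [map_sub]; ring
    rw [h3, ValuationSubring.mem_nonunits_iff_exists_mem_maximalIdeal] at *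
    obtain ⟨a1, a2⟩ := hd
    obtain ⟨b1, b2⟩ := h1
    exact ⟨sub_mem a1 b1, sub_mem a2 b2⟩
  have h4 := ffi_pt_eq_const_eq_zero _ h2
  exact (sub_eq_zero.1 h4).symm

/-- equal sums of `g` places have equal multisets of places. -/
theorem ffi_pt_eq_multiset {g : ℕ} (v w : Fin g → Place K F)
    (h : ffi_pt_sum v = ffi_pt_sum w) :
    (Finset.univ : Finset (Fin g)).val.map w = (Finset.univ : Finset (Fin g)).val.map v := by
  classical
  ext P
  have h1 := DFunLike.congr_fun h P
  simp only [ffi_pt_sum, Finsupp.finsetSum_apply, Finsupp.single_apply] at h1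
  rw [Multiset.count_map, Multiset.count_map]
  have h2 : ∀ u : Fin g → Place K F,
      (∑ j, if u j = P then (1 : ℤ) else 0) =
        ((Multiset.filter (fun j => P = u j) (Finset.univ : Finset (Fin g)).val).card : ℤ) := by
    intro u
    rw [Finset.sum_ite, Finset.sum_const_zero, add_zero, Finset.sum_const, nsmul_eq_mul, mul_one]
    congr 1
    rw [Finset.card_def, Finset.filter_val]
    congr 1
    exact Multiset.filter_congr fun _ _ => eq_comm
  rw [h2, h2] at h1
  exact_mod_cast h1.symm

end Tools

/-- **[T-EQ]** -/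
theorem ffi_pt_eq : ffi_pt_SeamEQ := by
  intro O _ 𝒜 _ _ C _ _ Kb _ _ _ Λ lead FK _ _ xK ιK g m1 X _ _ τ hτ
  classical
  refine ⟨?_, ?_⟩
  · -- (a) `τ ∘ p` is the point at `τ • v`
    intro v p p' hp hp' a
    have h1 := ffi_pt_eq_smul_mem_nonunits τ v (hp a)
    rw [smul_sub, hτ a, SemilinearAut.smul_algebraMap, ← hp' a] at h1
    exact h1
  · intro v w p q hp hq hsum a i
    -- `τ • ∑ v = ∑ (τ • v)`
    have h1 : τ • ffi_pt_sum v = ffi_pt_sum fun j => τ • v j := by
      simp only [ffi_pt_sum, Finset.smul_sum, SemilinearAut.smul_single]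
    rw [h1] at hsum
    obtain ⟨e, he⟩ := ffi_sep_perm (fun j => τ • v j) w (ffi_pt_eq_multiset _ _ hsum)
    -- values
    have hval : ∀ j, q j a = SemilinearAut.baseAut τ (p (e j) a) := by
      intro j
      have hd := hq j a
      rw [he j] at hd
      exact ffi_pt_eq_value τ (v (e j)) (hτ a) (hp (e j) a) hd
    have h2 : ((Finset.univ : Finset (Fin g)).val.map fun j => q j a) =
        ((Finset.univ : Finset (Fin g)).val.map fun j => SemilinearAut.baseAut τ (p j a)) := by
      have h3 : (fun j => q j a) = (fun j => SemilinearAut.baseAut τ (p j a)) ∘ e := by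
        funext j
        exact hval j
      rw [h3, ← Multiset.map_map, Multiset.map_univ_val_equiv]
    rw [h2, Finset.esymm_map_val, Finset.esymm_map_val, map_sum]
    refine Finset.sum_congr rfl fun t _ => ?_
    rw [map_prod]

end Fermat.Agent.FF
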