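/-
Project FF (S19), cell [INST], sub-cell [I-PT], generic leaf **[T-UNR]** (helper5).
Prefix `ffi_unr_`.

A separating generator `x` of a function field `F / K` (`K` algebraically closed, ANY
characteristic) is unramified at all but finitely many places: the set of places `v` with
`ord_v (x - c) ≥ 2` for some constant `c` is finite (`ffi_unr_finite`).

Proof: `A = K[x]`, `B` = integral closure of `A` in `F` (Dedekind, finite over `A`); if
`ord_v (x - c) ≥ 2` then `Q_v ^ 2 ∣ (x - c) B`, hence `Q_v ∣ differentIdeal A B ≠ ⊥`
(`pow_sub_one_dvd_differentIdeal_aux`), and a nonzero ideal has finitely many prime factors.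
-/
import Mathlib
import Fermat.Agent.FF.Dict.LSpace

set_option autoImplicit false
set_option linter.unusedSectionVars false
set_option linter.style.haveILetI false

namespace Fermat.Agent.FF

open AlgebraicCurve IntermediateField IsDedekindDomain UniqueFactorizationMonoid WithZero Polynomial
open Fermat.Agent.S24 Fermat.Agent.JT3
open scoped IntermediateField.algebraAdjoinAdjoin

universe u v
variable {K : Type u} {F : Type v} [Field K] [Field F] [Algebra K F]

/-- `x - c` is a maximal nonzero principal prime of `K[x]`. -/
theorem ffi_unr_isMaximal {x : F} (hx : Transcendental K x) (c : K) :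
    (Ideal.span {(⟨x, Algebra.self_mem_adjoin_singleton K x⟩ : Algebra.adjoin K ({x} : Set F)) -
      algebraMap K _ c}).IsMaximal ∧
    Ideal.span {(⟨x, Algebra.self_mem_adjoin_singleton K x⟩ : Algebra.adjoin K ({x} : Set F)) -
      algebraMap K _ c} ≠ ⊥ := by
  have hPID := hw_isPrincipalIdealRing_adjoin hx
  have htpoly : (⟨x, Algebra.self_mem_adjoin_singleton K x⟩ : Algebra.adjoin K ({x} : Set F)) -
      algebraMap K _ c = hw_polyEquiv hx (X - C c) := by
    apply Subtype.ext
    rw [hw_polyEquiv_coe]
    simp
  have hirr : Irreducible ((⟨x, Algebra.self_mem_adjoin_singleton K x⟩ :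
      Algebra.adjoin K ({x} : Set F)) - algebraMap K _ c) := by
    rw [htpoly]
    exact (MulEquiv.irreducible_iff (hw_polyEquiv hx)).mpr (irreducible_X_sub_C c)
  refine ⟨PrincipalIdealRing.isMaximal_of_irreducible hirr, ?_⟩
  rw [Ne, Ideal.span_singleton_eq_bot]
  exact hirr.ne_zero

section

variable [IsAlgClosed K] {x : F} (hx : rt_IsSepGen K x)

include hx

/-- the different of the chart of a separating generator is nonzero. -/
theorem ffi_unr_different_ne_bot :
    haveI := hw_isPrincipalIdealRing_adjoin hx.1
    haveI : IsDedekindDomain (integralClosure (Algebra.adjoin K ({x} : Set F)) F) :=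
      rt_chart_isDedekindDomain hx
    differentIdeal (Algebra.adjoin K ({x} : Set F))
      (integralClosure (Algebra.adjoin K ({x} : Set F)) F) ≠ ⊥ := by
  have hfd := hx.2.1
  have hsep := hx.2.2
  have hPID := hw_isPrincipalIdealRing_adjoin hx.1
  have hDed : IsDedekindDomain (integralClosure (Algebra.adjoin K ({x} : Set F)) F) :=
    rt_chart_isDedekindDomain hx
  have hfrac : IsFractionRing (integralClosure (Algebra.adjoin K ({x} : Set F)) F) F :=
    rt_chart_isFractionRing hx
  rw [ne_eq, ← FractionalIdeal.coeIdeal_inj (K := F),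
    coeIdeal_differentIdeal (Algebra.adjoin K ({x} : Set F)) K⟮x⟯ F
      (integralClosure (Algebra.adjoin K ({x} : Set F)) F)]
  simp

/-- the prime of a ramified place divides the different. -/
theorem ffi_unr_dvd (v : Place K F) (c : K) (hc : 2 ≤ v.ord (x - algebraMap K F c))
    (hfinv : ffd_IsFin (integralClosure (Algebra.adjoin K ({x} : Set F)) F) v) :
    haveI := hw_isPrincipalIdealRing_adjoin hx.1
    haveI : IsDedekindDomain (integralClosure (Algebra.adjoin K ({x} : Set F)) F) :=
      rt_chart_isDedekindDomain hx
    haveI : IsFractionRing (integralClosure (Algebra.adjoin K ({x} : Set F)) F) F :=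
      rt_chart_isFractionRing hx
    (hw_primeOfPlace v hfinv).asIdeal ∣ differentIdeal (Algebra.adjoin K ({x} : Set F))
      (integralClosure (Algebra.adjoin K ({x} : Set F)) F) := by
  classical
  have hfd := hx.2.1
  have hsep := hx.2.2
  have hPID := hw_isPrincipalIdealRing_adjoin hx.1
  have hDed : IsDedekindDomain (integralClosure (Algebra.adjoin K ({x} : Set F)) F) :=
    rt_chart_isDedekindDomain hx
  have hfrac : IsFractionRing (integralClosure (Algebra.adjoin K ({x} : Set F)) F) F :=
    rt_chart_isFractionRing hx
  have hfin : Module.Finite (Algebra.adjoin K ({x} : Set F))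
      (integralClosure (Algebra.adjoin K ({x} : Set F)) F) :=
    IsIntegralClosure.finite (Algebra.adjoin K ({x} : Set F)) K⟮x⟯ F _
  have hne : x - algebraMap K F c ≠ 0 := by
    intro h
    have hx' : x = algebraMap K F c := sub_eq_zero.mp h
    exact hx.1 (hx' ▸ isAlgebraic_algebraMap c)
  obtain ⟨hmax, hpne⟩ := ffi_unr_isMaximal hx.1 c
  set t : Algebra.adjoin K ({x} : Set F) :=
    (⟨x, Algebra.self_mem_adjoin_singleton K x⟩ : Algebra.adjoin K ({x} : Set F)) -
      algebraMap K _ c with htdef
  have ht_coe : algebraMap (integralClosure (Algebra.adjoin K ({x} : Set F)) F) F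
      (algebraMap (Algebra.adjoin K ({x} : Set F)) _ t) = x - algebraMap K F c := rfl
  -- `Q ^ 2 ∣ (t)`
  have hdvd : (hw_primeOfPlace v hfinv).asIdeal ^ 2 ∣
      (Ideal.span {t}).map (algebraMap (Algebra.adjoin K ({x} : Set F))
        (integralClosure (Algebra.adjoin K ({x} : Set F)) F)) := by
    rw [Ideal.map_span, Set.image_singleton,
      ← HeightOneSpectrum.intValuation_le_pow_iff_dvd]
    have hord := hw_placeOfPrime_ord (K := K) (F := F)
      (integralClosure (Algebra.adjoin K ({x} : Set F)) F) (hw_primeOfPlace v hfinv)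
      (x - algebraMap K F c)
    rw [hw_placeOfPrime_primeOfPlace v hfinv] at hord
    rw [← ht_coe, HeightOneSpectrum.valuation_of_algebraMap] at hord
    have ht0 : algebraMap (Algebra.adjoin K ({x} : Set F))
        (integralClosure (Algebra.adjoin K ({x} : Set F)) F) t ≠ 0 := by
      intro h0
      apply hne
      rw [← ht_coe, h0, map_zero]
    have hv0 : (hw_primeOfPlace v hfinv).intValuation
        (algebraMap (Algebra.adjoin K ({x} : Set F))
          (integralClosure (Algebra.adjoin K ({x} : Set F)) F) t) ≠ 0 :=
      (hw_primeOfPlace v hfinv).intValuation_ne_zero _ ht0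
    rw [← log_le_iff_le_exp hv0]
    rw [← ht_coe] at hc
    push_cast
    omega
  have hDedA : IsDedekindDomain (Algebra.adjoin K ({x} : Set F)) := inferInstance
  have htf : Module.IsTorsionFree (Algebra.adjoin K ({x} : Set F))
      (integralClosure (Algebra.adjoin K ({x} : Set F)) F) := inferInstance
  have key := pow_sub_one_dvd_differentIdeal_aux (Algebra.adjoin K ({x} : Set F)) K⟮x⟯ F
    (hw_primeOfPlace v hfinv).asIdeal (e := 2) (by norm_num) hpne hdvd
  rw [show 2 - 1 = 1 from rfl, pow_one] at key
  exact key

/-- **[T-UNR]** a separating generator is unramified outside a finite set of places. -/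
theorem ffi_unr_finite :
    {v : Place K F | ∃ c : K, 2 ≤ v.ord (x - algebraMap K F c)}.Finite := by
  classical
  have hPID := hw_isPrincipalIdealRing_adjoin hx.1
  have hDed : IsDedekindDomain (integralClosure (Algebra.adjoin K ({x} : Set F)) F) :=
    rt_chart_isDedekindDomain hx
  have hfrac : IsFractionRing (integralClosure (Algebra.adjoin K ({x} : Set F)) F) F :=
    rt_chart_isFractionRing hx
  have hB : ffd_IsChart K (integralClosure (Algebra.adjoin K ({x} : Set F)) F) x :=
    ffd_isChart_chart hx
  have hD := ffi_unr_different_ne_bot hx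
  have hfinQ : {Q : HeightOneSpectrum (integralClosure (Algebra.adjoin K ({x} : Set F)) F) |
      Q.asIdeal ∣ differentIdeal (Algebra.adjoin K ({x} : Set F))
        (integralClosure (Algebra.adjoin K ({x} : Set F)) F)}.Finite :=
    Ideal.finite_factors hD
  refine (hfinQ.image (hw_placeOfPrime (K := K) (F := F)
    (integralClosure (Algebra.adjoin K ({x} : Set F)) F))).subset ?_
  rintro v ⟨c, hc⟩
  have hne : x - algebraMap K F c ≠ 0 := by
    intro h
    have hx' : x = algebraMap K F c := sub_eq_zero.mp h
    exact hx.1 (hx' ▸ isAlgebraic_algebraMap c)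
  have h1 : x - algebraMap K F c ∈ v.toValuationSubring :=
    (hw_mem_iff_ord_nonneg v hne).mpr (by omega)
  have hxv : x ∈ v.toValuationSubring := by
    have := v.toValuationSubring.add_mem _ _ h1 (v.algebraMap_mem' c)
    simpa using this
  have hfinv : ffd_IsFin (integralClosure (Algebra.adjoin K ({x} : Set F)) F) v :=
    (hB.isFin_iff v).mpr hxv
  exact ⟨hw_primeOfPlace v hfinv, ffi_unr_dvd hx v c hc hfinv,
    hw_placeOfPrime_primeOfPlace v hfinv⟩

/-- the useful form: off a finite set of places, a zero of `x - c` is simple. -/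
theorem ffi_unr_exists_finset :
    ∃ S : Finset (Place K F), ∀ v ∉ S, ∀ c : K, 0 < v.ord (x - algebraMap K F c) →
      v.ord (x - algebraMap K F c) = 1 := by
  classical
  refine ⟨(ffi_unr_finite hx).toFinset, fun v hv c hc => ?_⟩
  rw [Set.Finite.mem_toFinset] at hv
  by_contra hne1
  exact hv ⟨c, by omega⟩

end

end Fermat.Agent.FF
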